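import Fermat.Agent.S56.GWC.Defs_INV
import Fermat.Agent.S55.H13_E3

/-!
# Cluster T / S56, package GW-CORE, INV plan: package CHI (helper46)

`stmt_CHI : Stmt_CHI`.  `K = ℚ(ζ_p)`: unramified outside `S ∋ p` (helper48's
`inertia_fix_root`), `G_K = ker χ_p`, so `[G_ℚ : G_K]` divides `p - 1`; `𝔽_p(1)` is a retract of
`Ind_K^ℚ Res 𝔽_p(1)` (helper13's `isRetract_ind`), and `Res 𝔽_p(1)` is trivial of dimension one,
so `Ind_K^ℚ Res 𝔽_p(1) ≅ 𝔽_p[G_ℚ/G_K]` (helper13's `ind_iso_perm`).
-/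

set_option autoImplicit false
set_option linter.style.haveILetI false
set_option linter.unusedSectionVars false
set_option linter.unusedVariables false

noncomputable section

namespace Fermat.Agent.S56.GWC.H46

open CategoryTheory groupCohomology ExtCitation Module

/-- Retracts are stable under isomorphism of the big module. -/
theorem isRetract_of_iso {k : Type} [Field k] {M N N' : Rep.{0} k S55.GQ}
    (h : S55.IsRetract M N) (e : N ≅ N') : S55.IsRetract M N' := by
  obtain ⟨i, r, hir⟩ := h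
  refine ⟨i ≫ e.hom, e.inv ≫ r, fun m => ?_⟩
  have h1 : (i ≫ e.hom ≫ e.inv ≫ r) = i ≫ r := by
    rw [Iso.hom_inv_id_assoc]
  have h2 := congrArg (fun f : M ⟶ M => f.hom m) h1
  exact h2.trans (hir m)

/-- The fixing subgroup of `ℚ(ζ_p)` is the kernel of the mod `p` cyclotomic character. -/
theorem fixingSubgroup_adjoin_eq_ker (p : ℕ) [Fact p.Prime] (ζ : AlgebraicClosure ℚ)
    (hζ : IsPrimitiveRoot ζ p) :
    (IntermediateField.adjoin ℚ ({ζ} : Set (AlgebraicClosure ℚ))).fixingSubgroup =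
      (cycloChar p).ker := by
  have hp : p.Prime := Fact.out
  haveI : NeZero p := ⟨hp.ne_zero⟩
  ext s
  rw [IntermediateField.mem_fixingSubgroup_iff, MonoidHom.mem_ker]
  constructor
  · intro hs
    have hsζ : s ζ = ζ := hs ζ (IntermediateField.mem_adjoin_simple_self ℚ ζ)
    apply S55.H48.cycloChar_eq_one_of_fix
    intro t ht
    obtain ⟨j, -, rfl⟩ := hζ.eq_pow_of_pow_eq_one ht
    rw [map_pow, hsζ]
  · intro hs
    exact S55.H48.fixes_adjoin s ζ (S55.H13.fix_of_cycloChar_eq_one p s hs ζ hζ.pow_eq_one)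

/-- The index of the kernel of the mod `p` cyclotomic character is prime to `p`. -/
theorem not_dvd_index_ker_cycloChar (p : ℕ) [Fact p.Prime] :
    ¬ p ∣ (cycloChar p).ker.index := by
  have hp : p.Prime := Fact.out
  haveI : NeZero p := ⟨hp.ne_zero⟩
  rw [Subgroup.index_ker]
  have h1 : Nat.card (cycloChar p).range ∣ Nat.card (ZMod p)ˣ :=
    Subgroup.card_subgroup_dvd_card _
  have h2 : Nat.card (ZMod p)ˣ = p - 1 := by
    rw [Nat.card_eq_fintype_card, ZMod.card_units_eq_totient, Nat.totient_prime hp]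
  rw [h2] at h1
  intro h3
  have h4 : p ∣ p - 1 := h3.trans h1
  have h5 : p ≤ p - 1 := Nat.le_of_dvd (Nat.sub_pos_of_lt hp.one_lt) h4
  have := hp.pos
  omega

/-- **Package CHI.** -/
theorem stmt_CHI : Stmt_CHI := by
  intro p _ hp2 S hpS
  have hp : p.Prime := Fact.out
  haveI := S55.H48.qbar_isAlgebraic
  obtain ⟨ζ, hζ⟩ := S55.H48.exists_primitiveRoot p
  obtain ⟨K, hKdef⟩ : ∃ K : IntermediateField ℚ (AlgebraicClosure ℚ),
      K = IntermediateField.adjoin ℚ ({ζ} : Set (AlgebraicClosure ℚ)) := ⟨_, rfl⟩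
  have hfix : K.fixingSubgroup = (cycloChar p).ker := by
    rw [hKdef]; exact fixingSubgroup_adjoin_eq_ker p ζ hζ
  have hidx : ¬ p ∣ K.fixingSubgroup.index := by
    rw [hfix]; exact not_dvd_index_ker_cycloChar p
  have hKS : K.IsUnramifiedOutside S := by
    rw [hKdef]
    refine ⟨IntermediateField.adjoin.finiteDimensional
      (Algebra.IsIntegral.isIntegral (R := ℚ) ζ), ?_⟩
    intro q hq A hA g hg
    have hqp : (q : ℕ) ≠ p := by
      intro h
      apply hq
      have : q = pPrime p := Subtype.ext h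
      rw [this]
      exact hpS
    have hfixζ : g ζ = ζ := S55.H48.inertia_fix_root hp q.2 hqp A hA g hg ζ hζ.pow_eq_one
    rw [IntermediateField.mem_fixingSubgroup_iff]
    exact S55.H48.fixes_adjoin g ζ hfixζ
  refine ⟨K, ⟨hKS, ζ, ?_, hζ⟩, hidx, ?_⟩
  · rw [hKdef]; exact IntermediateField.mem_adjoin_simple_self ℚ ζ
  -- the retract
  have hidx0 : K.fixingSubgroup.index ≠ 0 := by
    intro h0
    apply hidx
    rw [h0]
    exact dvd_zero p
  haveI : K.fixingSubgroup.FiniteIndex := ⟨hidx0⟩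
  haveI : Finite (S55.GQ ⧸ K.fixingSubgroup) := Subgroup.finite_quotient_of_finiteIndex
  letI : Fintype (S55.GQ ⧸ K.fixingSubgroup) := Fintype.ofFinite _
  have hn : (Fintype.card (S55.GQ ⧸ K.fixingSubgroup) : ZMod p) ≠ 0 := by
    rw [Ne, ZMod.natCast_eq_zero_iff, ← Nat.card_eq_fintype_card, ← Subgroup.index_eq_card]
    exact hidx
  have hret := S55.H13.isRetract_ind K.fixingSubgroup (S55.kχ (cycloChar p)) hn
  have htriv : ∀ h : K.fixingSubgroup,
      (Rep.res K.fixingSubgroup.subtype (S55.kχ (cycloChar p))).ρ h (1 : ZMod p) =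
        (1 : ZMod p) := by
    intro h
    have h1 : cycloChar p (h : S55.GQ) = 1 := by
      have h0 : (h : S55.GQ) ∈ (cycloChar p).ker := hfix ▸ h.2
      exact MonoidHom.mem_ker.mp h0
    show (S55.kχ (cycloChar p)).ρ (h : S55.GQ) (1 : ZMod p) = (1 : ZMod p)
    show ((cycloChar p (h : S55.GQ) : (ZMod p)ˣ) : ZMod p) • (1 : ZMod p) = 1
    rw [h1, Units.val_one, one_smul]
  obtain ⟨e⟩ := S55.H13.ind_iso_perm K.fixingSubgroup
    (Rep.res K.fixingSubgroup.subtype (S55.kχ (cycloChar p))) (1 : ZMod p) htriv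
    one_ne_zero (fun w => ⟨w, by show (w : ZMod p) • (1 : ZMod p) = w; rw [smul_eq_mul, mul_one]⟩)
  exact isRetract_of_iso hret e

end Fermat.Agent.S56.GWC.H46

end
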