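import Fermat.Agent.S56.GWC.Defs_INV

set_option autoImplicit false

/-!
# Cluster T / S56, package GW-INV: the leaf B0 (helper47)

`Stmt_B0`: for an odd prime `p` there is a NONZERO additive character `b₀ : G_ℚ → 𝔽_p` of level
`{p}` (the degree `p` subfield of `ℚ(μ_{p²})`).

Route: `ζ` a primitive `p²`-th root of unity, `σ ζ = ζ ^ a(σ)`, `b₀ σ := (a(σ)^(p-1) - 1) / p mod p`
(Fermat quotient; additive because `(1 + p s)(1 + p t) ≡ 1 + p (s + t) mod p²`); level `{p}`:
`b₀` factors through `Gal(ℚ(μ_{p²})/ℚ)`, and inertia at `q ≠ p` fixes the `p²`-th roots of unity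
(they are distinct modulo `q`, as in `S56/H47_Basic.lean`, `inertia_fix_root`); nonzero: the
cyclotomic polynomial is irreducible (`Polynomial.cyclotomic_eq_minpoly_rat`), so some `σ` has
`σ ζ = ζ ^ (1 + p)` (`minpoly.exists_algEquiv_of_root`), and `(1 + p)^(p-1) ≡ 1 - p mod p²`.

Consumer: `S56/GWC/H47_L2.lean` (the local class `c⁰` at `p` with nonzero invariant).
-/

namespace Fermat.Agent.S56.GWC.H47

open CategoryTheory groupCohomology ExtCitation Module

/-- **Leaf B0**: a nonzero additive character `G_ℚ → 𝔽_p` of level `{p}`. -/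
def Stmt_B0 : Prop :=
  ∀ (p : ℕ) [Fact p.Prime], p ≠ 2 →
    ∃ b : S55.GQ → ZMod p, (∀ g h : S55.GQ, b (g * h) = b g + b h) ∧
      IsLevelConstantS₁ ({pPrime p} : Finset Nat.Primes) b ∧ ∃ σ : S55.GQ, b σ ≠ 0

end Fermat.Agent.S56.GWC.H47
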