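import Fermat.Agent.S56.GWC.Defs_INV
import Fermat.Agent.S56.GWC.H47_B0Defs
import Fermat.Agent.S55.H48_E5Adj
import Fermat.Agent.S55.H48_E2
import Fermat.Agent.Lib.Minkowski
import Fermat.Agent.Lib.LocalGlobalDense
import Fermat.Agent.Lib.FrobExists
import Fermat.Agent.S56.H13_Unr

set_option autoImplicit false
set_option linter.unusedSectionVars false
set_option linter.style.haveILetI false
set_option linter.unusedVariables false

/-!
# Cluster T / S56, package GW-INV: `Stmt_INV_A` and `Stmt_INV_B` (helper47)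

Everything is FORMAL from the four duality properties of `X = 𝔽_p(1)` (which `S55.Stmt_E4`
gives, via the retract `Stmt_CHI`) and Minkowski's theorem:

* `fst_eq_zero_of_isZ1c` : `Ш¹_S(ℚ, N) = 0` for trivial coefficients `N` (Minkowski);
* `isB2S_of_tr_zero`     : a level-`S` 2-cocycle `f` of `X` with `tr (0, δ_q res_q f) = 0` for all
                           `q ∈ S` is a coboundary (`β¹epi` + the previous item);
* `locTwoMono_of`        : `α³mono(X) ∧ β¹epi(X) ⟹ LocTwoMono tr X q` for all `q ∈ S`;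
* `exists_c0`            : `α²epi(X) ∧ β¹epi(X)` and a nonzero additive character of level `S`
                           give a local 2-cocycle with nonzero trace at some `q ∈ S`;
* `stmt_INV_A_of : S55.Stmt_E4 → Stmt_CHI → Stmt_INV_A`,
  `stmt_INV_B_of : S55.Stmt_E4 → Stmt_CHI → Stmt_B0 → Stmt_INV_B`.

No new export of the S55-E4 lane is needed for `Stmt_INV`.
-/

noncomputable section

namespace Fermat.Agent.S56.GWC.H47

open CategoryTheory groupCohomology ExtCitation Module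

/-! ### Minkowski: `Ш¹_S(ℚ, N) = 0` for trivial coefficients -/

section Minkowski

open Fermat.Agent.Lib.LocalGlobalDense

/-- A finite-dimensional intermediate field is fixed by everything fixing one element. -/
lemma exists_finset_fix (F : IntermediateField ℚ (AlgebraicClosure ℚ))
    [FiniteDimensional ℚ F] :
    ∃ T : Finset (AlgebraicClosure ℚ), ∀ σ : S55.GQ, (∀ x ∈ T, σ x = x) →
      σ ∈ F.fixingSubgroup := by
  obtain ⟨α, hα⟩ := Field.exists_primitive_element ℚ F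
  refine ⟨{(α : AlgebraicClosure ℚ)}, fun σ hσ => ?_⟩
  have hσα : σ (α : AlgebraicClosure ℚ) = α := hσ _ (Finset.mem_singleton_self _)
  rw [IntermediateField.mem_fixingSubgroup_iff]
  intro x hx
  let f₁ : F →ₐ[ℚ] AlgebraicClosure ℚ :=
    ((σ : AlgebraicClosure ℚ ≃ₐ[ℚ] AlgebraicClosure ℚ) :
      AlgebraicClosure ℚ →ₐ[ℚ] AlgebraicClosure ℚ).comp F.val
  let f₂ : F →ₐ[ℚ] AlgebraicClosure ℚ := F.val
  have hf : f₁ = f₂ := by
    have h1 : Algebra.adjoin ℚ {α} = ⊤ := by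
      have h2 := IntermediateField.adjoin_simple_toSubalgebra_of_isAlgebraic
        (Algebra.IsAlgebraic.isAlgebraic (R := ℚ) α)
      rw [hα, IntermediateField.top_toSubalgebra] at h2
      exact h2.symm
    refine AlgHom.ext_of_adjoin_eq_top h1 (fun y hy => ?_)
    rw [Set.mem_singleton_iff] at hy
    subst hy
    exact hσα
  exact DFunLike.congr_fun hf ⟨x, hx⟩

/-- **Minkowski**: an additive character of `G_ℚ` of level `S` which vanishes on the local
groups at all `q ∈ S` is zero. -/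
theorem hom_eq_zero_of_loc_triv {N : Type} [AddCommGroup N] (S : Finset Nat.Primes)
    (f : S55.GQ → N) (hadd : ∀ g h : S55.GQ, f (g * h) = f g + f h)
    (hlev : IsLevelConstantS₁ S f)
    (hloc : ∀ q ∈ S, ∀ h : S55.Gl q, f (S55.rl q h) = 0) : f = 0 := by
  have h1 : f 1 = 0 := by
    have := hadd 1 1
    rw [mul_one] at this
    have h2 : f 1 + 0 = f 1 + f 1 := by rw [add_zero]; exact this
    exact (add_left_cancel h2).symm
  obtain ⟨F, hF, hFc⟩ := hlev
  haveI : FiniteDimensional ℚ F := hF.1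
  have hfix : ∀ s ∈ F.fixingSubgroup, f s = 0 := by
    intro s hs
    have := hFc 1 s hs
    rw [one_mul] at this
    rw [this, h1]
  let χ' : S55.GQ →* Multiplicative N :=
    { toFun := fun σ => Multiplicative.ofAdd (f σ)
      map_one' := by rw [h1]; rfl
      map_mul' := fun σ τ => by rw [hadd]; rfl }
  have key : ∀ σ, χ' σ = 1 := by
    refine Fermat.Agent.Lib.Minkowski.hom_eq_one_of_unramified_everywhere χ' ?_ ?_
    · obtain ⟨T, hT⟩ := exists_finset_fix F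
      refine ⟨T, fun σ hσ => ?_⟩
      show Multiplicative.ofAdd (f σ) = 1
      rw [hfix σ (hT σ hσ)]
      rfl
    · intro ℓ hℓ
      by_cases hq : (⟨ℓ, hℓ⟩ : Nat.Primes) ∈ S
      · obtain ⟨q, hqdef⟩ : ∃ q : Nat.Primes, q = ⟨ℓ, hℓ⟩ := ⟨_, rfl⟩
        have hqS : q ∈ S := by rw [hqdef]; exact hq
        have hqℓ : (q : ℕ) = ℓ := by rw [hqdef]
        haveI : Fact (q : ℕ).Prime := ⟨q.2⟩
        refine ⟨primeLocalPlace q, ?_, fun s hs => ?_⟩
        · rw [← hqℓ]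
          exact Fermat.Agent.S56.H13.primeLocalPlace_liesOver q
        · show Multiplicative.ofAdd (f s) = 1
          have hsD : s ∈ (padicPlace (q : ℕ)).decompositionSubgroup ℚ := by
            obtain ⟨t, ht, rfl⟩ := hs
            exact t.2
          obtain ⟨τ, hτ⟩ := exists_local_lift_field (q : ℕ) s hsD F
          obtain ⟨g, hg⟩ : ∃ g : S55.GQ, g = localGaloisToGlobal (q : ℕ) τ := ⟨_, rfl⟩
          have hgloc : g = primeLocalToGlobal q τ := hg
          have hh : g⁻¹ * s ∈ F.fixingSubgroup := by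
            rw [IntermediateField.mem_fixingSubgroup_iff]
            intro x hx
            show g⁻¹ (s x) = x
            rw [← hτ x hx, ← hg]
            exact AlgEquiv.symm_apply_apply g x
          have hs_eq : s = g * (g⁻¹ * s) := by group
          have hfg : f g = 0 := by
            rw [hgloc]
            exact hloc q hqS τ
          have : f s = 0 := by
            rw [hs_eq, hadd, hfg, hfix _ hh, add_zero]
          rw [this]
          rfl
      · obtain ⟨A, hA⟩ := Fermat.Agent.Lib.FrobExists.exists_liesOverPrime ℓ hℓ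
        refine ⟨A, hA, fun s hs => ?_⟩
        show Multiplicative.ofAdd (f s) = 1
        have hsF : s ∈ F.fixingSubgroup := hF.2 ⟨ℓ, hℓ⟩ hq A hA hs
        rw [hfix s hsF]
        rfl
  funext σ
  have := key σ
  exact Multiplicative.ofAdd.injective this

end Minkowski


/-! ### The module `X = k(χ)` and its twisted dual -/

section Xmod

variable {k : Type} [Field k] (χ : S55.GQ →* kˣ)

/-- Evaluation on `k(χ)` is multiplication by the value at `1`. -/
lemma ev_kχ (x : S55.kχ χ) (φ : S55.Md χ (S55.kχ χ)) :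
    S55.ev χ (S55.kχ χ) x φ =
      (show k from x) * S55.ev χ (S55.kχ χ) (show S55.kχ χ from (1 : k)) φ := by
  have h : x = (show k from x) • (show S55.kχ χ from (1 : k)) := by
    show (show k from x) = (show k from x) * 1
    rw [mul_one]
  conv_lhs => rw [h]
  exact S55.ev_smul_left χ (S55.kχ χ) _ _ φ

/-- The twisted dual of `k(χ)` has trivial action. -/
lemma Md_kχ_rho (g : S55.GQ) (φ : S55.Md χ (S55.kχ χ)) :
    (S55.Md χ (S55.kχ χ)).ρ g φ = φ := by
  apply S55.Md_ext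
  intro m
  rw [S55.Md_rho_apply, S55.kχ_rho, ev_kχ χ _ φ, ev_kχ χ m φ, map_inv]
  show (χ g : k) * ((((χ g)⁻¹ : kˣ) : k) * (show k from m) * _) = (show k from m) * _
  rw [← mul_assoc, ← mul_assoc, Units.mul_inv, one_mul]

/-- The identity functional, as an element of the twisted dual. -/
def idM : S55.Md χ (S55.kχ χ) :=
  show Module.Dual k (S55.kχ χ) from (LinearMap.id : k →ₗ[k] k)

lemma ev_idM (x : S55.kχ χ) : S55.ev χ (S55.kχ χ) x (idM χ) = (show k from x) := rfl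

end Xmod

/-! ### Cone computations -/

section Cone

variable {k : Type} [Field k] {S : Finset Nat.Primes} {χ : S55.GQ →* kˣ}

/-- The level-`S` 2-coboundaries as a submodule. -/
def B2Ssub (S : Finset Nat.Primes) (M : Rep.{0} k S55.GQ) :
    Submodule k (S55.GQ × S55.GQ → M) where
  carrier := {a | S55.IsB2S S M a}
  add_mem' := by
    rintro a a' ⟨f, hf, rfl⟩ ⟨f', hf', rfl⟩
    exact ⟨f + f', hf.add hf', S55.dOne_add M f f'⟩
  zero_mem' := ⟨0, isLevelConstantS₁_const S (0 : M), by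
    funext x; simp [S55.dOne]⟩
  smul_mem' := by
    rintro c a ⟨f, hf, rfl⟩
    exact ⟨c • f, hf.comp (c • ·), S55.dOne_smul M c f⟩

lemma mem_B2Ssub {M : Rep.{0} k S55.GQ} (a : S55.GQ × S55.GQ → M) :
    a ∈ B2Ssub S M ↔ S55.IsB2S S M a := Iff.rfl

/-- `(0, δ_q (d g))` is a cone coboundary. -/
lemma isB3c_at3_dOneL (M : Rep.{0} k S55.GQ) (q : ↥S) (g : S55.Gl q.1 → M)
    (hg : IsLevelConstant₁ (S55.rl q.1) g) :
    S55.IsB3c S M (at3 S M q (S55.dOneL M q.1 g)) := by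
  classical
  refine ⟨0, fun q' => if h : q' = q then h ▸ (-g) else 0, isLevelConstantS₂_const S (0 : M),
    ?_, ?_, ?_⟩
  · intro q'
    by_cases h : q' = q
    · subst h
      simp only [dif_pos]
      exact S55.levL₁_neg q'.1 hg
    · simp only [dif_neg h]
      exact isLevelConstant₁_const (S55.rl q'.1) (0 : M)
  · show (0 : S55.GQ × S55.GQ × S55.GQ → M) = S55.dTwo M 0
    funext x
    simp [S55.dTwo]
  · intro q'
    by_cases h : q' = q
    · subst h
      simp only [dif_pos, at3, Pi.single_eq_same]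
      funext t
      simp only [S55.dOneL, S55.resTwo, Pi.sub_apply, Pi.zero_apply, Pi.neg_apply, map_neg]
      abel
    · simp only [dif_neg h, at3, Pi.single_eq_of_ne h]
      funext t
      simp [S55.resTwo]

lemma tr_at3_dOneL (tr : S55.Trace S χ) (q : ↥S) (g : S55.Gl q.1 → S55.kχ χ)
    (hg : IsLevelConstant₁ (S55.rl q.1) g) :
    tr.toFun (at3 S (S55.kχ χ) q (S55.dOneL (S55.kχ χ) q.1 g)) = 0 :=
  tr.zero_of_isB3c _ (isB3c_at3_dOneL (S55.kχ χ) q g hg)

/-- A purely local cone 3-cochain is the sum of its components. -/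
lemma zero_pair_eq_sum (M : Rep.{0} k S55.GQ) (z : ∀ q : ↥S, S55.Gl q.1 × S55.Gl q.1 → M) :
    ((0, z) : S55.C3c S M) = ∑ q : ↥S, at3 S M q (z q) := by
  classical
  refine Prod.ext ?_ ?_
  · simp [at3, Prod.fst_sum]
  · simp only [at3, Prod.snd_sum]
    exact (Finset.univ_sum_single z).symm

lemma tr_zero_pair (tr : S55.Trace S χ) (z : ∀ q : ↥S, S55.Gl q.1 × S55.Gl q.1 → S55.kχ χ) :
    tr.toFun ((0, z) : S55.C3c S (S55.kχ χ)) = ∑ q : ↥S, tr.toFun (at3 S (S55.kχ χ) q (z q)) := by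
  rw [zero_pair_eq_sum, map_sum]

lemma at3_smul (M : Rep.{0} k S55.GQ) (q : ↥S) (c : k) (z : S55.Gl q.1 × S55.Gl q.1 → M) :
    at3 S M q (c • z) = c • at3 S M q z := by
  classical
  refine Prod.ext ?_ ?_
  · simp [at3]
  · simp only [at3, Prod.smul_snd]
    rw [← Pi.single_smul]

lemma at3_add (M : Rep.{0} k S55.GQ) (q : ↥S) (z z' : S55.Gl q.1 × S55.Gl q.1 → M) :
    at3 S M q (z + z') = at3 S M q z + at3 S M q z' := by
  classical
  refine Prod.ext ?_ ?_
  · simp [at3]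
  · simp only [at3, Prod.snd_add]
    rw [← Pi.single_add]


lemma at3_zero (M : Rep.{0} k S55.GQ) (q : ↥S) :
    at3 S M q (0 : S55.Gl q.1 × S55.Gl q.1 → M) = 0 := by
  classical
  refine Prod.ext rfl ?_
  simp only [at3, Prod.snd_zero]
  exact Pi.single_zero q

/-- The value at `1` of an element of the twisted dual. -/
def sc (χ : S55.GQ →* kˣ) (m' : S55.Md χ (S55.kχ χ)) : k :=
  S55.ev χ (S55.kχ χ) (show S55.kχ χ from (1 : k)) m'

/-- `x ∪ m' = m'(1) • x` for cone 3-cochains of `k(χ)`. -/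
lemma cupA3_kχ (x : S55.C3c S (S55.kχ χ)) (m' : S55.Md χ (S55.kχ χ)) :
    S55.cupA3 S χ (S55.kχ χ) x m' = sc χ m' • x := by
  refine Prod.ext (funext fun t => ?_) (funext fun q => funext fun t => ?_)
  · show S55.ev χ (S55.kχ χ) (x.1 t) ((S55.Md χ (S55.kχ χ)).ρ _ m') = sc χ m' • x.1 t
    rw [Md_kχ_rho, ev_kχ]
    exact mul_comm _ _
  · show S55.ev χ (S55.kχ χ) (x.2 q t) ((S55.Md χ (S55.kχ χ)).ρ _ m') = sc χ m' • x.2 q t
    rw [Md_kχ_rho, ev_kχ]
    exact mul_comm _ _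

/-- `a ∪ (0, m') = (0, (m'_q(1) • res_q a)_q)`. -/
lemma cupB1_kχ (a : S55.GQ × S55.GQ → S55.kχ χ) (y : S55.C1c S (S55.Md χ (S55.kχ χ)))
    (hy : y.1 = 0) :
    S55.cupB1 S χ (S55.kχ χ) a y =
      ((0, fun q => sc χ (y.2 q) • S55.resTwo q.1 a) : S55.C3c S (S55.kχ χ)) := by
  refine Prod.ext (funext fun t => ?_) (funext fun q => funext fun t => ?_)
  · show S55.ev χ (S55.kχ χ) (a (t.1, t.2.1)) ((S55.Md χ (S55.kχ χ)).ρ _ (y.1 t.2.2)) = 0
    rw [hy]
    simp
  · show S55.ev χ (S55.kχ χ) (a (S55.rl q.1 t.1, S55.rl q.1 t.2))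
        ((S55.Md χ (S55.kχ χ)).ρ _ (y.2 q)) = sc χ (y.2 q) • S55.resTwo q.1 a t
    rw [Md_kχ_rho, ev_kχ]
    exact mul_comm _ _

/-- **(1)** A level-`S` 2-cocycle of `k(χ)` all of whose local traces vanish is a coboundary
(`β¹epi` + Minkowski). -/
theorem isB2S_of_tr_zero (tr : S55.Trace S χ) (hB : S55.BetaOneEpi tr (S55.kχ χ))
    (f : S55.GQ × S55.GQ → S55.kχ χ) (hf : S55.IsZ2S S (S55.kχ χ) f)
    (h0 : ∀ q : ↥S, tr.toFun (at3 S (S55.kχ χ) q (S55.resTwo q.1 f)) = 0) :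
    S55.IsB2S S (S55.kχ χ) f := by
  by_contra hfB
  have hfB' : f ∉ B2Ssub S (S55.kχ χ) := hfB
  obtain ⟨φ, hφf, hφB⟩ := Submodule.exists_le_ker_of_notMem hfB'
  obtain ⟨y, hy, hyφ⟩ := hB φ (fun a ha => LinearMap.mem_ker.1 (hφB ha))
  have hy1 : y.1 = 0 := by
    refine hom_eq_zero_of_loc_triv S y.1 ?_ hy.1.2 ?_
    · intro g h
      have h1 : (S55.Md χ (S55.kχ χ)).ρ g (y.1 h) - y.1 (g * h) + y.1 g = 0 :=
        congrFun hy.1.1 (g, h)
      rw [Md_kχ_rho] at h1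
      have h2 : y.1 (g * h) = y.1 h + y.1 g := by
        have := sub_eq_zero.1 (by rw [← h1]; abel :
          y.1 h + y.1 g - y.1 (g * h) = 0)
        exact this.symm
      rw [h2, add_comm]
    · intro q hq h
      have h1 : y.1 (S55.rl q h) =
          (S55.Md χ (S55.kχ χ)).ρ (S55.rl q h) (y.2 ⟨q, hq⟩) - y.2 ⟨q, hq⟩ :=
        congrFun (hy.2 ⟨q, hq⟩) h
      rw [Md_kχ_rho, sub_self] at h1
      exact h1
  have h3 := hyφ f hf
  rw [cupB1_kχ f y hy1, tr_zero_pair] at h3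
  have h4 : ∑ q : ↥S, tr.toFun (at3 S (S55.kχ χ) q (sc χ (y.2 q) • S55.resTwo q.1 f)) = 0 := by
    refine Finset.sum_eq_zero fun q _ => ?_
    rw [at3_smul, map_smul, h0 q, smul_zero]
  rw [h4] at h3
  exact hφf h3.symm

/-- **(2)** `α³mono` and `β¹epi` for `k(χ)` give local injectivity at every `q ∈ S`. -/
theorem locTwoMono_of (tr : S55.Trace S χ) (hA : S55.AlphaThreeMono tr (S55.kχ χ))
    (hB : S55.BetaOneEpi tr (S55.kχ χ)) (q : ↥S) : LocTwoMono tr (S55.kχ χ) q := by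
  classical
  intro c hc hlc hall
  have ht : tr.toFun (at3 S (S55.kχ χ) q c) = 0 := by
    have h1 := hall (idM χ) (fun h => Md_kχ_rho χ _ _)
    rw [cupA3_kχ] at h1
    have h2 : sc χ (idM χ) = 1 := rfl
    rw [h2, one_smul] at h1
    exact h1
  have hZ : S55.IsZ3c S (S55.kχ χ) (at3 S (S55.kχ χ) q c) := by
    refine ⟨⟨?_, ⟨⊥, IntermediateField.isUnramifiedOutside_bot S, fun _ _ _ _ _ _ _ _ _ => rfl⟩⟩,
      fun q' => ?_⟩
    · funext x
      simp [S55.dThree, at3]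
    · by_cases h : q' = q
      · subst h
        refine ⟨by simpa [at3] using hlc, ?_⟩
        simp only [at3, Pi.single_eq_same]
        rw [hc]
        rfl
      · refine ⟨?_, ?_⟩
        · simp only [at3, Pi.single_eq_of_ne h]
          exact isLevelConstant₂_const (S55.rl q'.1) (0 : S55.kχ χ)
        · simp only [at3, Pi.single_eq_of_ne h]
          funext x
          simp [S55.dTwoL, S55.resThree]
  have hB3 := hA (at3 S (S55.kχ χ) q c) hZ (fun m' _ => by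
    rw [cupA3_kχ, map_smul, ht, smul_zero])
  obtain ⟨f, g, hf, hg, h1, h2⟩ := hB3
  have hfZ : S55.IsZ2S S (S55.kχ χ) f := ⟨h1.symm, hf⟩
  have hres : ∀ q' : ↥S, S55.resTwo q'.1 f =
      (at3 S (S55.kχ χ) q c).2 q' + S55.dOneL (S55.kχ χ) q'.1 (g q') := fun q' => by
    rw [h2 q']; abel
  have h0 : ∀ q' : ↥S, tr.toFun (at3 S (S55.kχ χ) q' (S55.resTwo q'.1 f)) = 0 := by
    intro q'
    rw [hres q', at3_add, map_add, tr_at3_dOneL tr q' (g q') (hg q'), add_zero]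
    by_cases h : q' = q
    · subst h
      have : (at3 S (S55.kχ χ) q' c).2 q' = c := by simp [at3]
      rw [this, ht]
    · have : (at3 S (S55.kχ χ) q c).2 q' = 0 := by simp [at3, Pi.single_eq_of_ne h]
      rw [this, at3_zero, map_zero]
  obtain ⟨h, hh, hfh⟩ := isB2S_of_tr_zero tr hB f hfZ h0
  refine ⟨S55.resOne q.1 h - g q, S55.levL₁_sub q.1 (S55.levL₁_resOne q.1 hh) (hg q), ?_⟩
  have hq : (at3 S (S55.kχ χ) q c).2 q = c := by simp [at3]
  rw [S55.dOneL_sub, ← S55.resTwo_dOne, hfh, hres q, hq]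
  abel


end Cone

/-! ### `Stmt_INV_A` -/

/-- **INV-A** from `S55.Stmt_E4` and the retract `Stmt_CHI`. -/
theorem stmt_INV_A_of (hE4 : S55.Stmt_E4) (hCHI : Stmt_CHI) : Stmt_INV_A := by
  intro p _ hp2 S hpS
  obtain ⟨K, hK, _, hret⟩ := hCHI p hp2 S hpS
  obtain ⟨tr, hA2, hA3, hB1, hB2⟩ := hE4 p hp2 S hpS K hK
  obtain ⟨_, hA3', hB1', _⟩ := S55.H48.stmt_E2 (ZMod p) S (cycloChar p) tr _ _ hret
  exact ⟨tr, hA3' hA3, fun q => locTwoMono_of tr (hA3' hA3) (hB1' hB1) q⟩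

/-! ### `Stmt_INV_B` -/

section B

variable {k : Type} [Field k] {S : Finset Nat.Primes} {χ : S55.GQ →* kˣ}

/-- The functional `b' ↦ b'(σ₀)(1)` on 1-cochains of the twisted dual. -/
def evAt (χ : S55.GQ →* kˣ) (σ₀ : S55.GQ) : (S55.GQ → S55.Md χ (S55.kχ χ)) →ₗ[k] k where
  toFun b' := sc χ (b' σ₀)
  map_add' b b' := S55.ev_add_right χ (S55.kχ χ) _ _ _
  map_smul' c b := S55.ev_smul_right χ (S55.kχ χ) c _ _

/-- The character `b` as a 1-cochain of the twisted dual. -/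
def toMd (χ : S55.GQ →* kˣ) (b : S55.GQ → k) : S55.GQ → S55.Md χ (S55.kχ χ) :=
  fun g => b g • idM χ

lemma sc_toMd (b : S55.GQ → k) (g : S55.GQ) : sc χ (toMd χ b g) = b g := by
  show S55.ev χ (S55.kχ χ) _ (b g • idM χ) = b g
  rw [S55.ev_smul_right, ev_idM]
  exact mul_one _

lemma ev_toMd (b : S55.GQ → k) (g : S55.GQ) (x : S55.kχ χ) :
    S55.ev χ (S55.kχ χ) x (toMd χ b g) = (show k from x) * b g := by
  have h := sc_toMd (χ := χ) b g
  unfold sc at h
  rw [ev_kχ, h]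

lemma isZ1S_toMd (b : S55.GQ → k) (hadd : ∀ g h : S55.GQ, b (g * h) = b g + b h)
    (hlev : IsLevelConstantS₁ S b) : S55.IsZ1S S (S55.Md χ (S55.kχ χ)) (toMd χ b) := by
  refine ⟨?_, hlev.comp (fun c => c • idM χ)⟩
  funext t
  show (S55.Md χ (S55.kχ χ)).ρ t.1 (toMd χ b t.2) - toMd χ b (t.1 * t.2) + toMd χ b t.1 = 0
  rw [Md_kχ_rho]
  simp only [toMd, hadd, add_smul]
  abel

/-- The auxiliary cone 2-cochain `(h ∪ b, 0)`. -/
def cupHB (S : Finset Nat.Primes) (χ : S55.GQ →* kˣ) (h : S55.GQ → S55.kχ χ)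
    (b : S55.GQ → k) : S55.C2c S (S55.kχ χ) :=
  (fun t => (show k from h t.1) * b t.2, 0)

/-- The local cup product `c ∪ res_q b`. -/
def cupLB (χ : S55.GQ →* kˣ) (q : Nat.Primes) (c : S55.Gl q → S55.kχ χ) (b : S55.GQ → k) :
    S55.Gl q × S55.Gl q → S55.kχ χ :=
  fun t => (show k from c t.1) * b (S55.rl q t.2)

/-- **Leibniz**: for `x = (d h, g)` and an additive character `b`,
`x ∪ b = d_cone (h ∪ b, 0) + (0, ((g_q - res_q h) ∪ res_q b)_q)`. -/
lemma cupA2_toMd (x : S55.C2c S (S55.kχ χ)) (h : S55.GQ → S55.kχ χ)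
    (hx : S55.dOne (S55.kχ χ) h = x.1) (b : S55.GQ → k)
    (hadd : ∀ g h : S55.GQ, b (g * h) = b g + b h) :
    S55.cupA2 S χ (S55.kχ χ) x (toMd χ b) =
      S55.dCone2 S (S55.kχ χ) (cupHB S χ h b) +
        ((0, fun q => cupLB χ q.1 (x.2 q - S55.resOne q.1 h) b) : S55.C3c S (S55.kχ χ)) := by
  refine Prod.ext (funext fun t => ?_) (funext fun q => funext fun t => ?_)
  · obtain ⟨g₁, g₂, g₃⟩ := t
    show S55.ev χ (S55.kχ χ) (x.1 (g₁, g₂)) ((S55.Md χ (S55.kχ χ)).ρ _ (toMd χ b g₃)) =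
      S55.dTwo (S55.kχ χ) (cupHB S χ h b).1 (g₁, g₂, g₃) + 0
    rw [Md_kχ_rho, ev_toMd, ← hx, add_zero]
    show ((χ g₁ : k) * (show k from h g₂) - (show k from h (g₁ * g₂)) + (show k from h g₁)) * b g₃ =
      (χ g₁ : k) * ((show k from h g₂) * b g₃) - (show k from h (g₁ * g₂)) * b g₃
        + (show k from h g₁) * b (g₂ * g₃) - (show k from h g₁) * b g₂
    rw [hadd]
    ring
  · obtain ⟨t₁, t₂⟩ := t
    have h0 : S55.dOneL (S55.kχ χ) q.1 (0 : S55.Gl q.1 → S55.kχ χ) (t₁, t₂) = 0 := by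
      simp [S55.dOneL]
    show S55.ev χ (S55.kχ χ) (x.2 q t₁) ((S55.Md χ (S55.kχ χ)).ρ _ (toMd χ b (S55.rl q.1 t₂))) =
      ((show k from h (S55.rl q.1 t₁)) * b (S55.rl q.1 t₂) -
          S55.dOneL (S55.kχ χ) q.1 (0 : S55.Gl q.1 → S55.kχ χ) (t₁, t₂)) +
        ((show k from x.2 q t₁) - (show k from h (S55.rl q.1 t₁))) * b (S55.rl q.1 t₂)
    rw [Md_kχ_rho, ev_toMd, h0]
    show (show k from x.2 q t₁) * b (S55.rl q.1 t₂) =
      ((show k from h (S55.rl q.1 t₁)) * b (S55.rl q.1 t₂) - 0) +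
        ((show k from x.2 q t₁) - (show k from h (S55.rl q.1 t₁))) * b (S55.rl q.1 t₂)
    ring


lemma lev_cupHB (h : S55.GQ → S55.kχ χ) (hh : IsLevelConstantS₁ S h) (b : S55.GQ → k)
    (hb : IsLevelConstantS₁ S b) : IsLevelConstantS₂ S (cupHB S χ h b).1 := by
  obtain ⟨F, hF, hFc⟩ := hh
  obtain ⟨F', hF', hFc'⟩ := hb
  refine ⟨F ⊔ F', hF.sup hF', fun g g' s s' hs hs' => ?_⟩
  show (show k from h (g * s)) * b (g' * s') = (show k from h g) * b g'
  rw [hFc g s (IntermediateField.fixingSubgroup_antitone le_sup_left hs),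
    hFc' g' s' (IntermediateField.fixingSubgroup_antitone le_sup_right hs')]

lemma lev_cupLB (q : Nat.Primes) (c : S55.Gl q → S55.kχ χ)
    (hc : IsLevelConstant₁ (S55.rl q) c) (b : S55.GQ → k) (hb : IsLevelConstantS₁ S b) :
    IsLevelConstant₂ (S55.rl q) (cupLB χ q c b) := by
  obtain ⟨F, hF, hFc⟩ := hc
  obtain ⟨F', hF', hFc'⟩ := hb
  haveI := hF
  haveI := hF'.1
  refine ⟨F ⊔ F', IntermediateField.finiteDimensional_sup F F', fun g g' s s' hs hs' => ?_⟩
  show (show k from c (g * s)) * b (S55.rl q (g' * s')) = (show k from c g) * b (S55.rl q g')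
  rw [hFc g s (IntermediateField.fixingSubgroup_antitone le_sup_left hs), map_mul,
    hFc' _ _ (IntermediateField.fixingSubgroup_antitone le_sup_right hs')]

lemma dTwoL_cupLB (q : Nat.Primes) (c : S55.Gl q → S55.kχ χ)
    (hc : S55.dOneL (S55.kχ χ) q c = 0) (b : S55.GQ → k)
    (hadd : ∀ g h : S55.GQ, b (g * h) = b g + b h) :
    S55.dTwoL (S55.kχ χ) q (cupLB χ q c b) = 0 := by
  funext t
  obtain ⟨t₁, t₂, t₃⟩ := t
  have h1 : (χ (S55.rl q t₁) : k) * (show k from c t₂) - (show k from c (t₁ * t₂)) +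
      (show k from c t₁) = 0 := congrFun hc (t₁, t₂)
  show (χ (S55.rl q t₁) : k) * ((show k from c t₂) * b (S55.rl q t₃)) -
      (show k from c (t₁ * t₂)) * b (S55.rl q t₃) +
      (show k from c t₁) * b (S55.rl q (t₂ * t₃)) - (show k from c t₁) * b (S55.rl q t₂) = 0
  rw [map_mul, hadd]
  linear_combination b (S55.rl q t₃) * h1

/-- **(4)** `α²epi`, `β¹epi` for `k(χ)` and a nonzero additive character of level `S` give a
local 2-cocycle with nonzero trace at some `q ∈ S`. -/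
theorem exists_c0 (tr : S55.Trace S χ) (hA2 : S55.AlphaTwoEpi tr (S55.kχ χ))
    (hB1 : S55.BetaOneEpi tr (S55.kχ χ)) (b : S55.GQ → k)
    (hadd : ∀ g h : S55.GQ, b (g * h) = b g + b h) (hlev : IsLevelConstantS₁ S b)
    (σ₀ : S55.GQ) (hσ₀ : b σ₀ ≠ 0) :
    ∃ (q : ↥S) (c : S55.Gl q.1 × S55.Gl q.1 → S55.kχ χ),
      S55.dTwoL (S55.kχ χ) q.1 c = 0 ∧ IsLevelConstant₂ (S55.rl q.1) c ∧
        tr.toFun (at3 S (S55.kχ χ) q c) ≠ 0 := by
  obtain ⟨x, hx, hxφ⟩ := hA2 (evAt χ σ₀) (fun m' => by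
    show sc χ (S55.dZero (S55.Md χ (S55.kχ χ)) m' σ₀) = 0
    have : S55.dZero (S55.Md χ (S55.kχ χ)) m' σ₀ = 0 := by
      show (S55.Md χ (S55.kχ χ)).ρ σ₀ m' - m' = 0
      rw [Md_kχ_rho, sub_self]
    rw [this]
    exact S55.ev_zero_right χ (S55.kχ χ) _)
  have h1 := hxφ (toMd χ b) (isZ1S_toMd b hadd hlev)
  have h2 : (evAt χ σ₀) (toMd χ b) = b σ₀ := sc_toMd b σ₀
  rw [h2] at h1
  have h0 : ∀ q : ↥S, tr.toFun (at3 S (S55.kχ χ) q (S55.resTwo q.1 x.1)) = 0 := by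
    intro q
    rw [(hx.2 q).2]
    exact tr_at3_dOneL tr q _ (hx.2 q).1
  obtain ⟨h, hh, hfh⟩ := isB2S_of_tr_zero tr hB1 x.1 hx.1 h0
  have hlevHB : IsLevelConstantS₂ S (cupHB S χ h b).1 := lev_cupHB h hh b hlev
  have hlevHB' : ∀ q : ↥S, IsLevelConstant₁ (S55.rl q.1) ((cupHB S χ h b).2 q) := fun q =>
    isLevelConstant₁_const (S55.rl q.1) (0 : S55.kχ χ)
  rw [cupA2_toMd x h hfh b hadd, map_add,
    tr.zero_of_isB3c _ (S55.isB3c_dCone2 hlevHB hlevHB'), zero_add, tr_zero_pair] at h1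
  have h3 : ∑ q : ↥S, tr.toFun (at3 S (S55.kχ χ) q
      (cupLB χ q.1 (x.2 q - S55.resOne q.1 h) b)) ≠ 0 := by
    rw [h1]; exact hσ₀
  obtain ⟨q, -, hq⟩ := Finset.exists_ne_zero_of_sum_ne_zero h3
  refine ⟨q, cupLB χ q.1 (x.2 q - S55.resOne q.1 h) b, ?_, ?_, hq⟩
  · refine dTwoL_cupLB q.1 _ ?_ b hadd
    rw [S55.dOneL_sub, ← (hx.2 q).2, ← S55.resTwo_dOne, hfh, sub_self]
  · exact lev_cupLB q.1 _ (S55.levL₁_sub q.1 (hx.2 q).1 (S55.levL₁_resOne q.1 hh)) b hlev

end B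

/-- **INV-B** from `S55.Stmt_E4`, the retract `Stmt_CHI` and the character `Stmt_B0`. -/
theorem stmt_INV_B_of (hE4 : S55.Stmt_E4) (hCHI : Stmt_CHI) (hB0 : Stmt_B0) : Stmt_INV_B := by
  intro p _ hp2
  obtain ⟨S, hS⟩ : ∃ S : Finset Nat.Primes, S = {pPrime p} := ⟨_, rfl⟩
  have hpS : pPrime p ∈ S := by rw [hS]; exact Finset.mem_singleton_self _
  obtain ⟨K, hK, _, hret⟩ := hCHI p hp2 S hpS
  obtain ⟨tr, hA2, hA3, hB1, hB2⟩ := hE4 p hp2 S hpS K hK
  obtain ⟨hA2', hA3', hB1', _⟩ := S55.H48.stmt_E2 (ZMod p) S (cycloChar p) tr _ _ hret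
  obtain ⟨b, hadd, hlev, σ₀, hσ₀⟩ := hB0 p hp2
  have hlev' : IsLevelConstantS₁ S b := by rw [hS]; exact hlev
  obtain ⟨q, c, hc, hlc, hne⟩ := exists_c0 tr (hA2' hA2) (hB1' hB1) b hadd hlev' σ₀ hσ₀
  obtain ⟨q1, hq1⟩ := q
  have hq : q1 = pPrime p := by
    rw [hS] at hq1
    exact Finset.mem_singleton.1 hq1
  subst hq
  refine ⟨c, hc, hlc, ?_⟩
  rintro ⟨g, hg, rfl⟩
  exact hne (tr_at3_dOneL tr ⟨pPrime p, hq1⟩ g hg)

end Fermat.Agent.S56.GWC.H47

end
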