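/-
S56, GW-CORE, package INV, leaf B0 (statement of helper47, `GWC/H47_B0Defs.lean`): for an odd
prime `p` there is a nonzero additive character `G_ℚ → 𝔽_p` of level `{p}`.

Route: `ζ` a primitive `p²`-th root of unity, `a = autToPow : G_ℚ → (ℤ/p²)ˣ`; the unit `1 + p` is
not a `p`-th power (its `(p-1)`-st power is `1 - p ≠ 1`), so there is an additive character
`f : (ℤ/p²)ˣ → 𝔽_p` which does not vanish on it; `b = f ∘ a`.  Level `{p}`: `b` factors through
`ℚ(ζ)`, and inertia at `q ≠ p` fixes `ζ`.  Nonzero: the cyclotomic polynomial is irreducible,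
so some `σ` has `σ ζ = ζ ^ (1 + p)`.
Owner: helper64.
-/
import Fermat.Agent.S56.GWC.H47_B0Defs
import Fermat.Agent.S55.H48_Lev

set_option autoImplicit false

open CategoryTheory groupCohomology ExtCitation Module

noncomputable section

namespace Fermat.Agent.S56.GWC.H64

/-! ### An additive character separating a non-`p`-divisible element -/

/-- In an abelian group, an element which is not divisible by `p` is detected by an additive
character with values in `𝔽_p`. -/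
theorem exists_functional_ne_zero (p : ℕ) [Fact p.Prime] {V : Type*} [AddCommGroup V]
    [Module (ZMod p) V] (v : V) (hv : v ≠ 0) : ∃ φ : V →ₗ[ZMod p] ZMod p, φ v ≠ 0 := by
  by_contra h
  push Not at h
  exact hv ((Module.forall_dual_apply_eq_zero_iff (ZMod p) v).1 h)

theorem exists_addChar_ne_zero {M : Type*} [AddCommGroup M] (p : ℕ) [Fact p.Prime] (u : M)
    (hu : ∀ v : M, p • v ≠ u) : ∃ f : M →+ ZMod p, f u ≠ 0 := by
  classical
  let N : AddSubgroup M := (nsmulAddMonoidHom (α := M) p).range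
  have hp0 : ∀ x : M ⧸ N, p • x = 0 := by
    intro x
    induction x using QuotientAddGroup.induction_on with
    | H m =>
      rw [← QuotientAddGroup.mk_nsmul]
      exact (QuotientAddGroup.eq_zero_iff _).2 ⟨m, rfl⟩
  let inst : Module (ZMod p) (M ⧸ N) := AddCommGroup.zmodModule hp0
  have hne : (QuotientAddGroup.mk u : M ⧸ N) ≠ 0 := by
    intro h
    obtain ⟨v, hv⟩ := (QuotientAddGroup.eq_zero_iff _).1 h
    exact hu v hv
  obtain ⟨φ, hφ⟩ := exists_functional_ne_zero p (QuotientAddGroup.mk u : M ⧸ N) hne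
  exact ⟨φ.toAddMonoidHom.comp (QuotientAddGroup.mk' N), hφ⟩

/-! ### `1 + p` is not a `p`-th power modulo `p²` -/

theorem one_add_p_pow (p : ℕ) (m : ℕ) :
    ((1 : ZMod (p ^ 2)) + (p : ZMod (p ^ 2))) ^ m = 1 + (m : ZMod (p ^ 2)) * (p : ZMod (p ^ 2)) := by
  have hp2 : (p : ZMod (p ^ 2)) * (p : ZMod (p ^ 2)) = 0 := by
    have : ((p ^ 2 : ℕ) : ZMod (p ^ 2)) = 0 := ZMod.natCast_self _
    rw [← this]
    push_cast
    ring
  induction m with
  | zero => simp
  | succ m ih =>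
    rw [pow_succ (1 + (p : ZMod (p ^ 2))) m, ih]
    push_cast
    linear_combination (m : ZMod (p ^ 2)) * hp2

theorem not_pow_p_eq_one_add_p (p : ℕ) [Fact p.Prime] (v : (ZMod (p ^ 2))ˣ) :
    ((v ^ p : (ZMod (p ^ 2))ˣ) : ZMod (p ^ 2)) ≠ 1 + (p : ZMod (p ^ 2)) := by
  have hp : p.Prime := Fact.out
  have : NeZero (p ^ 2) := ⟨pow_ne_zero 2 hp.ne_zero⟩
  intro h
  have hcard : Fintype.card (ZMod (p ^ 2))ˣ = p * (p - 1) := by
    rw [ZMod.card_units_eq_totient, Nat.totient_prime_pow hp (by norm_num : 0 < 2)]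
    simp
  have h1 : (v ^ p) ^ (p - 1) = 1 := by
    rw [← pow_mul, ← hcard]
    exact pow_card_eq_one
  have h2 : (((v ^ p) ^ (p - 1) : (ZMod (p ^ 2))ˣ) : ZMod (p ^ 2)) = 1 := by
    rw [h1, Units.val_one]
  rw [Units.val_pow_eq_pow_val, h, one_add_p_pow] at h2
  have h3 : (((p - 1) * p : ℕ) : ZMod (p ^ 2)) = 0 := by
    push_cast
    linear_combination h2
  rw [ZMod.natCast_eq_zero_iff] at h3
  have h4 : p ∣ p - 1 := by
    have : p * p ∣ (p - 1) * p := by rwa [pow_two] at h3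
    exact Nat.dvd_of_mul_dvd_mul_right hp.pos this
  have h5 := Nat.le_of_dvd (Nat.sub_pos_of_lt hp.one_lt) h4
  have := hp.one_lt
  omega

/-! ### Inertia at `q ≠ p` fixes the `p²`-th roots of unity -/

/-- A `p`-th root of unity congruent to `1` modulo a place over `q ≠ p` is `1`. -/
theorem root_eq_one_of_val_lt {p q : ℕ} (hp : p.Prime) (hq : q.Prime) (hpq : q ≠ p)
    (A : ValuationSubring (AlgebraicClosure ℚ)) (hA : A.LiesOverPrime q)
    (z : AlgebraicClosure ℚ) (hz : z ^ p = 1) (hv : A.valuation (z - 1) < 1) : z = 1 := by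
  by_contra hz1
  have hzprim : IsPrimitiveRoot z p := by
    have : Fact p.Prime := ⟨hp⟩
    have ho : orderOf z = p := orderOf_eq_prime hz hz1
    rw [← ho]
    exact IsPrimitiveRoot.orderOf _
  have hsum : ∑ i ∈ Finset.range p, z ^ i = 0 := hzprim.geom_sum_eq_zero hp.one_lt
  have hzA : z ∈ A := by
    have : z = (z - 1) + 1 := by ring
    rw [this]
    exact A.add_mem _ _ ((A.valuation_le_one_iff _).1 hv.le) A.one_mem
  have hvi : ∀ i : ℕ, A.valuation (z ^ i - 1) < 1 := by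
    intro i
    have h3 : z ^ i - 1 = (z - 1) * ∑ j ∈ Finset.range i, z ^ j :=
      (mul_geom_sum _ _).symm
    rw [h3, map_mul]
    have h4 : A.valuation (∑ j ∈ Finset.range i, z ^ j) ≤ 1 :=
      (A.valuation_le_one_iff _).2 (A.sum_mem fun j _ => A.pow_mem hzA j)
    calc A.valuation (z - 1) * A.valuation (∑ j ∈ Finset.range i, z ^ j)
        ≤ A.valuation (z - 1) := mul_le_of_le_one_right' h4
      _ < 1 := hv
  have hvp : A.valuation ((p : ℕ) : AlgebraicClosure ℚ) < 1 := by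
    have h5 : ((p : ℕ) : AlgebraicClosure ℚ) =
        - ∑ i ∈ Finset.range p, (z ^ i - 1) := by
      rw [Finset.sum_sub_distrib, hsum]
      simp
    rw [h5, Valuation.map_neg]
    exact Valuation.map_sum_lt _ one_ne_zero (fun i _ => hvi i)
  have hvq : A.valuation ((q : ℕ) : AlgebraicClosure ℚ) < 1 := (A.mem_nonunits_iff).1 hA
  have hcop : Nat.Coprime p q := (Nat.coprime_primes hp hq).2 (Ne.symm hpq)
  have hbez : (p : ℤ) * Int.gcdA p q + (q : ℤ) * Int.gcdB p q = 1 := by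
    have := Int.gcd_eq_gcd_ab p q
    rw [← this]
    exact_mod_cast hcop
  have hint : ∀ a : ℤ, A.valuation ((a : ℤ) : AlgebraicClosure ℚ) ≤ 1 := fun a =>
    (A.valuation_le_one_iff _).2 (intCast_mem A a)
  have h6 : (1 : AlgebraicClosure ℚ) =
      ((p : ℕ) : AlgebraicClosure ℚ) * ((Int.gcdA p q : ℤ) : AlgebraicClosure ℚ) +
        ((q : ℕ) : AlgebraicClosure ℚ) * ((Int.gcdB p q : ℤ) : AlgebraicClosure ℚ) := by
    exact_mod_cast hbez.symm
  have h7 : A.valuation (1 : AlgebraicClosure ℚ) < 1 := by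
    rw [h6]
    refine lt_of_le_of_lt (Valuation.map_add _ _ _) (max_lt ?_ ?_)
    · rw [map_mul]
      exact lt_of_le_of_lt (mul_le_of_le_one_right' (hint _)) hvp
    · rw [map_mul]
      exact lt_of_le_of_lt (mul_le_of_le_one_right' (hint _)) hvq
  rw [map_one] at h7
  exact lt_irrefl _ h7

/-- Inertia at `q ≠ p` fixes the `p²`-th roots of unity. -/
theorem inertia_fix_root_sq {p q : ℕ} (hp : p.Prime) (hq : q.Prime) (hpq : q ≠ p)
    (A : ValuationSubring (AlgebraicClosure ℚ)) (hA : A.LiesOverPrime q) (σ : S55.GQ)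
    (hσ : σ ∈ A.inertiaSubgroupIn ℚ) (t : AlgebraicClosure ℚ) (ht : t ^ (p ^ 2) = 1) :
    σ t = t := by
  have hp2 : p ^ 2 ≠ 0 := pow_ne_zero 2 hp.ne_zero
  have hvt : A.valuation t = 1 := by
    have h1 : A.valuation t ^ (p ^ 2) = 1 := by rw [← map_pow, ht, map_one]
    exact (pow_eq_one_iff_of_nonneg zero_le hp2).1 h1
  have htA : t ∈ A := (A.valuation_le_one_iff t).1 hvt.le
  have ht0 : t ≠ 0 := by
    rintro rfl
    rw [zero_pow hp2] at ht
    exact zero_ne_one ht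
  have h1 : σ t - t ∈ A.nonunits := S05.H95.sub_mem_nonunits_of_mem_inertia A hσ htA
  have hz : (σ t * t⁻¹) ^ (p ^ 2) = 1 := by
    rw [mul_pow, ← map_pow, ht, map_one, inv_pow, ht, inv_one, mul_one]
  have hv : A.valuation (σ t * t⁻¹ - 1) < 1 := by
    have h2 : σ t * t⁻¹ - 1 = (σ t - t) * t⁻¹ := by
      field_simp
    rw [h2, map_mul, map_inv₀, hvt, inv_one, mul_one]
    exact (A.mem_nonunits_iff).1 h1
  have hzA : σ t * t⁻¹ ∈ A := by
    have : σ t * t⁻¹ = (σ t * t⁻¹ - 1) + 1 := by ring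
    rw [this]
    exact A.add_mem _ _ ((A.valuation_le_one_iff _).1 hv.le) A.one_mem
  have hvp : A.valuation ((σ t * t⁻¹) ^ p - 1) < 1 := by
    have h3 : (σ t * t⁻¹) ^ p - 1 = (σ t * t⁻¹ - 1) * ∑ j ∈ Finset.range p, (σ t * t⁻¹) ^ j :=
      (mul_geom_sum _ _).symm
    rw [h3, map_mul]
    have h4 : A.valuation (∑ j ∈ Finset.range p, (σ t * t⁻¹) ^ j) ≤ 1 :=
      (A.valuation_le_one_iff _).2 (A.sum_mem fun j _ => A.pow_mem hzA j)
    calc A.valuation (σ t * t⁻¹ - 1) * A.valuation (∑ j ∈ Finset.range p, (σ t * t⁻¹) ^ j)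
        ≤ A.valuation (σ t * t⁻¹ - 1) := mul_le_of_le_one_right' h4
      _ < 1 := hv
  have hzp : (σ t * t⁻¹) ^ p = 1 :=
    root_eq_one_of_val_lt hp hq hpq A hA _ (by rw [← pow_mul, ← pow_two]; exact hz) hvp
  have hz1 : σ t * t⁻¹ = 1 := root_eq_one_of_val_lt hp hq hpq A hA _ hzp hv
  have := congrArg (· * t) hz1
  simpa [ht0] using this

/-! ### The leaf B0 -/

/-- **Leaf B0**: a nonzero additive character `G_ℚ → 𝔽_p` of level `{p}`. -/
theorem stmt_B0 : H47.Stmt_B0 := by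
  intro p _ _
  have hp : p.Prime := Fact.out
  have hp2 : 0 < p ^ 2 := pow_pos hp.pos 2
  have : NeZero (p ^ 2) := ⟨hp2.ne'⟩
  have := S55.H48.qbar_isAlgebraic
  have := S55.H48.qbar_isGalois
  have : Normal ℚ (AlgebraicClosure ℚ) := IsGalois.to_normal
  have : NeZero ((p ^ 2 : ℕ) : AlgebraicClosure ℚ) := ⟨Nat.cast_ne_zero.mpr hp2.ne'⟩
  obtain ⟨ζ, hζ⟩ : ∃ ζ : AlgebraicClosure ℚ, IsPrimitiveRoot ζ (p ^ 2) :=
    HasEnoughRootsOfUnity.exists_primitiveRoot (AlgebraicClosure ℚ) (p ^ 2)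
  -- the automorphism `σ₀` with `σ₀ ζ = ζ ^ (1 + p)`
  have hcop : Nat.Coprime (1 + p) (p ^ 2) := by
    apply Nat.Coprime.pow_right
    rw [Nat.coprime_add_self_left]
    exact Nat.coprime_one_left p
  have hζ' : IsPrimitiveRoot (ζ ^ (1 + p)) (p ^ 2) := hζ.pow_of_coprime _ hcop
  have hmin : minpoly ℚ (ζ ^ (1 + p)) = minpoly ℚ ζ := by
    rw [← Polynomial.cyclotomic_eq_minpoly_rat hζ hp2,
      ← Polynomial.cyclotomic_eq_minpoly_rat hζ' hp2]
  obtain ⟨σ₀, hσ₀⟩ : ∃ σ : S55.GQ, σ ζ = ζ ^ (1 + p) :=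
    minpoly.exists_algEquiv_of_root (x := ζ) (y := ζ ^ (1 + p))
      (Algebra.IsAlgebraic.isAlgebraic _) (by rw [hmin]; exact minpoly.aeval ℚ ζ)
  have hlt : 1 + p < p ^ 2 := by
    have := hp.two_le
    nlinarith
  have ha0 : ((hζ.autToPow ℚ σ₀ : (ZMod (p ^ 2))ˣ) : ZMod (p ^ 2)) = 1 + (p : ZMod (p ^ 2)) := by
    have h1 := hζ.autToPow_spec ℚ σ₀
    rw [hσ₀] at h1
    have h2 : ((hζ.autToPow ℚ σ₀ : (ZMod (p ^ 2))ˣ) : ZMod (p ^ 2)).val = 1 + p :=
      hζ.pow_inj (ZMod.val_lt _) hlt h1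
    have h3 := ZMod.natCast_zmod_val ((hζ.autToPow ℚ σ₀ : (ZMod (p ^ 2))ˣ) : ZMod (p ^ 2))
    rw [h2] at h3
    rw [← h3]
    push_cast
    rfl
  obtain ⟨f, hf⟩ := exists_addChar_ne_zero (M := Additive (ZMod (p ^ 2))ˣ) p
    (Additive.ofMul (hζ.autToPow ℚ σ₀)) (by
      intro v hv
      have h4 : (Additive.toMul v) ^ p = hζ.autToPow ℚ σ₀ := by
        have := congrArg Additive.toMul hv
        simpa using this
      exact not_pow_p_eq_one_add_p p (Additive.toMul v) (by rw [h4]; exact ha0))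
  refine ⟨fun σ => f (Additive.ofMul (hζ.autToPow ℚ σ)), ?_, ?_, ⟨σ₀, hf⟩⟩
  · intro g h
    show f (Additive.ofMul (hζ.autToPow ℚ (g * h))) = _
    rw [map_mul, ofMul_mul, map_add]
  · refine ⟨IntermediateField.adjoin ℚ ({ζ} : Set (AlgebraicClosure ℚ)), ⟨?_, ?_⟩, ?_⟩
    · exact IntermediateField.adjoin.finiteDimensional
        (Algebra.IsIntegral.isIntegral (R := ℚ) ζ)
    · intro q hq A hA g hg
      have hqp : (q : ℕ) ≠ p := by
        intro h
        apply hq
        rw [Finset.mem_singleton]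
        exact Subtype.ext h
      have hfix : g ζ = ζ := inertia_fix_root_sq hp q.2 hqp A hA g hg ζ hζ.pow_eq_one
      rw [IntermediateField.mem_fixingSubgroup_iff]
      exact S55.H48.fixes_adjoin g ζ hfix
    · intro g s hs
      rw [IntermediateField.mem_fixingSubgroup_iff] at hs
      have hsζ : s ζ = ζ := hs ζ (IntermediateField.mem_adjoin_simple_self ℚ ζ)
      have hs1 : hζ.autToPow ℚ s = 1 := by
        have h1 := hζ.autToPow_spec ℚ s
        rw [hsζ] at h1
        have hone : (1 : ZMod (p ^ 2)).val = 1 := by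
          have : Fact (1 < p ^ 2) := ⟨by have := hp.two_le; nlinarith⟩
          exact ZMod.val_one _
        have h2 : ((hζ.autToPow ℚ s : (ZMod (p ^ 2))ˣ) : ZMod (p ^ 2)).val =
            (1 : ZMod (p ^ 2)).val := by
          apply hζ.pow_inj (ZMod.val_lt _) (ZMod.val_lt _)
          rw [h1, hone, pow_one]
        exact Units.ext (ZMod.val_injective _ h2)
      show f (Additive.ofMul (hζ.autToPow ℚ (g * s))) = f (Additive.ofMul (hζ.autToPow ℚ g))
      rw [map_mul, hs1, mul_one]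

end Fermat.Agent.S56.GWC.H64
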