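import Fermat.Agent.S56.GW.Defs2
import Fermat.Agent.S55.Coh.Stmts
import Fermat.Agent.S55.Coh.Wiring
import Fermat.Agent.S55.Coh.Level

set_option autoImplicit false

/-!
# Cluster T / S56, package GW-CORE, layer 2: interfaces for `Stmt_PT2`

Owner-planner: helper64.  Plan: `NOTES/plan/T_GWC.md`.  Layer 1 (helper47): `S56/GW/Defs2.lean`,
`S56/GW/Core.lean` (`Stmt_GW_core ⇐ Stmt_INV + Stmt_PERF_cup + Stmt_PT2 + Stmt_EC + Stmt_ARCH`).
`Stmt_EC` is planned in `NOTES/plan/T_EC.md` (helper27), modular Artin induction in `S56/IND`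
(helper74).

Everything here is stated in the cochain language of helper49's engine (`S55/Coh/Defs.lean`):
level-`S` cochains `G_ℚ^n → X`, cone cochains, traces.

* `H3S`, `Stmt_H3S_ext`, `Stmt_H3S_ret`, `Stmt_H3S_base` : vanishing of `H³_S` and its dévissage.
* `BetaOneMono`, `Stmt_B1M_ext`, `Stmt_B1M_ret`, `Stmt_B1M_base` : injectivity of
  `H¹_c(X') → H²_S(X)^∨` and its dévissage; `Stmt_B1` : `β¹` is bijective for all modules.
* `grpSha1`, …, `PT2Ineq`, `Stmt_CONE1`, `Stmt_DUALCOUNT`, `Stmt_DD`, `Stmt_PT2e` : the counting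
  form of `Stmt_PT2` in the cochain language (additive groups and indices, so that the statement
  does not depend on the field of scalars).
* `Stmt_RS`, `Stmt_BRk` : restriction of scalars `k → 𝔽_p` and the bridge to the prelude's
  vocabulary.
-/

noncomputable section

namespace Fermat.Agent.S56.GWC

open CategoryTheory groupCohomology ExtCitation Module

/-! ### H³_S = 0 -/

section H3

variable {k : Type} [Field k]

/-- `H³_S(X) = 0`: every level-`S` 3-cocycle is the coboundary of a level-`S` 2-cochain. -/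
def H3S (S : Finset Nat.Primes) (X : Rep.{0} k S55.GQ) : Prop :=
  ∀ z : S55.GQ × S55.GQ × S55.GQ → X, S55.dThree X z = 0 → S55.IsLevS₃ S z →
    ∃ b : S55.GQ × S55.GQ → X, IsLevelConstantS₂ S b ∧ S55.dTwo X b = z

end H3

/-- **Package H3-ext**: `H³_S = 0` is closed under extensions (middle exactness of the long exact
sequence in degree 3: lift along a set-theoretic section of `π`). -/
def Stmt_H3S_ext : Prop :=
  ∀ (k : Type) [Field k] (S : Finset Nat.Primes)
    (X₁ X X₂ : Rep.{0} k S55.GQ) (i : X₁ ⟶ X) (π : X ⟶ X₂), S55.IsSES i π →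
    S55.Lev S X₁ → S55.Lev S X → S55.Lev S X₂ → H3S S X₁ → H3S S X₂ → H3S S X

/-- **Package H3-ret**: `H³_S = 0` passes to retracts. -/
def Stmt_H3S_ret : Prop :=
  ∀ (k : Type) [Field k] (S : Finset Nat.Primes) (X Y : Rep.{0} k S55.GQ),
    S55.IsRetract X Y → H3S S Y → H3S S X

/-- **Package H3-base** (from S55-E4, input `Top.Stmt_I2` + Shapiro in degree 3): `H³_S` of a
permutation module `𝔽_p[G_ℚ/G_K]`, `K` a base field of degree prime to `p`, vanishes. -/
def Stmt_H3S_base : Prop :=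
  ∀ (p : ℕ) [Fact p.Prime], p ≠ 2 → ∀ S : Finset Nat.Primes, pPrime p ∈ S →
    ∀ K : IntermediateField ℚ (AlgebraicClosure ℚ), S55.IsBaseField S p K →
      ¬ p ∣ K.fixingSubgroup.index → H3S S (S55.permRep (ZMod p) K)

/-- **Package H3** (assembly: base + dévissage + `S55.Stmt_E3`): `H³_S(X) = 0` for every
finite-dimensional `𝔽_p`-module of level `S ∋ p`. -/
def Stmt_H3S : Prop :=
  ∀ (p : ℕ) [Fact p.Prime], p ≠ 2 → ∀ (S : Finset Nat.Primes)
    (X : Rep.{0} (ZMod p) S55.GQ) [FiniteDimensional (ZMod p) X], pPrime p ∈ S →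
    S55.Lev S X → H3S S X

/-! ### β¹ mono -/

section B1M

variable {k : Type} [Field k] {S : Finset Nat.Primes} {χ : S55.GQ →* kˣ}

/-- `β¹` is injective: a cone 1-cocycle of `X'` which pairs to zero with all level-`S`
2-cocycles of `X` is a cone 1-coboundary.  (`H¹_c(X') ↪ H²_S(X)^∨`.) -/
def BetaOneMono (tr : S55.Trace S χ) (X : Rep.{0} k S55.GQ) : Prop :=
  ∀ y : S55.C1c S (S55.Md χ X), S55.IsZ1c S (S55.Md χ X) y →
    (∀ a : S55.GQ × S55.GQ → X, S55.IsZ2S S X a → tr.toFun (S55.cupB1 S χ X a y) = 0) →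
    S55.IsB1c S (S55.Md χ X) y

end B1M

/-- **Package B1M-ext** (four lemma, mono version).  For `0 → X₁ → X → X₂ → 0` of level `S`:
`β¹mono(X₁) ∧ β¹mono(X₂) ∧ H³_S(X₁) = 0 ⟹ β¹mono(X)`.
(Proof: `y ∈ Z¹_c(X')` orthogonal to `Z²_S(X)`.  Its image in `Z¹_c(X₁')` is orthogonal to
`Z²_S(X₁)`, so it is a coboundary; correct `y` by a coboundary so that it comes from
`y₂ ∈ Z¹_c(X₂')`.  Every `a₂ ∈ Z²_S(X₂)` lifts to `a ∈ Z²_S(X)` because `H³_S(X₁) = 0`;
so `y₂` is orthogonal to `Z²_S(X₂)`, hence a coboundary.) -/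
def Stmt_B1M_ext : Prop :=
  ∀ (k : Type) [Field k] (S : Finset Nat.Primes) (χ : S55.GQ →* kˣ) (tr : S55.Trace S χ),
    S55.LevChar S χ →
    ∀ (X₁ X X₂ : Rep.{0} k S55.GQ) (i : X₁ ⟶ X) (π : X ⟶ X₂), S55.IsSES i π →
      S55.Lev S X₁ → S55.Lev S X → S55.Lev S X₂ →
      BetaOneMono tr X₁ → BetaOneMono tr X₂ → H3S S X₁ → BetaOneMono tr X

/-- **Package B1M-ret**: `β¹mono` passes to retracts. -/
def Stmt_B1M_ret : Prop :=
  ∀ (k : Type) [Field k] (S : Finset Nat.Primes) (χ : S55.GQ →* kˣ) (tr : S55.Trace S χ)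
    (X Y : Rep.{0} k S55.GQ), S55.IsRetract X Y → BetaOneMono tr Y → BetaOneMono tr X

/-- **Package B1M-base** (from S55-E4: PT-LIN + Shapiro).  The strengthening of
`S55.Top.Stmt_E4P` by `β¹mono` (same trace).  At the level of `K` (trivial coefficients):
`β¹mono` follows from `Top.Stmt_G1K` (a locally trivial `b ≠ 0` pairs nontrivially), adjointness,
`α³mono` and `Top.Stmt_I1`, `Top.Stmt_I4` (the image of `H²_S → ⊕_w H²(K_w)` is the hyperplane
`∑_w tr_w = 0`, every `tr_w ≠ 0`). -/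
def Stmt_B1M_base : Prop :=
  ∀ (p : ℕ) [Fact p.Prime], p ≠ 2 → ∀ S : Finset Nat.Primes, pPrime p ∈ S →
    ∀ K : IntermediateField ℚ (AlgebraicClosure ℚ), S55.IsBaseField S p K →
      ¬ p ∣ K.fixingSubgroup.index →
      ∃ tr : S55.Trace S (cycloChar p),
        S55.AlphaTwoEpi tr (S55.permRep (ZMod p) K) ∧
        S55.AlphaThreeMono tr (S55.permRep (ZMod p) K) ∧
        S55.BetaOneEpi tr (S55.permRep (ZMod p) K) ∧
        S55.BetaTwoMono tr (S55.permRep (ZMod p) K) ∧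
        BetaOneMono tr (S55.permRep (ZMod p) K)

/-- **Package B1** (assembly): for every finite-dimensional `𝔽_p`-module `X` of level `S ∋ p`
there is a trace for which `β¹` is bijective. -/
def Stmt_B1 : Prop :=
  ∀ (p : ℕ) [Fact p.Prime], p ≠ 2 → ∀ (S : Finset Nat.Primes)
    (X : Rep.{0} (ZMod p) S55.GQ) [FiniteDimensional (ZMod p) X], pPrime p ∈ S →
    S55.Lev S X →
    ∃ tr : S55.Trace S (cycloChar p), S55.BetaOneEpi tr X ∧ BetaOneMono tr X

/-! ### The counting form of `Stmt_PT2` -/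

section count

variable {k : Type} [Field k] (S : Finset Nat.Primes) (X : Rep.{0} k S55.GQ)

/-- The additive group of cone 1-cocycles `Z¹_c(X)`. -/
def grpZ1c : AddSubgroup (S55.C1c S X) where
  carrier := {y | S55.IsZ1c S X y}
  zero_mem' := S55.isZ1c_zero X
  add_mem' := by
    rintro y y' ⟨⟨hd, hl⟩, hq⟩ ⟨⟨hd', hl'⟩, hq'⟩
    refine ⟨⟨?_, hl.add hl'⟩, fun q => ?_⟩
    · show S55.dOne X (y.1 + y'.1) = 0
      rw [S55.dOne_add, hd, hd', add_zero]
    · show S55.resOne q.1 (y.1 + y'.1) = S55.dZeroL X q.1 (y.2 q + y'.2 q)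
      rw [S55.resOne_add, S55.dZeroL_add, hq q, hq' q]
  neg_mem' := by
    rintro y ⟨⟨hd, hl⟩, hq⟩
    refine ⟨⟨?_, S55.levS₁_neg hl⟩, fun q => ?_⟩
    · have h0 : S55.dOne X (-y.1) = 0 - S55.dOne X y.1 := by
        funext t; simp [S55.dOne]; abel
      show S55.dOne X (-y.1) = 0
      rw [h0, hd, sub_zero]
    · have h0 : S55.resOne q.1 (-y.1) = 0 - S55.resOne q.1 y.1 := by
        funext h; simp [S55.resOne]
      have h1 : S55.dZeroL X q.1 (-(y.2 q)) = 0 - S55.dZeroL X q.1 (y.2 q) := by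
        funext h; simp [S55.dZeroL]; abel
      show S55.resOne q.1 (-y.1) = S55.dZeroL X q.1 (-(y.2 q))
      rw [h0, h1, hq q]

/-- The additive group of cone 1-coboundaries `B¹_c(X)`. -/
def grpB1c : AddSubgroup (S55.C1c S X) where
  carrier := {y | S55.IsB1c S X y}
  zero_mem' := ⟨0, by funext g; simp [S55.dZero], fun _ => rfl⟩
  add_mem' := by
    rintro y y' ⟨m, hm, hq⟩ ⟨m', hm', hq'⟩
    refine ⟨m + m', ?_, fun q => ?_⟩
    · show y.1 + y'.1 = _
      rw [S55.dZero_add, hm, hm']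
    · show y.2 q + y'.2 q = _
      rw [hq q, hq' q]
  neg_mem' := by
    rintro y ⟨m, hm, hq⟩
    refine ⟨-m, ?_, fun q => ?_⟩
    · show -y.1 = _
      rw [hm]
      funext g
      simp [S55.dZero]
      abel
    · show -(y.2 q) = _
      rw [hq q]

/-- `#H¹_c(X)`, the order of the cone cohomology in degree `1` (`0` if it is infinite). -/
def cardH1c : ℕ := (grpB1c S X).relIndex (grpZ1c S X)

/-- The inequality of `Stmt_PT2` in terms of cardinalities:
`H²_S(X')` is finite and `#Ш¹_S(X) · ∏_{q ∈ S} #H⁰(ℚ_q, X) ≤ #H²_S(X') · #H⁰(ℚ, X)`. -/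
def PT2Ineq (χ : S55.GQ →* kˣ) : Prop :=
  Finite (continuousH2S S (S55.Md χ X)) ∧
    Nat.card (sha₁ S X) * ∏ q ∈ S, Nat.card (S56.locRep X q).ρ.invariants ≤
      Nat.card (continuousH2S S (S55.Md χ X)) * Nat.card X.ρ.invariants

end count

/-- **Package CONE1** (the cone sequence in degree `≤ 1`; generic, linear algebra).
`0 → H⁰(X) → ⊕_{q ∈ S} H⁰(ℚ_q, X) → H¹_c(X) → Ш¹_S(X) → 0`, in terms of cardinalities
(`Nat.card` and `relIndex` are `0` on infinite sets; both sides vanish if `Ш¹_S` is infinite).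
Bridge to the prelude's `sha₁`: `S55.H48.shaπ1_surjective`, `shaπ1_eq_zero_iff`,
`isSha1_of_mem`, `exists_mem_of_isSha1`. -/
def Stmt_CONE1 : Prop :=
  ∀ (k : Type) [Field k], (2 : k) ≠ 0 → ∀ (S : Finset Nat.Primes) (X : Rep.{0} k S55.GQ),
    Finite X → S.Nonempty →
    cardH1c S X * Nat.card X.ρ.invariants =
      Nat.card (sha₁ S X) * ∏ q ∈ S, Nat.card (S56.locRep X q).ρ.invariants

/-- **Package DUALCOUNT** (generic, linear algebra).  If `β¹` is bijective for `Y` and `H¹_c(Y')`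
is finite, then `H²_S(Y)` is finite of the same order.
(The pairing descends to `H¹_c(Y') × H²_S(Y) → k` by `S55.H48.tr_cupB1_dOne` and
`S55.dCone2_cupB11`-type identities.) -/
def Stmt_DUALCOUNT : Prop :=
  ∀ (k : Type) [Field k] [Finite k] (S : Finset Nat.Primes) (χ : S55.GQ →* kˣ)
    (tr : S55.Trace S χ), S55.LevChar S χ → ∀ Y : Rep.{0} k S55.GQ, S55.Lev S Y →
    S55.BetaOneEpi tr Y → BetaOneMono tr Y → cardH1c S (S55.Md χ Y) ≠ 0 →
    Finite (continuousH2S S Y) ∧ Nat.card (continuousH2S S Y) = cardH1c S (S55.Md χ Y)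

/-- **Package DD** (double duality): `X → X''` is an isomorphism of representations for
finite-dimensional `X`, so `#H¹_c(X'') = #H¹_c(X)`. -/
def Stmt_DD : Prop :=
  ∀ (k : Type) [Field k] (S : Finset Nat.Primes) (χ : S55.GQ →* kˣ) (X : Rep.{0} k S55.GQ),
    FiniteDimensional k X → cardH1c S (S55.Md χ (S55.Md χ X)) = cardH1c S X

/-- **Package PT2e**: `Stmt_PT2` over `𝔽_p`, in the counting form. -/
def Stmt_PT2e : Prop :=
  ∀ (p : ℕ) [Fact p.Prime], p ≠ 2 → ∀ (S : Finset Nat.Primes)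
    (X : Rep.{0} (ZMod p) S55.GQ) [FiniteDimensional (ZMod p) X], pPrime p ∈ S →
    S55.Lev S X → PT2Ineq S X (cycloChar p)

/-- **Package RS** (restriction of scalars `k → 𝔽_p` + bridge).  `M` over `k` is also an
`𝔽_p[G_ℚ]`-module `M₀` (same underlying group, same cochains, same cocycles);
`(M')₀ ≅ (M₀)'` by `φ ↦ Tr_{k/𝔽_p} ∘ φ`; so `PT2Ineq` for `M₀` gives `PT2Ineq` for `M`, which is
`Stmt_PT2` for `M` (`#V = (#k)^{dim_k V}`). -/
def Stmt_RS : Prop := Stmt_PT2e → S56.Stmt_PT2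

end Fermat.Agent.S56.GWC

end
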