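/-
S56 / GW-CORE / PT2 (helper64): the dévissage of `β¹mono` and of `H³_S = 0`.
* `stmt_B1M_ret` : `β¹mono` passes to retracts;
* `stmt_H3S_ret` : `H³_S = 0` passes to retracts;
* `stmt_H3S_ext` : `H³_S = 0` is closed under extensions;
* `stmt_B1M_ext` : the four lemma, `β¹mono(X₁) ∧ β¹mono(X₂) ∧ H³_S(X₁) = 0 ⟹ β¹mono(X)`.
-/
import Fermat.Agent.S56.GWC.Defs
import Fermat.Agent.S55.H48_E2
import Fermat.Agent.S55.H49_E1B
import Fermat.Agent.S55.H49_E1

set_option autoImplicit false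

open CategoryTheory Module groupCohomology ExtCitation

noncomputable section

namespace Fermat.Agent.S56.GWC.H64

open Fermat.Agent.S55 Fermat.Agent.S56.GWC

variable {k : Type} [Field k] {S : Finset Nat.Primes} {χ : GQ →* kˣ}

/-! ### Cone 1-coboundaries -/

/-- The cone 1-coboundary of `m`. -/
def bdry (S : Finset Nat.Primes) (M : Rep.{0} k GQ) (m : M) : C1c S M :=
  (dZero M m, fun _ => m)

lemma isB1c_iff_bdry {M : Rep.{0} k GQ} (y : C1c S M) : IsB1c S M y ↔ ∃ m : M, y = bdry S M m := by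
  constructor
  · rintro ⟨m, h1, h2⟩
    exact ⟨m, Prod.ext h1 (funext h2)⟩
  · rintro ⟨m, rfl⟩
    exact ⟨m, rfl, fun _ => rfl⟩

lemma mapC1_bdry {A B : Rep.{0} k GQ} (u : A ⟶ B) (m : A) :
    mapC1 (S := S) u.hom (bdry S A m) = bdry S B (u.hom m) := by
  refine Prod.ext ?_ rfl
  show (fun g => u.hom (dZero A m g)) = dZero B (u.hom m)
  exact (dZero_comp u m).symm

lemma isB1c_push {A B : Rep.{0} k GQ} (u : A ⟶ B) {y : C1c S A} (hy : IsB1c S A y) :
    IsB1c S B (mapC1 u.hom y) := by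
  rw [isB1c_iff_bdry] at hy ⊢
  obtain ⟨m, rfl⟩ := hy
  exact ⟨u.hom m, mapC1_bdry u m⟩

lemma bdry_add {M : Rep.{0} k GQ} (m m' : M) : bdry S M (m + m') = bdry S M m + bdry S M m' := by
  refine Prod.ext ?_ rfl
  show dZero M (m + m') = dZero M m + dZero M m'
  exact dZero_add M m m'

lemma isZ1c_bdry {M : Rep.{0} k GQ} (hM : Lev S M) (m : M) : IsZ1c S M (bdry S M m) :=
  ⟨⟨dOne_dZero M m, isLevelConstantS₁_dZero M hM m⟩, fun _ => rfl⟩

/-- The cup product of a level-`S` 2-cocycle with a cone 1-coboundary is a cone 3-coboundary. -/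
lemma cupB1_bdry (M : Rep.{0} k GQ) {a : GQ × GQ → M} (ha : dTwo M a = 0) (m' : Md χ M) :
    cupB1 S χ M a (bdry S (Md χ M) m') =
      dCone2 S (kχ χ) (cupA20 χ M ((a, fun _ => 0) : C2c S M) m') := by
  rw [dCone2_cupA20]
  refine Prod.ext (funext fun t => ?_) (funext fun q => funext fun t => ?_)
  · simp only [cupB1, bdry, cupA3, cupA2, dCone2, ha, Prod.fst_add, Pi.add_apply, Pi.zero_apply]
    simp [ev]
  · simp only [cupB1, bdry, cupA3, cupA2, dCone2, Prod.snd_add, Pi.add_apply, Pi.sub_apply]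
    simp [ev, resTwo, dOneL]

theorem tr_cupB1_bdry (hNC : NC S) (hχ : LevChar S χ) (M : Rep.{0} k GQ) (hM : Lev S M)
    (tr : Trace S χ) {a : GQ × GQ → M} (ha : IsZ2S S M a) (m' : Md χ M) :
    tr.toFun (cupB1 S χ M a (bdry S (Md χ M) m')) = 0 := by
  rw [cupB1_bdry M ha.1 m']
  have hl' : ∀ q : ↥S, IsLevelConstant₁ (rl q.1) (((a, fun _ => 0) : C2c S M).2 q) := fun q =>
    isLevelConstant₁_const (rl q.1) (0 : M)
  obtain ⟨h1, h2⟩ := lev_cupA20 χ M hNC hχ hM (x := ((a, fun _ => 0) : C2c S M)) ha.2 hl' m'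
  exact tr.zero_of_isB3c _ (isB3c_dCone2 h1 h2)

/-! ### Retracts -/

theorem betaOneMono_of_retract {M N : Rep.{0} k GQ} (i : M ⟶ N) (r : N ⟶ M)
    (hri : ∀ m : M, r.hom (i.hom m) = m) (tr : Trace S χ) (hN : BetaOneMono tr N) :
    BetaOneMono tr M := by
  intro y hy hpair
  have h1 : IsB1c S (Md χ N) (mapC1 (dHom χ r).hom y) := by
    refine hN _ (H48.isZ1c_push (dHom χ r) hy) fun a ha => ?_
    rw [H48.cupB1_mapC1]
    exact hpair _ (H48.isZ2S_push r ha)
  have h2 := isB1c_push (dHom χ i) h1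
  have h3 : mapC1 (dHom χ i).hom (mapC1 (dHom χ r).hom y) = y := by
    refine Prod.ext (funext fun t => ?_) (funext fun q => ?_)
    · exact H48.dMap_retract χ i r hri _
    · exact H48.dMap_retract χ i r hri _
  rwa [h3] at h2

/-- **B1M-ret**. -/
theorem stmt_B1M_ret : Stmt_B1M_ret := by
  intro k _ S χ tr X Y hret hY
  obtain ⟨i, r, hri⟩ := hret
  exact betaOneMono_of_retract i r hri tr hY

/-- **H3-ret**. -/
theorem stmt_H3S_ret : Stmt_H3S_ret := by
  intro k _ S X Y hret hY z hz hl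
  obtain ⟨i, r, hri⟩ := hret
  have hz' : dThree Y (fun t => i.hom (z t)) = 0 := by
    rw [dThree_comp, hz]
    funext t
    simp
  obtain ⟨b, hb, hdb⟩ := hY _ hz' (levS₃_comp hl _)
  refine ⟨fun t => r.hom (b t), levS₂_comp hb _, ?_⟩
  rw [dTwo_comp, hdb]
  funext t
  exact hri _

/-! ### Extensions: `H³_S` -/

set_option maxHeartbeats 800000 in
theorem h3S_ext_of_NC (hNC : NC S) {X₁ X X₂ : Rep.{0} k GQ} (i : X₁ ⟶ X) (π : X ⟶ X₂)
    (hses : IsSES i π) (hX : Lev S X) (h₁ : H3S S X₁) (h₂ : H3S S X₂) : H3S S X := by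
  obtain ⟨hi, hπ, hex⟩ := hses
  obtain ⟨σ, hσ⟩ := LinearMap.exists_rightInverse_of_surjective π.hom.toLinearMap
    (LinearMap.range_eq_top.2 hπ)
  have hσ' : ∀ m₂ : X₂, π.hom (σ m₂) = m₂ := fun m₂ =>
    congrArg (fun f : X₂ →ₗ[k] X₂ => f m₂) hσ
  obtain ⟨r, hr⟩ := LinearMap.exists_leftInverse_of_injective i.hom.toLinearMap
    (LinearMap.ker_eq_bot.2 hi)
  have hr' : ∀ m₁ : X₁, r (i.hom m₁) = m₁ := fun m₁ =>
    congrArg (fun f : X₁ →ₗ[k] X₁ => f m₁) hr
  have hir : ∀ m : X, π.hom m = 0 → i.hom (r m) = m := by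
    intro m hm
    obtain ⟨m₁, rfl⟩ := (hex m).1 hm
    rw [hr']
  intro z hz hl
  -- the image in `X₂`
  have hz₂ : dThree X₂ (fun t => π.hom (z t)) = 0 := by
    rw [dThree_comp, hz]
    funext t
    simp
  obtain ⟨b₂, hb₂, hdb₂⟩ := h₂ _ hz₂ (levS₃_comp hl _)
  -- lift
  let b : GQ × GQ → X := fun t => σ (b₂ t)
  have hbl : IsLevelConstantS₂ S b := levS₂_comp hb₂ _
  have hπb : (fun t => π.hom (b t)) = b₂ := funext fun t => hσ' _
  let w : GQ × GQ × GQ → X := z - dTwo X b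
  have hπw : ∀ t, π.hom (w t) = 0 := by
    intro t
    have h1 := congrFun (dTwo_comp π b) t
    rw [hπb, hdb₂] at h1
    show π.hom (z t - dTwo X b t) = 0
    rw [map_sub, ← h1, sub_self]
  let z₁ : GQ × GQ × GQ → X₁ := fun t => r (w t)
  have hiz₁ : (fun t => i.hom (z₁ t)) = w := funext fun t => hir _ (hπw t)
  have hwl : IsLevS₃ S w := by
    have h1 : IsLevS₃ S (dTwo X b) := isLevS₃_dTwo X hNC hX hbl
    obtain ⟨F₁, hF₁, hc₁⟩ := hl
    obtain ⟨F₂, hF₂, hc₂⟩ := h1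
    obtain ⟨F, h1F, h2F, hF, -⟩ := exists_common_level hNC hF₁ hF₂
    refine ⟨F, hF, fun g₁ g₂ g₃ s₁ s₂ s₃ hs₁ hs₂ hs₃ => ?_⟩
    show z _ - dTwo X b _ = z _ - dTwo X b _
    rw [hc₁ g₁ g₂ g₃ s₁ s₂ s₃ (mem_fix_of_le h1F hs₁) (mem_fix_of_le h1F hs₂)
      (mem_fix_of_le h1F hs₃),
      hc₂ g₁ g₂ g₃ s₁ s₂ s₃ (mem_fix_of_le h2F hs₁) (mem_fix_of_le h2F hs₂)
      (mem_fix_of_le h2F hs₃)]
  have hdw : dThree X w = 0 := by
    have e : dThree X w = dThree X z - dThree X (dTwo X b) := by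
      funext t
      simp only [w, dThree, Pi.sub_apply, map_sub]
      abel
    rw [e, hz, dThree_dTwo, sub_zero]
  have hz₁ : dThree X₁ z₁ = 0 := by
    funext t
    apply hi
    have := congrFun (dThree_comp i z₁) t
    rw [hiz₁, hdw] at this
    simp only [Pi.zero_apply, map_zero]
    exact this.symm
  obtain ⟨b₁, hb₁, hdb₁⟩ := h₁ z₁ hz₁ (levS₃_comp hwl _)
  refine ⟨b + fun t => i.hom (b₁ t), hbl.add (levS₂_comp hb₁ _), ?_⟩
  rw [dTwo_add, dTwo_comp, hdb₁, hiz₁]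
  show dTwo X b + (z - dTwo X b) = z
  abel

/-- **H3-ext**. -/
theorem stmt_H3S_ext : Stmt_H3S_ext := by
  intro k _ S X₁ X X₂ i π hses _ hX _ h₁ h₂
  exact h3S_ext_of_NC (Fermat.Agent.S55.H49.nc_all S) i π hses hX h₁ h₂

/-! ### Extensions: `β¹mono` -/

set_option maxHeartbeats 1600000 in
theorem betaOneMono_ext_of_NC (hNC : NC S) (hχ : LevChar S χ) (tr : Trace S χ)
    {M₁ M M₂ : Rep.{0} k GQ} (i : M₁ ⟶ M) (π : M ⟶ M₂) (hses : IsSES i π)
    (hM : Lev S M) (hB₁ : BetaOneMono tr M₁) (hB₂ : BetaOneMono tr M₂) (hH : H3S S M₁) :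
    BetaOneMono tr M := by
  obtain ⟨hi, hπ, hex⟩ := hses
  have hM' : Lev S (Md χ M) := lev_Md M hχ hM
  -- linear section of `π`, linear retraction of `i`
  obtain ⟨σ, hσ⟩ := LinearMap.exists_rightInverse_of_surjective π.hom.toLinearMap
    (LinearMap.range_eq_top.2 hπ)
  have hσ' : ∀ m₂ : M₂, π.hom (σ m₂) = m₂ := fun m₂ =>
    congrArg (fun f : M₂ →ₗ[k] M₂ => f m₂) hσ
  obtain ⟨r, hr⟩ := LinearMap.exists_leftInverse_of_injective i.hom.toLinearMap
    (LinearMap.ker_eq_bot.2 hi)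
  have hr' : ∀ m₁ : M₁, r (i.hom m₁) = m₁ := fun m₁ =>
    congrArg (fun f : M₁ →ₗ[k] M₁ => f m₁) hr
  have hir : ∀ m : M, π.hom m = 0 → i.hom (r m) = m := by
    intro m hm
    obtain ⟨m₁, rfl⟩ := (hex m).1 hm
    rw [hr']
  -- the duals of `σ` and `r`
  let F : Md χ M →ₗ[k] Md χ M₂ :=
    { toFun := fun ψ => (show Module.Dual k M from ψ).comp σ
      map_add' := fun _ _ => rfl
      map_smul' := fun _ _ => rfl }
  let ι : Md χ M₁ →ₗ[k] Md χ M :=
    { toFun := fun ψ => (show Module.Dual k M₁ from ψ).comp r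
      map_add' := fun _ _ => rfl
      map_smul' := fun _ _ => rfl }
  have hι : ∀ ψ₁ : Md χ M₁, dMap χ i (ι ψ₁) = ψ₁ := by
    intro ψ₁
    apply Md_ext
    intro m₁
    rw [ev_dMap]
    change (show Module.Dual k M₁ from ψ₁) (r (i.hom m₁)) = _
    rw [hr']
    rfl
  have hF : ∀ ψ : Md χ M, dMap χ i ψ = 0 → dMap χ π (F ψ) = ψ := by
    intro ψ hψ
    apply Md_ext
    intro m
    rw [ev_dMap]
    change (show Module.Dual k M from ψ) (σ (π.hom m)) = (show Module.Dual k M from ψ) m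
    have h1 : π.hom (σ (π.hom m) - m) = 0 := by rw [map_sub, hσ', sub_self]
    obtain ⟨m₁, hm₁⟩ := (hex _).1 h1
    have h2 : (show Module.Dual k M from ψ) (i.hom m₁) = 0 :=
      congrArg (fun ψ' : Md χ M₁ => ev χ M₁ m₁ ψ') hψ
    rw [hm₁, map_sub, sub_eq_zero] at h2
    exact h2
  intro y hy hpair
  -- Step 1: the image in `M₁'` is a coboundary
  have hy₁ : IsB1c S (Md χ M₁) (mapC1 (dMap χ i) y) := by
    refine hB₁ _ (H49.isZ1c_mapC1 (dHom χ i) hy) fun a₁ ha₁ => ?_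
    rw [← cupB1_comp]
    exact hpair _ (H49.isZ2S_comp i ha₁)
  obtain ⟨m₁', hm₁'⟩ := (isB1c_iff_bdry _).1 hy₁
  -- Step 2: correct `y` by a coboundary
  let yb : C1c S (Md χ M) := bdry S (Md χ M) (ι m₁')
  have hybZ : IsZ1c S (Md χ M) yb := isZ1c_bdry hM' _
  let y' : C1c S (Md χ M) := y - yb
  have hy'Z : IsZ1c S (Md χ M) y' := by
    have h1 : y' ∈ grpZ1c S (Md χ M) := (grpZ1c S (Md χ M)).sub_mem hy hybZ
    exact h1
  have hiy' : mapC1 (dMap χ i) y' = 0 := by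
    have h1 : mapC1 (S := S) (dMap χ i) yb = bdry S (Md χ M₁) m₁' := by
      have := mapC1_bdry (S := S) (dHom χ i) (ι m₁')
      rw [show (dHom χ i).hom (ι m₁') = m₁' from hι m₁'] at this
      exact this
    refine Prod.ext (funext fun t => ?_) (funext fun q => ?_)
    · show dMap χ i (y.1 t - yb.1 t) = 0
      rw [map_sub, sub_eq_zero]
      have e1 := congrFun (congrArg Prod.fst hm₁') t
      have e2 := congrFun (congrArg Prod.fst h1) t
      exact e1.trans e2.symm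
    · show dMap χ i (y.2 q - yb.2 q) = 0
      rw [map_sub, sub_eq_zero]
      have e1 := congrFun (congrArg Prod.snd hm₁') q
      have e2 := congrFun (congrArg Prod.snd h1) q
      exact e1.trans e2.symm
  let y₂ : C1c S (Md χ M₂) := mapC1 F y'
  have hπy₂ : mapC1 (dMap χ π) y₂ = y' := by
    refine Prod.ext (funext fun t => ?_) (funext fun q => ?_)
    · exact hF _ (congrFun (congrArg Prod.fst hiy') t)
    · exact hF _ (congrFun (congrArg Prod.snd hiy') q)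
  have hy'Z' := (isZ1c_iff y').1 hy'Z
  have hy₂Z : IsZ1c S (Md χ M₂) y₂ := by
    rw [isZ1c_iff]
    have hl2 : IsLevelConstantS₁ S y₂.1 := by
      show IsLevelConstantS₁ S (fun g => F (y'.1 g))
      exact levS₁_comp hy'Z'.1 _
    refine ⟨hl2, ?_⟩
    have h1 := dCone1_mapC1 (S := S) (dHom χ π) y₂
    have e : mapC1 (dHom χ π).hom y₂ = y' := hπy₂
    rw [e, hy'Z'.2] at h1
    refine Prod.ext (funext fun t => ?_) (funext fun q => funext fun t => ?_)
    · apply dMap_injective χ π hπ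
      have := congrFun (congrArg Prod.fst h1) t
      simp only [Prod.fst_zero, Pi.zero_apply, map_zero]
      exact this.symm
    · apply dMap_injective χ π hπ
      have := congrFun (congrFun (congrArg Prod.snd h1) q) t
      simp only [Prod.snd_zero, Pi.zero_apply, map_zero]
      exact this.symm
  -- Step 3: `y₂` is orthogonal to `Z²_S(M₂)`
  have hstep3 : ∀ a₂ : GQ × GQ → M₂, IsZ2S S M₂ a₂ → tr.toFun (cupB1 S χ M₂ a₂ y₂) = 0 := by
    intro a₂ ha₂
    let ah : GQ × GQ → M := fun t => σ (a₂ t)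
    have hahl : IsLevelConstantS₂ S ah := levS₂_comp ha₂.2 _
    have hπah : (fun t => π.hom (ah t)) = a₂ := funext fun t => hσ' _
    have hπd : ∀ t, π.hom (dTwo M ah t) = 0 := by
      intro t
      have := congrFun (dTwo_comp π ah) t
      rw [hπah, ha₂.1] at this
      exact this.symm
    let z₁ : GQ × GQ × GQ → M₁ := fun t => r (dTwo M ah t)
    have hiz₁ : (fun t => i.hom (z₁ t)) = dTwo M ah := funext fun t => hir _ (hπd t)
    have hz₁ : dThree M₁ z₁ = 0 := by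
      funext t
      apply hi
      have := congrFun (dThree_comp i z₁) t
      rw [hiz₁, dThree_dTwo] at this
      simp only [Pi.zero_apply, map_zero]
      exact this.symm
    obtain ⟨b₁, hb₁, hdb₁⟩ := hH z₁ hz₁ (levS₃_comp (isLevS₃_dTwo M hNC hM hahl) _)
    let a : GQ × GQ → M := ah - fun t => i.hom (b₁ t)
    have haZ : IsZ2S S M a := by
      refine ⟨?_, levS₂_sub hahl (levS₂_comp hb₁ _)⟩
      show dTwo M (ah - fun t => i.hom (b₁ t)) = 0
      rw [dTwo_sub, dTwo_comp, hdb₁, hiz₁, sub_self]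
    have hπa : (fun t => π.hom (a t)) = a₂ := by
      funext t
      show π.hom (ah t - i.hom (b₁ t)) = a₂ t
      rw [map_sub, (hex _).2 ⟨b₁ t, rfl⟩, sub_zero]
      exact hσ' _
    rw [← hπa, cupB1_comp, hπy₂]
    have e1 : cupB1 S χ M a y' = cupB1 S χ M a y - cupB1 S χ M a yb := by
      have h := cupB1_add_right (S := S) (χ := χ) (M := M) a y' yb
      rw [show y' + yb = y from sub_add_cancel y yb] at h
      rw [h, add_sub_cancel_right]
    rw [e1, map_sub, hpair a haZ, tr_cupB1_bdry hNC hχ M hM tr haZ, sub_zero]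
  -- Step 4: conclusion
  obtain ⟨m₂', hm₂'⟩ := (isB1c_iff_bdry _).1 (hB₂ y₂ hy₂Z hstep3)
  rw [isB1c_iff_bdry]
  refine ⟨ι m₁' + dMap χ π m₂', ?_⟩
  have h1 : y' = bdry S (Md χ M) (dMap χ π m₂') := by
    rw [← hπy₂, hm₂']
    exact mapC1_bdry (S := S) (dHom χ π) m₂'
  rw [bdry_add, ← h1]
  show y = yb + (y - yb)
  abel

/-- **B1M-ext**. -/
theorem stmt_B1M_ext : Stmt_B1M_ext := by
  intro k _ S χ tr hχ X₁ X X₂ i π hses _ hX _ h₁ h₂ hH
  exact betaOneMono_ext_of_NC (Fermat.Agent.S55.H49.nc_all S) hχ tr i π hses hX h₁ h₂ hH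

end Fermat.Agent.S56.GWC.H64

end
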