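/-
S56, GW-CORE, package PT2, base export B1M (`Stmt_B1M_base`): the strengthening of
`S55.Top.Stmt_E4P` by `β¹mono` (cone side) for the permutation modules `𝔽_p[G_ℚ/G_K]`.

Shapiro transfer `K → ℚ` of helper48's `K`-level statement `H48.BetaOneMonoConeK`
(`S55/Top/H48_PTConeMono.lean`) with helper49's toolkit (`S55/Top/*`): the missing degree-1 cone
Shapiro map `sh1c` with its homotopy `y - U₁ (sh1c y) = d (hty1 y.1)`.
Owner: helper64.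
-/
import Fermat.Agent.S56.GWC.H64_B1M
import Fermat.Agent.S55.Top.SH
import Fermat.Agent.S55.Top.H48_PTConeMono

set_option autoImplicit false
set_option linter.unusedSectionVars false
set_option linter.unusedSimpArgs false
set_option linter.unusedVariables false

open CategoryTheory groupCohomology ExtCitation Module

noncomputable section

namespace Fermat.Agent.S56.GWC.H64

open Fermat.Agent.S55 Fermat.Agent.S55.Top Fermat.Agent.S55.Top.OrbitData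

attribute [local instance] locAct

variable {k : Type} [Field k] {S : Finset Nat.Primes}
  {K : IntermediateField ℚ (AlgebraicClosure ℚ)}

/-! ### The cone Shapiro map in degree 1 -/

/-- `Sh₁`: cone 1-cochains of `FX` → `K`-level cone 1-cochains,
`(B, M) ↦ (sh B, sh (M - hty B))`. -/
def sh1c (𝔓 : PlaceSys S K) (y : C1c S (FX k K)) : 𝔓.C1 k :=
  (𝔓.shK₁ y.1, fun q => (𝔓.loc q).sh0 ((y.2 q : XK K → k) - 𝔓.glob.hty1 y.1))

variable {𝔓 : PlaceSys S K}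

lemma indK₁_zero' : 𝔓.indK₁ (0 : ↥K.fixingSubgroup → k) = 0 := by
  unfold PlaceSys.indK₁
  rw [eG₁_zero]
  rfl

/-- the restriction of `ind (sh B)` to the local group at `q` is the coboundary of
`M_q - hty B`. -/
lemma res_indK₁_shK₁ {y : C1c S (FX k K)} (hy : IsZ1c S (FX k K) y) (q : ↥S) :
    resOne q.1 (𝔓.indK₁ (𝔓.shK₁ y.1)) =
      d0 (Γ := Gl q.1) ((y.2 q : XK K → k) - 𝔓.glob.hty1 y.1) := by
  have h1 := sub_indK₁_shK₁ (𝔓 := 𝔓) hy.1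
  have h2 : 𝔓.indK₁ (𝔓.shK₁ y.1) =
      (y.1 : GQ → XK K → k) - dZero (FX k K) (𝔓.glob.hty1 y.1) := by
    rw [← h1]
    abel
  rw [h2, resOne_sub', d0_sub, ← dZeroL_FX, ← dZeroL_FX, ← hy.2 q]
  rfl

theorem isZ1cK_sh1c {y : C1c S (FX k K)} (hy : IsZ1c S (FX k K) y) :
    IsZ1cK 𝔓 (sh1c 𝔓 y) := by
  refine ⟨isZ1K_shK₁ hy.1, fun q w => ?_⟩
  have h1 := congrFun (𝔓.sh_res_ind₁ q (𝔓.shK₁ y.1)) w
  show 𝔓.res₁ q w (𝔓.shK₁ y.1) = 0
  rw [← h1, res_indK₁_shK₁ hy q]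
  funext h
  show d0 (Γ := Gl q.1) ((y.2 q : XK K → k) - 𝔓.glob.hty1 y.1) h.1 ((𝔓.loc q).rep w) = 0
  simp only [d0, 𝔓.loc_stab_inv q w h, sub_self]

/-- the cone homotopy in degree 1. -/
theorem sub_U₁_sh1c {y : C1c S (FX k K)} (hy : IsZ1c S (FX k K) y) :
    y - 𝔓.U₁ (sh1c 𝔓 y) = bdry S (FX k K) (𝔓.glob.hty1 y.1) := by
  refine Prod.ext ?_ (funext fun q => ?_)
  · exact sub_indK₁_shK₁ (𝔓 := 𝔓) hy.1
  · show (y.2 q : XK K → k) - ((𝔓.loc q).ind0 ((𝔓.loc q).sh0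
        ((y.2 q : XK K → k) - 𝔓.glob.hty1 y.1)) +
        (𝔓.loc q).hty1 (resOne q.1 (𝔓.indK₁ (𝔓.shK₁ y.1)))) = 𝔓.glob.hty1 y.1
    rw [res_indK₁_shK₁ hy q]
    funext x
    have h := (𝔓.loc q).hty_zero ((y.2 q : XK K → k) - 𝔓.glob.hty1 y.1) x
    simp only [Pi.sub_apply, Pi.add_apply] at h ⊢
    linear_combination h

theorem isB1c_U₁ {y : 𝔓.C1 k} (hy : IsB1cK 𝔓 y) : IsB1c S (FX k K) (𝔓.U₁ y) := by
  obtain ⟨m, h1, h2⟩ := hy
  refine ⟨(fun _ => m : XK K → k), ?_, fun q => ?_⟩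
  · show 𝔓.indK₁ y.1 = dZero (FX k K) (fun _ => m : XK K → k)
    rw [h1, indK₁_zero']
    funext g x
    show (0 : k) = ((FX k K).ρ g (fun _ => m : XK K → k) : XK K → k) x - m
    rw [FX_rho_apply, sub_self]
  · show (𝔓.loc q).ind0 (y.2 q) + (𝔓.loc q).hty1 (resOne q.1 (𝔓.indK₁ y.1)) = fun _ => m
    rw [h1, indK₁_zero']
    funext x
    show y.2 q ((𝔓.loc q).o x) + 0 = m
    rw [h2, add_zero]

/-! ### Linearity of `cB1` in the cone variable -/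

lemma cB1_sub_right (A : GQ × GQ → XK K → k) (y y' : C1c S (FX k K)) :
    cB1 A (y - y') = cB1 A y - cB1 A y' := by
  refine Prod.ext (funext fun t => funext fun z => ?_)
    (funext fun q => funext fun t => funext fun z => ?_)
  · simp only [cB1, cup21, Prod.fst_sub, Pi.sub_apply]
    ring
  · simp only [cB1, cup20, Prod.snd_sub, Pi.sub_apply]
    ring

variable {χ : GQ →* kˣ} (𝔲 : Untwist χ K) [Fintype (XK K)] [DecidableEq (XK K)]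

lemma mapC1_oc_co' (y : C1c S (Md χ (FX k K))) :
    mapC1 𝔲.ocLin (mapC1 𝔲.coLin y : C1c S (FX k K)) = y := by
  refine Prod.ext (funext fun t => ?_) (funext fun q => ?_)
  · exact 𝔲.ocLin_coLin _
  · exact 𝔲.ocLin_coLin _

/-! ### `β¹mono` for `FX` -/

theorem betaOneMono_FX (hK : K.IsUnramifiedOutside S) (tr : Trace S χ) (hχ : LevChar S χ)
    (h : H48.BetaOneMonoConeK (𝔓.trK 𝔲 hK tr)) : BetaOneMono tr (FX k K) := by
  intro y hy hpair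
  have hY : IsZ1c S (FX k K) (mapC1 𝔲.coLin y) := H48.isZ1c_push 𝔲.coHom hy
  have hYK : IsZ1cK 𝔓 (sh1c 𝔓 (mapC1 𝔲.coLin y)) := isZ1cK_sh1c hY
  have hB : IsB1c S (FX k K) (mapC1 𝔲.coLin y - 𝔓.U₁ (sh1c 𝔓 (mapC1 𝔲.coLin y))) :=
    (isB1c_iff_bdry _).2 ⟨_, sub_U₁_sh1c hY⟩
  have hBK : IsB1cK 𝔓 (sh1c 𝔓 (mapC1 𝔲.coLin y)) := h _ hYK (fun a ha => by
    have haQ : IsZ2S S (FX k K) (𝔓.indK₂ a) := isZ2S_indK₂ hK ha
    rw [𝔓.trK_apply, 𝔲.tr_sumC3_eq tr (isB3c_adjB1 hK ha hYK)]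
    have e1 : cB1 (𝔓.indK₂ a) (𝔓.U₁ (sh1c 𝔓 (mapC1 𝔲.coLin y))) =
        cB1 (𝔓.indK₂ a) (mapC1 𝔲.coLin y) -
          cB1 (𝔓.indK₂ a) (mapC1 𝔲.coLin y - 𝔓.U₁ (sh1c 𝔓 (mapC1 𝔲.coLin y))) := by
      rw [← cB1_sub_right, sub_sub_cancel]
    rw [e1, map_sub, map_sub]
    have e2 : tr.toFun (𝔲.sumC3 (cB1 (𝔓.indK₂ a) (mapC1 𝔲.coLin y))) = 0 := by
      have := hpair (𝔓.indK₂ a) haQ
      rw [𝔲.cupB1_eq] at this
      exact this
    have e3 : tr.toFun (𝔲.sumC3 (cB1 (𝔓.indK₂ a)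
        (mapC1 𝔲.coLin y - 𝔓.U₁ (sh1c 𝔓 (mapC1 𝔲.coLin y))))) = 0 := by
      have hb := isB1c_push 𝔲.ocHom hB
      obtain ⟨m, hm⟩ := (isB1c_iff_bdry _).1 hb
      have := tr_cupB1_bdry (fun F hF => H48.exists_normal_level S F hF) hχ (FX k K)
        (lev_FX hK) tr haQ m
      rw [← hm, 𝔲.cupB1_eq] at this
      have e : mapC1 𝔲.coLin (mapC1 (S := S) 𝔲.ocHom.hom
          (mapC1 𝔲.coLin y - 𝔓.U₁ (sh1c 𝔓 (mapC1 𝔲.coLin y)))) =
          mapC1 𝔲.coLin y - 𝔓.U₁ (sh1c 𝔓 (mapC1 𝔲.coLin y)) := 𝔲.mapC1_co_oc _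
      rw [e] at this
      exact this
    rw [e2, e3, sub_zero])
  have hYB : IsB1c S (FX k K) (mapC1 𝔲.coLin y) := by
    obtain ⟨m₁, hm₁⟩ := (isB1c_iff_bdry _).1 hB
    obtain ⟨m₂, hm₂⟩ := (isB1c_iff_bdry _).1 (isB1c_U₁ hBK)
    refine (isB1c_iff_bdry _).2 ⟨m₁ + m₂, ?_⟩
    rw [bdry_add, ← hm₁, ← hm₂, sub_add_cancel]
  have := isB1c_push 𝔲.ocHom hYB
  have e : mapC1 (S := S) 𝔲.ocHom.hom (mapC1 𝔲.coLin y : C1c S (FX k K)) = y :=
    mapC1_oc_co' 𝔲 y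
  rw [e] at this
  exact this

/-! ### The base export -/

/-- **Package B1M-base**, from `TopQ0`, `TopK` and the cone side of `β¹mono` at `K`-level. -/
theorem stmt_B1M_base_of (hQ : Top.Stmt_TopQ0) (hT : Top.Stmt_TopK)
    (hC : Top.H48.Stmt_TopK_cone) : Stmt_B1M_base := by
  intro p _ hp2 S hpS K hK hidx
  classical
  have : Finite (XK K) := finite_XK hK.1
  let _ : Fintype (XK K) := Fintype.ofFinite _
  have hχ : LevChar S (cycloChar p) := H48.stmt_levChar p S hpS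
  obtain ⟨z, hz, hzB⟩ := hQ p hp2 S hpS
  have hzB' : z ∉ B3cSub S (kχ (cycloChar p)) := hzB
  obtain ⟨φ, hφB, hφz⟩ := H48.exists_functional_sep (B3cSub S (kχ (cycloChar p))) hzB'
  have hcard := card_XK_ne_zero (p := p) (K := K) hidx
  have hne := trK_ne_zero (𝔓 := placeSysOut S K)
    ((placeSysOut S K).untwist (cycloChar p) (cycloChar_eq_one_of_baseField hK)) hK.1
    (⟨φ, fun x hx => hφB x hx⟩ : Trace S (cycloChar p)) hcard hz hφz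
  obtain ⟨hA2, hA3, hB1, hB2⟩ := hT p hp2 S hpS K hK (placeSysOut S K) _ hne
  have hB1m := hC p hp2 S hpS K hK (placeSysOut S K) _ hne
  have hr := H48.stmt_E2 (ZMod p) S (cycloChar p)
    (⟨φ, fun x hx => hφB x hx⟩ : Trace S (cycloChar p)) (permRep (ZMod p) K) (FX (ZMod p) K)
    isRetract_perm_FX
  exact ⟨⟨φ, fun x hx => hφB x hx⟩,
    hr.1 (alphaTwoEpi_FX _ hK.1 _ hχ hA2), hr.2.1 (alphaThreeMono_FX _ hK.1 _ hA3),
    hr.2.2.1 (betaOneEpi_FX _ hK.1 _ hχ hB1), hr.2.2.2 (betaTwoMono_FX _ hK.1 _ hχ hB2),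
    stmt_B1M_ret (ZMod p) S (cycloChar p) _ (permRep (ZMod p) K) (FX (ZMod p) K)
      isRetract_perm_FX (betaOneMono_FX _ hK.1 _ hχ hB1m)⟩

end Fermat.Agent.S56.GWC.H64
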