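/-
S56, GW-CORE, package PT2, base export H3 (`Stmt_H3S_base`): `H³_S` of the permutation module
`𝔽_p[G_ℚ/G_K]` vanishes, from `S55.Top.Stmt_I2` (`H³_S(G_K, 𝔽_p) = 0`) by Shapiro's lemma in
degree 3 (cochain homotopy of helper49, `S55/Top/ShapiroCore.lean`).
Owner: helper64.
-/
import Fermat.Agent.S56.GWC.H64_B1M
import Fermat.Agent.S55.Top.Members
import Fermat.Agent.S55.Top.FunRep
import Fermat.Agent.S55.Top.Defs_PT

set_option autoImplicit false
set_option linter.unusedSectionVars false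

open CategoryTheory groupCohomology ExtCitation Module

noncomputable section

namespace Fermat.Agent.S56.GWC.H64

open Fermat.Agent.S55 Fermat.Agent.S55.Top Fermat.Agent.S55.Top.OrbitData

attribute [local instance] locAct

variable {k : Type} [Field k] {S : Finset Nat.Primes}
  {K : IntermediateField ℚ (AlgebraicClosure ℚ)}

lemma d2_add_coord {Γ X : Type} [Group Γ] [MulAction Γ X] (f f' : Γ × Γ → X → k) :
    d2 (f + f') = d2 f + d2 f' := by
  funext g x; simp only [d2, Pi.add_apply]; ring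

/-- Shapiro in degree 3: `H³_S(G_K, k) = 0` implies `H³_S(G_ℚ, Fun(G_ℚ/G_K, k)) = 0`. -/
theorem h3S_FX (hK : K.IsUnramifiedOutside S) (𝔓 : PlaceSys S K)
    (hI2 : ∀ F : ↥K.fixingSubgroup × ↥K.fixingSubgroup × ↥K.fixingSubgroup → k,
      tThree F = 0 → IsLevK₃ S K F →
      ∃ f : ↥K.fixingSubgroup × ↥K.fixingSubgroup → k, IsLevK₂ S K f ∧ tTwo f = F) :
    H3S S (FX k K) := by
  intro z hz hl
  have h3 : d3 (z : GQ × GQ × GQ → XK K → k) = 0 := hz
  obtain ⟨f, hf, hfe⟩ := hI2 (𝔓.shK₃ z) (𝔓.tThree_shK₃ z h3) (lev_shK₃ hl)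
  have hg := 𝔓.glob.hty_three' (z : GQ × GQ × GQ → XK K → k)
  rw [h3, hty4_zero, add_zero, ← 𝔓.indK₃_shK₃, ← hfe, ← 𝔓.d2_indK₂] at hg
  refine ⟨𝔓.indK₂ f + 𝔓.glob.hty3 z, (lev_indK₂ hK hf).add (lev_glob_hty3 hK hl), ?_⟩
  show d2 (𝔓.indK₂ f + 𝔓.glob.hty3 (z : GQ × GQ × GQ → XK K → k)) = z
  rw [d2_add_coord, ← hg]
  abel

/-- **Package H3-base**, from `S55.Top.Stmt_I2`. -/
theorem stmt_H3S_base_of (h2 : Top.Stmt_I2) : Stmt_H3S_base := by
  intro p _ hp2 S hpS K hK _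
  have : Finite (XK K) := finite_XK hK.1
  exact stmt_H3S_ret (ZMod p) S (permRep (ZMod p) K) (FX (ZMod p) K) isRetract_perm_FX
    (h3S_FX hK.1 (placeSysOut S K) (h2 p hp2 S hpS K hK))

end Fermat.Agent.S56.GWC.H64
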