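import Fermat.Agent.S56.GWC.Defs
import Fermat.Agent.S55.H48_E5Bridge

/-!
# S56 / GW-CORE / PT2, package CONE1 (helper1): `Stmt_CONE1`

The cone sequence in degree `≤ 1`, in terms of cardinalities:
`#H¹_c(X) · #H⁰(X) = #Ш¹_S(X) · ∏_{q ∈ S} #H⁰(ℚ_q, X)`.

Inside the group `C = C¹_c` of cone 1-cochains: `Z = Z¹_c`, `B = B¹_c`,
`Kc = {y ∈ Z : y.1 is a coboundary}`, `N₀ = {(0, (n_q)) : n_q ∈ H⁰(ℚ_q, X)}`.
* `Z / Kc ≅ Ш¹_S(X)` (bridge of helper48: `shaπ1_surjective`, `isSha1_of_mem`,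
  `exists_mem_of_isSha1`), so `[Z : Kc] = #Ш¹`;
* `Kc = (B ⊓ Z) ⊔ N₀`, so `[Kc : B ⊓ Z] = [N₀ : B ⊓ Z ⊓ N₀]`;
* `B ⊓ Z ⊓ N₀ ≅ H⁰(X)` (`S` nonempty), `N₀ ≅ ∏_q H⁰(ℚ_q, X)`.
No hypothesis on the level of `X`, no finiteness is needed.
-/

set_option autoImplicit false

noncomputable section

namespace Fermat.Agent.S56.GWC.H01

open CategoryTheory groupCohomology ExtCitation Module
open Fermat.Agent

variable {k : Type} [Field k] (S : Finset Nat.Primes) (X : Rep.{0} k S55.GQ)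

/-- `N₀ = {(0, (n_q)) : n_q ∈ H⁰(ℚ_q, X)}`. -/
def grpN0 : AddSubgroup (S55.C1c S X) where
  carrier := {y | y.1 = 0 ∧ ∀ q : ↥S, S55.dZeroL X q.1 (y.2 q) = 0}
  zero_mem' := ⟨rfl, fun q => S55.dZeroL_zero X q.1⟩
  add_mem' := by
    rintro y y' ⟨h1, h2⟩ ⟨h1', h2'⟩
    refine ⟨?_, fun q => ?_⟩
    · show y.1 + y'.1 = 0
      rw [h1, h1', add_zero]
    · show S55.dZeroL X q.1 (y.2 q + y'.2 q) = 0
      rw [S55.dZeroL_add, h2 q, h2' q, add_zero]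
  neg_mem' := by
    rintro y ⟨h1, h2⟩
    refine ⟨?_, fun q => ?_⟩
    · show -y.1 = 0
      rw [h1, neg_zero]
    · show S55.dZeroL X q.1 (-(y.2 q)) = 0
      have h := S55.dZeroL_sub X q.1 0 (y.2 q)
      rw [zero_sub, S55.dZeroL_zero, h2 q, sub_zero] at h
      exact h

theorem mem_grpN0 {y : S55.C1c S X} :
    y ∈ grpN0 S X ↔ y.1 = 0 ∧ ∀ q : ↥S, S55.dZeroL X q.1 (y.2 q) = 0 := Iff.rfl

/-- `Kc = {y ∈ Z¹_c : y.1 is a coboundary}`. -/
def grpKc : AddSubgroup (S55.C1c S X) where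
  carrier := {y | y ∈ grpZ1c S X ∧ ∃ m : X, y.1 = S55.dZero X m}
  zero_mem' := ⟨(grpZ1c S X).zero_mem, 0, by funext g; simp [S55.dZero]⟩
  add_mem' := by
    rintro y y' ⟨h, m, hm⟩ ⟨h', m', hm'⟩
    refine ⟨(grpZ1c S X).add_mem h h', m + m', ?_⟩
    show y.1 + y'.1 = _
    rw [S55.dZero_add, hm, hm']
  neg_mem' := by
    rintro y ⟨h, m, hm⟩
    refine ⟨(grpZ1c S X).neg_mem h, -m, ?_⟩
    show -y.1 = _
    have e := S55.dZero_sub X 0 m
    rw [zero_sub] at e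
    rw [e, hm]
    have e0 : S55.dZero X 0 = 0 := by funext g; simp [S55.dZero]
    rw [e0, zero_sub]

theorem mem_grpKc {y : S55.C1c S X} :
    y ∈ grpKc S X ↔ y ∈ grpZ1c S X ∧ ∃ m : X, y.1 = S55.dZero X m := Iff.rfl

theorem mem_grpZ1c {y : S55.C1c S X} : y ∈ grpZ1c S X ↔ S55.IsZ1c S X y := Iff.rfl

theorem mem_grpB1c {y : S55.C1c S X} : y ∈ grpB1c S X ↔ S55.IsB1c S X y := Iff.rfl

theorem grpKc_le : grpKc S X ≤ grpZ1c S X := fun _ h => h.1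

theorem inf_le_grpKc : grpB1c S X ⊓ grpZ1c S X ≤ grpKc S X := by
  rintro y ⟨⟨m, hm, -⟩, hZ⟩
  exact ⟨hZ, m, hm⟩

theorem grpN0_le : grpN0 S X ≤ grpKc S X := by
  rintro y ⟨h1, h2⟩
  refine ⟨⟨⟨?_, ?_⟩, fun q => ?_⟩, 0, ?_⟩
  · rw [h1]
    funext x
    simp [S55.dOne]
  · rw [h1]
    exact isLevelConstantS₁_const S (0 : X)
  · rw [h1, h2 q]
    rfl
  · rw [h1]
    funext g
    simp [S55.dZero]

/-- `Kc = (B ⊓ Z) ⊔ N₀`. -/
theorem grpKc_eq_sup : grpKc S X = (grpB1c S X ⊓ grpZ1c S X) ⊔ grpN0 S X := by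
  apply le_antisymm
  · rintro y ⟨hZ, m, hm⟩
    -- `y = (d m, (m)) + (0, (y.2 q - m))`
    have hZ' : S55.IsZ1c S X y := hZ
    obtain ⟨⟨hd, hl⟩, hq⟩ := hZ'
    set y₁ : S55.C1c S X := (S55.dZero X m, fun _ => m) with hy₁
    set y₂ : S55.C1c S X := (0, fun q => y.2 q - m) with hy₂
    have hy : y = y₁ + y₂ := by
      refine Prod.ext ?_ (funext fun q => ?_)
      · show y.1 = S55.dZero X m + 0
        rw [add_zero, hm]
      · show y.2 q = m + (y.2 q - m)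
        abel
    rw [hy]
    refine AddSubgroup.add_mem_sup ⟨⟨m, rfl, fun _ => rfl⟩, ⟨⟨?_, ?_⟩, fun q => rfl⟩⟩ ⟨rfl, fun q => ?_⟩
    · show S55.dOne X (S55.dZero X m) = 0
      exact S55.dOne_dZero X m
    · show IsLevelConstantS₁ S (S55.dZero X m)
      rw [← hm]
      exact hl
    · show S55.dZeroL X q.1 (y.2 q - m) = 0
      rw [S55.dZeroL_sub, ← hq q, hm]
      exact sub_self _
  · exact sup_le (inf_le_grpKc S X) (grpN0_le S X)

/-! ### The map to `Ш¹` -/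

/-- The cocycle of a cone cocycle. -/
def toCocycle : ↥(grpZ1c S X) →+ ↥(cocycles₁ X) where
  toFun y := ⟨y.1.1, (S55.H48.mem_cocycles₁_iff_dOne X _).2 y.2.1.1⟩
  map_zero' := rfl
  map_add' _ _ := rfl

theorem toCocycle_coe (y : ↥(grpZ1c S X)) :
    ((toCocycle S X y : ↥(cocycles₁ X)) : S55.GQ → X) = y.1.1 := rfl

theorem isSha1_of_mem_grpZ1c (y : ↥(grpZ1c S X)) : S55.H48.IsSha1 S X y.1.1 :=
  ⟨y.2.1, fun q => ⟨y.1.2 q, y.2.2 q⟩⟩

theorem toCocycle_mem (h2 : (2 : k) ≠ 0) (y : ↥(grpZ1c S X)) :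
    toCocycle S X y ∈ S55.H48.shaZ1 S X := by
  obtain ⟨c, hc⟩ := S55.H48.exists_mem_of_isSha1 S X h2 (isSha1_of_mem_grpZ1c S X y)
  have : toCocycle S X y = c.1 := Subtype.ext hc.symm
  rw [this]
  exact c.2

/-- The map `Z¹_c → Ш¹_S(X)`. -/
def toSha (h2 : (2 : k) ≠ 0) : ↥(grpZ1c S X) →+ ↥(sha₁ S X) where
  toFun y := S55.H48.shaπ1 S X ⟨toCocycle S X y, toCocycle_mem S X h2 y⟩
  map_zero' := by
    apply Subtype.ext
    rw [S55.H48.shaπ1_coe]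
    show (H1π X).hom (toCocycle S X 0) = 0
    rw [map_zero, map_zero]
  map_add' y y' := by
    apply Subtype.ext
    rw [S55.H48.shaπ1_coe]
    show (H1π X).hom (toCocycle S X (y + y')) = _
    rw [map_add, map_add]
    rfl

theorem toSha_surjective (h2 : (2 : k) ≠ 0) : Function.Surjective (toSha S X h2) := by
  intro β
  obtain ⟨c, rfl⟩ := S55.H48.shaπ1_surjective S X β
  obtain ⟨hZ, hloc⟩ := S55.H48.isSha1_of_mem S X c
  choose m hm using hloc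
  refine ⟨⟨(((c.1 : ↥(cocycles₁ X)) : S55.GQ → X), m), ⟨hZ, hm⟩⟩, ?_⟩
  apply Subtype.ext
  rfl

theorem toSha_ker (h2 : (2 : k) ≠ 0) :
    (toSha S X h2).ker = (grpKc S X).addSubgroupOf (grpZ1c S X) := by
  ext y
  rw [AddMonoidHom.mem_ker, AddSubgroup.mem_addSubgroupOf, mem_grpKc]
  show S55.H48.shaπ1 S X ⟨toCocycle S X y, toCocycle_mem S X h2 y⟩ = 0 ↔ _
  rw [S55.H48.shaπ1_eq_zero_iff]
  constructor
  · rintro ⟨m, hm⟩
    exact ⟨y.2, m, hm⟩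
  · rintro ⟨-, m, hm⟩
    exact ⟨m, hm⟩

theorem relIndex_grpKc (h2 : (2 : k) ≠ 0) :
    (grpKc S X).relIndex (grpZ1c S X) = Nat.card (sha₁ S X) := by
  unfold AddSubgroup.relIndex
  rw [← toSha_ker S X h2, AddSubgroup.index_ker,
    AddMonoidHom.range_eq_top.mpr (toSha_surjective S X h2)]
  exact Nat.card_congr (AddSubgroup.topEquiv).toEquiv

/-! ### The local invariants -/

/-- `N₀ ≅ ∏_q H⁰(ℚ_q, X)`. -/
def equivN0 : ↥(grpN0 S X) ≃ (∀ q : ↥S, ↥((S56.locRep X q.1).ρ.invariants)) where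
  toFun y := fun q => ⟨y.1.2 q, fun h => by
    have := congrFun (y.2.2 q) h
    simp only [S55.dZeroL, Pi.zero_apply, sub_eq_zero] at this
    exact this⟩
  invFun n := ⟨(0, fun q => (n q).1), rfl, fun q => by
    funext h
    have := (n q).2 h
    simp only [S55.dZeroL, Pi.zero_apply, sub_eq_zero]
    exact this⟩
  left_inv y := by
    apply Subtype.ext
    exact Prod.ext y.2.1.symm rfl
  right_inv n := rfl

theorem card_grpN0 :
    Nat.card ↥(grpN0 S X) = ∏ q ∈ S, Nat.card ↥((S56.locRep X q).ρ.invariants) := by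
  rw [Nat.card_congr (equivN0 S X), Nat.card_pi]
  exact Finset.prod_coe_sort S fun q => Nat.card ↥((S56.locRep X q).ρ.invariants)

/-- `B ⊓ Z ⊓ N₀ ≅ H⁰(X)` (if `S` is nonempty). -/
def equivInf (hS : S.Nonempty) :
    ↥(X.ρ.invariants) ≃ ↥((grpB1c S X ⊓ grpZ1c S X) ⊓ grpN0 S X) where
  toFun m := ⟨(0, fun _ => m.1), by
    have hd : S55.dZero X m.1 = 0 := by
      funext g
      simp only [S55.dZero, Pi.zero_apply, sub_eq_zero]
      exact m.2 g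
    have hN : ((0, fun _ => m.1) : S55.C1c S X) ∈ grpN0 S X := by
      refine ⟨rfl, fun q => ?_⟩
      funext h
      simp only [S55.dZeroL, Pi.zero_apply, sub_eq_zero]
      exact m.2 _
    exact ⟨⟨⟨m.1, hd.symm, fun _ => rfl⟩, (grpKc_le S X) (grpN0_le S X hN)⟩, hN⟩⟩
  invFun y := ⟨y.1.2 ⟨hS.choose, hS.choose_spec⟩, by
    obtain ⟨⟨⟨m, hm, hq⟩, -⟩, h1, -⟩ := y.2
    intro g
    rw [hq]
    have := congrFun (hm.symm.trans h1) g
    simp only [S55.dZero, Pi.zero_apply, sub_eq_zero] at this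
    exact this⟩
  left_inv m := rfl
  right_inv y := by
    obtain ⟨⟨⟨m, hm, hq⟩, -⟩, h1, -⟩ := y.2
    apply Subtype.ext
    refine Prod.ext h1.symm (funext fun q => ?_)
    show y.1.2 ⟨hS.choose, hS.choose_spec⟩ = y.1.2 q
    rw [hq, hq]

/-- **Package CONE1.** -/
theorem stmt_CONE1 : Stmt_CONE1 := by
  intro k _ h2 S X _ hS
  unfold cardH1c
  have e1 : (grpB1c S X).relIndex (grpZ1c S X)
      = (grpB1c S X ⊓ grpZ1c S X).relIndex (grpKc S X) * Nat.card (sha₁ S X) := by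
    rw [← relIndex_grpKc S X h2,
      AddSubgroup.relIndex_mul_relIndex _ _ _ (inf_le_grpKc S X) (grpKc_le S X),
      AddSubgroup.inf_relIndex_right]
  have e2 : (grpB1c S X ⊓ grpZ1c S X).relIndex (grpKc S X)
      = ((grpB1c S X ⊓ grpZ1c S X) ⊓ grpN0 S X).relIndex (grpN0 S X) := by
    rw [grpKc_eq_sup, AddSubgroup.relIndex_sup_left, AddSubgroup.inf_relIndex_right]
  have e3 : Nat.card ↥((grpB1c S X ⊓ grpZ1c S X) ⊓ grpN0 S X)
      * ((grpB1c S X ⊓ grpZ1c S X) ⊓ grpN0 S X).relIndex (grpN0 S X)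
      = Nat.card ↥(grpN0 S X) := by
    have := AddSubgroup.relIndex_mul_relIndex (⊥ : AddSubgroup (S55.C1c S X))
      ((grpB1c S X ⊓ grpZ1c S X) ⊓ grpN0 S X) (grpN0 S X) bot_le inf_le_right
    rwa [AddSubgroup.relIndex_bot_left, AddSubgroup.relIndex_bot_left] at this
  rw [e1, e2, ← card_grpN0, ← e3, Nat.card_congr (equivInf S X hS)]
  ring

end Fermat.Agent.S56.GWC.H01

end
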