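/-
S56 / GW-CORE / PT2 (plan NOTES/plan/T_GWC.md, owner helper64), package DD (helper46):
`#H¹_c` is invariant under equivariant additive bijections, in particular under `X ≅ X''`.
-/
import Fermat.Agent.S56.GWC.Defs

set_option autoImplicit false

noncomputable section

namespace Fermat.Agent.S56.GWC.H46

open CategoryTheory groupCohomology ExtCitation Module

variable {k : Type} [Field k]

/-- The map induced on cone 1-cochains by an additive map of the coefficients. -/
def coneMap (S : Finset Nat.Primes) (X Y : Rep.{0} k S55.GQ) (e : X →+ Y) :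
    S55.C1c S X →+ S55.C1c S Y where
  toFun y := (fun g => e (y.1 g), fun q => e (y.2 q))
  map_zero' := by
    ext <;> simp
  map_add' y y' := by
    ext <;> simp

lemma coneMap_injective (S : Finset Nat.Primes) (X Y : Rep.{0} k S55.GQ) (e : X →+ Y)
    (he : Function.Injective e) : Function.Injective (coneMap S X Y e) := by
  intro y y' h
  have h1 : ∀ g, e (y.1 g) = e (y'.1 g) := fun g => congrFun (congrArg Prod.fst h) g
  have h2 : ∀ q, e (y.2 q) = e (y'.2 q) := fun q => congrFun (congrArg Prod.snd h) q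
  refine Prod.ext (funext fun g => he (h1 g)) (funext fun q => he (h2 q))

section transport

variable (S : Finset Nat.Primes) (X Y : Rep.{0} k S55.GQ) (e : X ≃+ Y)
  (he : ∀ (g : S55.GQ) (x : X), e (X.ρ g x) = Y.ρ g (e x))

include he in
lemma isZ1c_coneMap (y : S55.C1c S X) (hy : S55.IsZ1c S X y) :
    S55.IsZ1c S Y (coneMap S X Y e.toAddMonoidHom y) := by
  obtain ⟨⟨hd, hl⟩, hq⟩ := hy
  refine ⟨⟨?_, hl.comp e⟩, fun q => ?_⟩
  · funext t
    have := congrFun hd t
    simp only [S55.dOne, Pi.zero_apply] at this ⊢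
    show Y.ρ t.1 (e (y.1 t.2)) - e (y.1 (t.1 * t.2)) + e (y.1 t.1) = 0
    rw [← he, ← map_sub, ← map_add, this, map_zero]
  · funext h
    have := congrFun (hq q) h
    simp only [S55.resOne, S55.dZeroL] at this ⊢
    show e (y.1 (S55.rl q.1 h)) = Y.ρ (S55.rl q.1 h) (e (y.2 q)) - e (y.2 q)
    rw [this, map_sub, he]

include he in
lemma isB1c_coneMap (y : S55.C1c S X) (hy : S55.IsB1c S X y) :
    S55.IsB1c S Y (coneMap S X Y e.toAddMonoidHom y) := by
  obtain ⟨m, hm, hq⟩ := hy
  refine ⟨e m, ?_, fun q => ?_⟩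
  · funext g
    show e (y.1 g) = Y.ρ g (e m) - e m
    rw [hm, ← he, ← map_sub]
    rfl
  · show e (y.2 q) = e m
    rw [hq q]

end transport

/-- `#H¹_c` only depends on the coefficient module up to equivariant additive bijection. -/
theorem cardH1c_congr (S : Finset Nat.Primes) (X Y : Rep.{0} k S55.GQ) (e : X ≃+ Y)
    (he : ∀ (g : S55.GQ) (x : X), e (X.ρ g x) = Y.ρ g (e x)) :
    cardH1c S Y = cardH1c S X := by
  have he' : ∀ (g : S55.GQ) (x : Y), e.symm (Y.ρ g x) = X.ρ g (e.symm x) := by
    intro g x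
    apply e.injective
    rw [he, e.apply_symm_apply, e.apply_symm_apply]
  have hZ : (grpZ1c S X).map (coneMap S X Y e.toAddMonoidHom) = grpZ1c S Y := by
    ext y
    constructor
    · rintro ⟨x, hx, rfl⟩
      exact isZ1c_coneMap S X Y e he x hx
    · intro hy
      refine ⟨coneMap S Y X e.symm.toAddMonoidHom y, isZ1c_coneMap S Y X e.symm he' y hy, ?_⟩
      refine Prod.ext (funext fun g => ?_) (funext fun q => ?_)
      · exact e.apply_symm_apply _
      · exact e.apply_symm_apply _
  have hB : (grpB1c S X).map (coneMap S X Y e.toAddMonoidHom) = grpB1c S Y := by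
    ext y
    constructor
    · rintro ⟨x, hx, rfl⟩
      exact isB1c_coneMap S X Y e he x hx
    · intro hy
      refine ⟨coneMap S Y X e.symm.toAddMonoidHom y, isB1c_coneMap S Y X e.symm he' y hy, ?_⟩
      refine Prod.ext (funext fun g => ?_) (funext fun q => ?_)
      · exact e.apply_symm_apply _
      · exact e.apply_symm_apply _
  unfold cardH1c
  rw [← hZ, ← hB]
  exact AddSubgroup.relIndex_map_map_of_injective _ _
    (coneMap_injective S X Y e.toAddMonoidHom e.injective)

/-- **Package DD**. -/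
theorem stmt_DD : Stmt_DD := by
  intro k _ S χ X hfd
  refine cardH1c_congr S X (S55.Md χ (S55.Md χ X))
    ((Module.evalEquiv k X).toAddEquiv) ?_
  intro g x
  apply LinearMap.ext
  intro φ
  show φ (X.ρ g x) = (χ g : k) • ((χ g⁻¹ : k) • φ (X.ρ g⁻¹⁻¹ x))
  rw [inv_inv, smul_smul, map_inv, Units.mul_inv, one_smul]

end Fermat.Agent.S56.GWC.H46

end
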