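/-
S56 / GW-CORE / PT2 (plan NOTES/plan/T_GWC.md, owner helper64), package DUALCOUNT (helper46):
if `β¹` is bijective for `Y` and `H¹_c(Y')` is finite, then `H²_S(Y)` is finite of the same order.

The pairing `(a, y) ↦ tr (a ∪ y)` on `Z²_S(Y) × Z¹_c(Y')` descends to `H²_S(Y)` and induces an
additive map `Ψ : Z¹_c(Y') → H²_S(Y)^∨` with kernel `B¹_c(Y')` (`β¹` mono) which is onto
(`β¹` epi); so `H¹_c(Y') ≃ H²_S(Y)^∨`.
-/
import Fermat.Agent.S56.GWC.Defs
import Fermat.Agent.S55.H48_E5Adj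
import Fermat.Agent.S55.H48_E5Bridge
import Fermat.Agent.S55.H48_NC

set_option autoImplicit false

noncomputable section

namespace Fermat.Agent.S56.GWC.H46

open CategoryTheory groupCohomology ExtCitation Module
open Fermat.Agent.S55

variable {k : Type} [Field k] {S : Finset Nat.Primes} {χ : GQ →* kˣ}

/-- For a 2-cocycle `a`, the cup product with a cone 1-coboundary is a cone differential. -/
lemma cupB1_coboundary (Y : Rep.{0} k GQ) (a : GQ × GQ → Y) (hd : dTwo Y a = 0) (m' : Md χ Y) :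
    cupB1 S χ Y a (dZero (Md χ Y) m', fun _ => m') =
      dCone2 S (kχ χ) (cupA20 χ Y ((a, 0) : C2c S Y) m') := by
  rw [dCone2_cupA20]
  refine Prod.ext (funext fun t => ?_) (funext fun q => funext fun t => ?_)
  · obtain ⟨g₁, g₂, g₃⟩ := t
    simp only [cupB1, cupA3, cupA2, dCone2, Prod.fst_add, Pi.add_apply, hd, Pi.zero_apply,
      ev_zero_left, zero_add]
  · obtain ⟨h₁, h₂⟩ := t
    simp only [cupB1, cupA3, cupA2, dCone2, Prod.snd_add, Pi.add_apply, Pi.zero_apply,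
      ev_zero_left, add_zero, resTwo, Pi.sub_apply]
    have : dOneL Y q.1 (0 : Gl q.1 → Y) (h₁, h₂) = 0 := by
      simp [dOneL]
    rw [this, sub_zero]

/-- The trace of `a ∪ y` vanishes for a level-`S` 2-cocycle `a` and a cone 1-coboundary `y`. -/
theorem tr_cupB1_coboundary (hχ : LevChar S χ) (Y : Rep.{0} k GQ) (hY : Lev S Y)
    (tr : Trace S χ) {a : GQ × GQ → Y} (ha : IsZ2S S Y a) {y : C1c S (Md χ Y)}
    (hy : IsB1c S (Md χ Y) y) : tr.toFun (cupB1 S χ Y a y) = 0 := by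
  obtain ⟨m', h1, h2⟩ := hy
  have hy' : y = (dZero (Md χ Y) m', fun _ => m') := Prod.ext h1 (funext h2)
  rw [hy', cupB1_coboundary Y a ha.1 m']
  have hNC : NC S := fun F hF => H48.exists_normal_level S F hF
  obtain ⟨l1, l2⟩ := lev_cupA20 (x := ((a, 0) : C2c S Y)) χ Y hNC hχ hY ha.2
    (fun q : ↥S => isLevelConstant₁_const (rl q.1) (0 : Y)) m'
  exact tr.zero_of_isB3c _ (isB3c_dCone2 l1 l2)

section pairing

variable (hχ : LevChar S χ) (Y : Rep.{0} k GQ) (hY : Lev S Y) (tr : Trace S χ)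

/-- The functional `a ↦ tr (a ∪ y)` on `Z²_S(Y)`. -/
def pairZ2 (y : C1c S (Md χ Y)) : ↥(levelCocyclesS₂ S Y) →ₗ[k] k :=
  tr.toFun ∘ₗ (cupB1ₗ S χ Y y) ∘ₗ (levelCocyclesS₂ S Y).subtype

@[simp] lemma pairZ2_apply (y : C1c S (Md χ Y)) (a : ↥(levelCocyclesS₂ S Y)) :
    pairZ2 Y tr y a = tr.toFun (cupB1 S χ Y (a : GQ × GQ → Y) y) := rfl

include hχ hY in
lemma pairZ2_vanish {y : C1c S (Md χ Y)} (hy : IsZ1c S (Md χ Y) y) :
    (levelCoboundariesS₂ S Y).comap (levelCocyclesS₂ S Y).subtype ≤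
      LinearMap.ker (pairZ2 Y tr y) := by
  intro a ha
  rw [Submodule.mem_comap] at ha
  obtain ⟨f, hf, hfa⟩ := (mem_levelCoboundariesS₂_iff S Y _).1 ha
  rw [LinearMap.mem_ker, pairZ2_apply]
  have e : ((levelCocyclesS₂ S Y).subtype a : GQ × GQ → Y) = dOne Y f := hfa.symm
  have e' : (a : GQ × GQ → Y) = dOne Y f := e
  rw [e']
  exact H48.tr_cupB1_dOne (fun F hF => H48.exists_normal_level S F hF) hχ hY tr hy hf

/-- The induced functional on `H²_S(Y)`. -/
def pairH2 {y : C1c S (Md χ Y)} (hy : IsZ1c S (Md χ Y) y) : continuousH2S S Y →ₗ[k] k :=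
  Submodule.liftQ _ (pairZ2 Y tr y) (pairZ2_vanish hχ Y hY tr hy)

lemma pairH2_mk {y : C1c S (Md χ Y)} (hy : IsZ1c S (Md χ Y) y) (a : ↥(levelCocyclesS₂ S Y)) :
    pairH2 hχ Y hY tr hy (continuousH2Sπ S Y a) = tr.toFun (cupB1 S χ Y (a : GQ × GQ → Y) y) :=
  rfl

/-- `Ψ : Z¹_c(Y') → H²_S(Y)^∨`. -/
def Psi : ↥(grpZ1c S (Md χ Y)) →+ (continuousH2S S Y →ₗ[k] k) where
  toFun y := pairH2 hχ Y hY tr y.2
  map_zero' := by
    apply LinearMap.ext
    intro x
    obtain ⟨a, rfl⟩ := Submodule.mkQ_surjective _ x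
    show tr.toFun (cupB1 S χ Y (a : GQ × GQ → Y) 0) = 0
    have : cupB1 S χ Y (a : GQ × GQ → Y) (0 : C1c S (Md χ Y)) = 0 := by
      refine Prod.ext (funext fun t => ?_) (funext fun q => funext fun t => ?_) <;>
        simp [cupB1]
    rw [this, map_zero]
  map_add' y y' := by
    apply LinearMap.ext
    intro x
    obtain ⟨a, rfl⟩ := Submodule.mkQ_surjective _ x
    show tr.toFun (cupB1 S χ Y (a : GQ × GQ → Y) (y.1 + y'.1)) =
      tr.toFun (cupB1 S χ Y (a : GQ × GQ → Y) y.1) + tr.toFun (cupB1 S χ Y (a : GQ × GQ → Y) y'.1)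
    rw [cupB1_add_right, map_add]

lemma Psi_apply_mk (y : ↥(grpZ1c S (Md χ Y))) (a : ↥(levelCocyclesS₂ S Y)) :
    Psi hχ Y hY tr y (continuousH2Sπ S Y a) =
      tr.toFun (cupB1 S χ Y (a : GQ × GQ → Y) y.1) := rfl

lemma mem_levelCocyclesS₂_iff_isZ2S (a : GQ × GQ → Y) :
    a ∈ levelCocyclesS₂ S Y ↔ IsZ2S S Y a := by
  rw [mem_levelCocyclesS₂_iff, H48.mem_cocycles₂_iff_dTwo]
  rfl

include hχ hY in
/-- The kernel of `Ψ` is `B¹_c` (`β¹` mono). -/
lemma ker_Psi (hmono : BetaOneMono tr Y) :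
    (Psi hχ Y hY tr).ker = (grpB1c S (Md χ Y)).addSubgroupOf (grpZ1c S (Md χ Y)) := by
  ext y
  rw [AddMonoidHom.mem_ker, AddSubgroup.mem_addSubgroupOf]
  constructor
  · intro h
    refine hmono y.1 y.2 (fun a ha => ?_)
    have := LinearMap.congr_fun h
      (continuousH2Sπ S Y ⟨a, (mem_levelCocyclesS₂_iff_isZ2S Y a).2 ha⟩)
    rw [Psi_apply_mk] at this
    exact this
  · intro h
    apply LinearMap.ext
    intro x
    obtain ⟨a, rfl⟩ := Submodule.mkQ_surjective _ x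
    show tr.toFun (cupB1 S χ Y (a : GQ × GQ → Y) y.1) = 0
    exact tr_cupB1_coboundary hχ Y hY tr ((mem_levelCocyclesS₂_iff_isZ2S Y a).1 a.2) h

include hχ hY in
/-- `Ψ` is onto (`β¹` epi). -/
lemma Psi_surjective (hepi : BetaOneEpi tr Y) : Function.Surjective (Psi hχ Y hY tr) := by
  intro ψ
  obtain ⟨φ, hφ⟩ := LinearMap.exists_extend (ψ ∘ₗ continuousH2Sπ S Y)
  have hφ' : ∀ a : ↥(levelCocyclesS₂ S Y), φ (a : GQ × GQ → Y) = ψ (continuousH2Sπ S Y a) :=
    fun a => LinearMap.congr_fun hφ a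
  have hNC : NC S := fun F hF => H48.exists_normal_level S F hF
  obtain ⟨y, hy, hyφ⟩ := hepi φ (fun a ha => by
    obtain ⟨f, hf, hfa⟩ := ha
    have hZ : IsZ2S S Y a := by
      rw [← hfa]
      exact ⟨dTwo_dOne Y f, isLevelConstantS₂_dOne Y hNC hY hf⟩
    have hmem : a ∈ levelCocyclesS₂ S Y := (mem_levelCocyclesS₂_iff_isZ2S Y a).2 hZ
    have h0 : continuousH2Sπ S Y ⟨a, hmem⟩ = 0 := by
      rw [continuousH2Sπ_eq_zero_iff]
      exact (mem_levelCoboundariesS₂_iff S Y a).2 ⟨f, hf, hfa⟩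
    have := hφ' ⟨a, hmem⟩
    rw [h0, map_zero] at this
    exact this)
  refine ⟨⟨y, hy⟩, ?_⟩
  apply LinearMap.ext
  intro x
  obtain ⟨a, rfl⟩ := Submodule.mkQ_surjective _ x
  rw [Psi_apply_mk]
  show tr.toFun (cupB1 S χ Y (a : GQ × GQ → Y) y) = _
  rw [hyφ _ ((mem_levelCocyclesS₂_iff_isZ2S Y a).1 a.2), hφ']

end pairing

/-- A vector space over a finite field with finite dual is finite, of the same cardinality. -/
lemma card_eq_card_dual (k : Type) [Field k] [Finite k] (V : Type) [AddCommGroup V] [Module k V]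
    (h : Finite (V →ₗ[k] k)) : Finite V ∧ Nat.card V = Nat.card (V →ₗ[k] k) := by
  have h1 : Finite ((V →ₗ[k] k) →ₗ[k] k) :=
    Finite.of_injective (fun f => (f : (V →ₗ[k] k) → k)) DFunLike.coe_injective
  have h2 : Finite V := Finite.of_injective _ (Module.eval_apply_injective k (V := V))
  have h3 : Module.Finite k V := Module.Finite.of_finite
  refine ⟨h2, ?_⟩
  exact Nat.card_congr (Module.finBasis k V).toDualEquiv.toEquiv

/-- **Package DUALCOUNT**. -/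
theorem stmt_DUALCOUNT : Stmt_DUALCOUNT := by
  intro k _ _ S χ tr hχ Y hY hepi hmono hcard
  have hiso := QuotientAddGroup.quotientKerEquivOfSurjective (Psi hχ Y hY tr)
    (Psi_surjective hχ Y hY tr hepi)
  have hc : cardH1c S (Md χ Y) = Nat.card (continuousH2S S Y →ₗ[k] k) := by
    unfold cardH1c
    rw [AddSubgroup.relIndex, ← ker_Psi hχ Y hY tr hmono, AddSubgroup.index_eq_card]
    exact Nat.card_congr hiso.toEquiv
  have hfin : Finite (continuousH2S S Y →ₗ[k] k) := by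
    apply Nat.finite_of_card_ne_zero
    rw [← hc]
    exact hcard
  obtain ⟨h1, h2⟩ := card_eq_card_dual k (continuousH2S S Y) hfin
  exact ⟨h1, h2.trans hc.symm⟩

end Fermat.Agent.S56.GWC.H46

end
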