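/-
S56 / GW-CORE / PT2 (helper64): the glue.
* `stmt_B1_of`   : `Stmt_B1M_base → Stmt_H3S_base → Stmt_B1`;
* `stmt_PT2e_of` : `Stmt_B1 → Stmt_CONE1 → Stmt_DUALCOUNT → Stmt_DD → Stmt_PT2e`;
* `stmt_PT2_of`  : `Stmt_B1M_base → Stmt_H3S_base → Stmt_CONE1 → Stmt_DUALCOUNT → Stmt_DD →
                     Stmt_RS → Stmt_PT2`.
-/
import Fermat.Agent.S56.GWC.H64_B1M
import Fermat.Agent.S55.H13_E3Idx
import Fermat.Agent.S55.H48_Lev
import Fermat.Agent.S56.GW.H92_FinGlobFinal
import Fermat.Agent.S55.H48_E5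

set_option autoImplicit false

open CategoryTheory Module groupCohomology ExtCitation

noncomputable section

namespace Fermat.Agent.S56.GWC.H64

open Fermat.Agent.S55 Fermat.Agent.S56.GWC

variable {k : Type} [Field k] {S : Finset Nat.Primes} {χ : GQ →* kˣ}

/-- `β¹mono` for the zero module. -/
lemma betaOneMono_of_subsingleton (tr : Trace S χ) (M : Rep.{0} k GQ) [Subsingleton M] :
    BetaOneMono tr M := by
  intro y _ _
  have hM : ∀ m' : Md χ M, m' = 0 := fun m' => by
    apply LinearMap.ext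
    intro m
    rw [Subsingleton.elim m 0]
    simp
  rw [isB1c_iff_bdry]
  refine ⟨0, Prod.ext (funext fun g => ?_) (funext fun q => ?_)⟩
  · exact (hM _).trans (hM _).symm
  · exact (hM _).trans (hM _).symm

/-- Dévissage of `β¹mono`, cone on the right. -/
theorem betaOneMono_of_devL (tr : Trace S χ) (hχ : LevChar S χ)
    (K : IntermediateField ℚ (AlgebraicClosure ℚ))
    (hK : BetaOneMono tr (permRep k K)) (hK3 : H3S S (permRep k K))
    (N : Rep.{0} k GQ) (hN : DevL k S K N) : BetaOneMono tr N := by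
  induction hN with
  | zero M hM => exact betaOneMono_of_subsingleton tr M
  | ext M₁ M M₂ i π hses hiso h₁ h h₂ _ ih =>
    obtain ⟨e⟩ := hiso
    have hr : IsRetract M₁ (permRep k K) := isRetract_of_iso e
    exact stmt_B1M_ext k S χ tr hχ M₁ M M₂ i π hses h₁ h h₂
      (stmt_B1M_ret k S χ tr M₁ (permRep k K) hr hK) ih
      (stmt_H3S_ret k S M₁ (permRep k K) hr hK3)

/-- **B1** from the base case. -/
theorem stmt_B1_of (hb : Stmt_B1M_base) (h3 : Stmt_H3S_base) : Stmt_B1 := by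
  intro p _ hp2 S X _ hpS hlev
  have hχ : LevChar S (cycloChar p) := H48.stmt_levChar p S hpS
  obtain ⟨K, hK, hidx, N, hret, hL, hR⟩ := H13.stmt_E3_index p (ZMod p) S X hpS hlev
  obtain ⟨tr, -, -, hB1, hB2, hB1M⟩ := hb p hp2 S hpS K hK hidx
  have hK3 := h3 p hp2 S hpS K hK hidx
  have hβN : BetaOneEpi tr N :=
    betaOneEpi_of_devR H49.stmt_E1B H48.stmt_E2 tr hχ K ⟨hB1, hB2⟩ N hR
  have hmN : BetaOneMono tr N := betaOneMono_of_devL tr hχ K hB1M hK3 N hL
  have hr := H48.stmt_E2 (ZMod p) S (cycloChar p) tr X N hret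
  exact ⟨tr, hr.2.2.1 hβN, stmt_B1M_ret (ZMod p) S (cycloChar p) tr X N hret hmN⟩

/-- Level `S` implies smoothness. -/
lemma isSmoothRep_of_lev {M : Rep.{0} k GQ} (hM : Lev S M) : IsSmoothRep M := by
  obtain ⟨F, hF, h⟩ := hM
  exact fun m => ⟨F, hF.1, fun s hs => h s hs m⟩

set_option maxHeartbeats 800000 in
/-- **PT2e** from the packages. -/
theorem stmt_PT2e_of (hB : Stmt_B1) (hC : Stmt_CONE1) (hD : Stmt_DUALCOUNT) (hDD : Stmt_DD) :
    Stmt_PT2e := by
  intro p _ hp2 S X _ hpS hlev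
  have hχ : LevChar S (cycloChar p) := H48.stmt_levChar p S hpS
  have hY : Lev S (Md (cycloChar p) X) := lev_Md X hχ hlev
  haveI : FiniteDimensional (ZMod p) (Md (cycloChar p) X) := by
    show FiniteDimensional (ZMod p) (Module.Dual (ZMod p) X)
    infer_instance
  obtain ⟨tr, hE, hM⟩ := hB p hp2 S (Md (cycloChar p) X) hpS hY
  have h2 : (2 : ZMod p) ≠ 0 := H48.two_ne_zero_zmod p hp2
  haveI : Finite X := Module.finite_of_finite (ZMod p)
  have hne : S.Nonempty := ⟨_, hpS⟩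
  have hcone := hC (ZMod p) h2 S X inferInstance hne
  have hsm : IsSmoothRep X := isSmoothRep_of_lev hlev
  haveI : Module.Finite (ZMod p) (continuousH1S S X) := H92.stmt_fin_glob (ZMod p) X hsm S
  haveI : Finite (continuousH1S S X) := Module.finite_of_finite (ZMod p)
  haveI : Finite (sha₁ S X) :=
    Finite.of_injective (Submodule.inclusion (inf_le_left : sha₁ S X ≤ continuousH1S S X))
      (Submodule.inclusion_injective _)
  have hpos : Nat.card (sha₁ S X) * ∏ q ∈ S, Nat.card (S56.locRep X q).ρ.invariants ≠ 0 := by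
    refine mul_ne_zero Nat.card_pos.ne' (Finset.prod_ne_zero_iff.2 fun q _ => ?_)
    haveI : Finite (S56.locRep X q) := (inferInstance : Finite X)
    exact Nat.card_pos.ne'
  have hc1 : cardH1c S X ≠ 0 := by
    intro h
    rw [h, zero_mul] at hcone
    exact hpos hcone.symm
  have hdd := hDD (ZMod p) S (cycloChar p) X inferInstance
  obtain ⟨hfin, hcard⟩ :=
    hD (ZMod p) S (cycloChar p) tr hχ _ hY hE hM (by rw [hdd]; exact hc1)
  refine ⟨hfin, ?_⟩
  rw [hcard, hdd, ← hcone]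

/-- **PT2** from the open packages. -/
theorem stmt_PT2_of (hb : Stmt_B1M_base) (h3 : Stmt_H3S_base) (hC : Stmt_CONE1)
    (hD : Stmt_DUALCOUNT) (hDD : Stmt_DD) (hRS : Stmt_RS) : S56.Stmt_PT2 :=
  hRS (stmt_PT2e_of (stmt_B1_of hb h3) hC hD hDD)

end Fermat.Agent.S56.GWC.H64

end
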