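import Fermat.Agent.S56.GWC.Defs

set_option autoImplicit false

/-!
# Cluster T / S56, package GW-CORE, layer 2: interfaces for `Stmt_INV`

Owner-planner: helper64.  Plan: `NOTES/plan/T_GWC.md` §5.

`Stmt_INV` (`S56/GW/Defs2.lean`) asks for ONE family of local invariants `inv_q` with the
reciprocity law for ALL finite sets `Sg ∋ p`.  The S55-E4 lane produces, for every `S ∋ p`,
some trace `tr_S` on cone 3-cochains of `𝔽_p(1)`; `inv_q^S z := tr_S (0, δ_q z)`.

* `LocTwoMono`, `LocTwoEpi` : local duality in degrees `(2, 0)` for a trace (the local `H²`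
  against the local invariants of the dual);
* `Stmt_E4X`  : the base case exported by the E4 lane (PT-LIN + Shapiro), all properties for the
  same trace;
* `Stmt_L2_ret` : retracts;
* `Stmt_CHI`  : `𝔽_p(1)` is a retract of `𝔽_p[G_ℚ/G_K]`, `K = ℚ(μ_p)`;
* `Stmt_UR2`  : unramified local 2-cocycles are coboundaries (`H²(Ẑ, X) = 0`);
* assembly (normalisation at `p`, independence of `S`, coordinates `𝔽_p → k`): helper64.
-/

noncomputable section

namespace Fermat.Agent.S56.GWC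

open CategoryTheory groupCohomology ExtCitation Module

section defs

variable {k : Type} [Field k] {S : Finset Nat.Primes} {χ : S55.GQ →* kˣ}

/-- The cone 3-cochain `(0, δ_q c)`: zero global component, `c` at `q`, zero at the other
primes. -/
def at3 (S : Finset Nat.Primes) (X : Rep.{0} k S55.GQ) (q : ↥S)
    (c : S55.Gl q.1 × S55.Gl q.1 → X) : S55.C3c S X :=
  (0, Pi.single q c)

/-- Local duality `(2, 0)`, injectivity: a level-constant local 2-cocycle `c` of `X` at `q`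
with `tr ((0, δ_q c) ∪ m') = 0` for all `m' ∈ H⁰(ℚ_q, X')` is the coboundary of a level-constant
cochain.  (`H²(ℚ_q, X) ↪ H⁰(ℚ_q, X')^∨`.) -/
def LocTwoMono (tr : S55.Trace S χ) (X : Rep.{0} k S55.GQ) (q : ↥S) : Prop :=
  ∀ c : S55.Gl q.1 × S55.Gl q.1 → X, S55.dTwoL X q.1 c = 0 → IsLevelConstant₂ (S55.rl q.1) c →
    (∀ m' : S55.Md χ X, (∀ h : S55.Gl q.1, (S55.Md χ X).ρ (S55.rl q.1 h) m' = m') →
      tr.toFun (S55.cupA3 S χ X (at3 S X q c) m') = 0) →
    ∃ g : S55.Gl q.1 → X, IsLevelConstant₁ (S55.rl q.1) g ∧ S55.dOneL X q.1 g = c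

/-- Local duality `(2, 0)`, surjectivity: every functional on `H⁰(ℚ_q, X')` is
`m' ↦ tr ((0, δ_q c) ∪ m')` for a level-constant local 2-cocycle `c` of `X` at `q`.
(`H²(ℚ_q, X) ↠ H⁰(ℚ_q, X')^∨`.) -/
def LocTwoEpi (tr : S55.Trace S χ) (X : Rep.{0} k S55.GQ) (q : ↥S) : Prop :=
  ∀ φ : S55.Md χ X →ₗ[k] k,
    ∃ c : S55.Gl q.1 × S55.Gl q.1 → X, S55.dTwoL X q.1 c = 0 ∧
      IsLevelConstant₂ (S55.rl q.1) c ∧
      ∀ m' : S55.Md χ X, (∀ h : S55.Gl q.1, (S55.Md χ X).ρ (S55.rl q.1 h) m' = m') →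
        tr.toFun (S55.cupA3 S χ X (at3 S X q c) m') = φ m'

end defs

/-- **Package E4X** (S55-E4 lane: PT-LIN + Shapiro/Mackey): `S55.Top.Stmt_E4P` together with
`β¹mono` and local duality `(2, 0)` at every `q ∈ S`, for the SAME trace.
`K`-level content of the two local properties: for every place `w | q` of `K` the functional
`c ↦ tr_K (0, δ_w c)` on `Z²(K_w, 𝔽_p)` is nonzero with kernel `B²(K_w, 𝔽_p)`
(from `Top.Stmt_I1`: `dim H²(K_w) = 1`, `Top.Stmt_I4` (b) and `α³mono`). -/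
def Stmt_E4X : Prop :=
  ∀ (p : ℕ) [Fact p.Prime], p ≠ 2 → ∀ S : Finset Nat.Primes, pPrime p ∈ S →
    ∀ K : IntermediateField ℚ (AlgebraicClosure ℚ), S55.IsBaseField S p K →
      ¬ p ∣ K.fixingSubgroup.index →
      ∃ tr : S55.Trace S (cycloChar p),
        S55.AlphaTwoEpi tr (S55.permRep (ZMod p) K) ∧
        S55.AlphaThreeMono tr (S55.permRep (ZMod p) K) ∧
        S55.BetaOneEpi tr (S55.permRep (ZMod p) K) ∧
        S55.BetaTwoMono tr (S55.permRep (ZMod p) K) ∧
        BetaOneMono tr (S55.permRep (ZMod p) K) ∧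
        ∀ q : ↥S, LocTwoMono tr (S55.permRep (ZMod p) K) q ∧
          LocTwoEpi tr (S55.permRep (ZMod p) K) q

/-- **Package L2-ret**: local duality `(2, 0)` passes to retracts. -/
def Stmt_L2_ret : Prop :=
  ∀ (k : Type) [Field k] (S : Finset Nat.Primes) (χ : S55.GQ →* kˣ) (tr : S55.Trace S χ)
    (X Y : Rep.{0} k S55.GQ) (q : ↥S), S55.IsRetract X Y →
      (LocTwoMono tr Y q → LocTwoMono tr X q) ∧ (LocTwoEpi tr Y q → LocTwoEpi tr X q)

/-- **Package CHI** (representation theory of `(ℤ/p)ˣ`): for `S ∋ p` there is a base field `K`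
(`K = ℚ(μ_p)`) of degree prime to `p` such that `𝔽_p(1)` is a retract of `𝔽_p[G_ℚ/G_K]`
(`1 ↦ ∑_x χ(x)⁻¹ [x]`, `[x] ↦ -χ(x)`). -/
def Stmt_CHI : Prop :=
  ∀ (p : ℕ) [Fact p.Prime], p ≠ 2 → ∀ S : Finset Nat.Primes, pPrime p ∈ S →
    ∃ K : IntermediateField ℚ (AlgebraicClosure ℚ), S55.IsBaseField S p K ∧
      ¬ p ∣ K.fixingSubgroup.index ∧
      S55.IsRetract (S55.kχ (cycloChar p)) (S55.permRep (ZMod p) K)

/-- **Package UR2** (`H²(Ẑ, X) = 0`).  `X` a module of characteristic `p` of level `S₀`, `z` a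
level-`S₀` global 2-cocycle, `q ∉ S₀`: the restriction of `z` to `G_{ℚ_q}` is the coboundary of a
level-constant 1-cochain.
(`res_q z` factors through a finite cyclic group `D = ⟨Frob⟩` of order `n`; after inflation to
the cyclic group of order `np` (a cyclotomic extension unramified at `q`) it is the coboundary of
`g(φ^j) = ∑_{i<j} φ^i z(φ, φ^{j-1-i})`-type sums: the sum over a full period is killed by `p`.) -/
def Stmt_UR2 : Prop :=
  ∀ (p : ℕ) [Fact p.Prime] (k : Type) [Field k] [CharP k p] (S₀ : Finset Nat.Primes)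
    (X : Rep.{0} k S55.GQ), S55.Lev S₀ X →
    ∀ z : S55.GQ × S55.GQ → X, S55.IsZ2S S₀ X z → ∀ q : Nat.Primes, q ∉ S₀ →
      ∃ g : S55.Gl q → X, IsLevelConstant₁ (S55.rl q) g ∧
        S55.dOneL X q g = S55.resTwo q z

/-- **Package INV-A** (helper47: formal from `S55.Stmt_E4` + CHI + Minkowski): for every `S ∋ p`
there is a trace with `α³mono` for `𝔽_p(1)` and local injectivity at every `q ∈ S`. -/
def Stmt_INV_A : Prop :=
  ∀ (p : ℕ) [Fact p.Prime], p ≠ 2 → ∀ S : Finset Nat.Primes, pPrime p ∈ S →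
    ∃ tr : S55.Trace S (cycloChar p),
      S55.AlphaThreeMono tr (S55.kχ (cycloChar p)) ∧
      ∀ q : ↥S, LocTwoMono tr (S55.kχ (cycloChar p)) q

/-- **Package INV-B** (helper47): `H²(ℚ_p, 𝔽_p(1)) ≠ 0`: there is a level-constant local
2-cocycle at `p` which is not the coboundary of a level-constant cochain. -/
def Stmt_INV_B : Prop :=
  ∀ (p : ℕ) [Fact p.Prime], p ≠ 2 →
    ∃ c : S55.Gl (pPrime p) × S55.Gl (pPrime p) → S55.kχ (cycloChar p),
      S55.dTwoL (S55.kχ (cycloChar p)) (pPrime p) c = 0 ∧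
      IsLevelConstant₂ (S55.rl (pPrime p)) c ∧
      ¬ ∃ g : S55.Gl (pPrime p) → S55.kχ (cycloChar p),
        IsLevelConstant₁ (S55.rl (pPrime p)) g ∧
          S55.dOneL (S55.kχ (cycloChar p)) (pPrime p) g = c

end Fermat.Agent.S56.GWC

end
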