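/-
S56 / GW-CORE / INV (helper64), part 1: local duality `(2, 0)` passes to retracts
(`stmt_L2_ret`), and the formal properties of `inv^S_q(c) = tr_S (0, δ_q c)`.
-/
import Fermat.Agent.S56.GWC.Defs_INV
import Fermat.Agent.S56.GWC.H64_B1M

set_option autoImplicit false

open CategoryTheory Module groupCohomology ExtCitation

noncomputable section

namespace Fermat.Agent.S56.GWC.H64

open Fermat.Agent.S55 Fermat.Agent.S56.GWC

variable {k : Type} [Field k] {S : Finset Nat.Primes} {χ : GQ →* kˣ}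

/-! ### `at3` -/

lemma at3_snd_self (X : Rep.{0} k GQ) (q : ↥S) (c : Gl q.1 × Gl q.1 → X) :
    (at3 S X q c).2 q = c := by
  simp [at3]

lemma at3_snd_ne (X : Rep.{0} k GQ) {q q' : ↥S} (h : q' ≠ q) (c : Gl q.1 × Gl q.1 → X) :
    (at3 S X q c).2 q' = 0 := by
  simp [at3, Pi.single_eq_of_ne h]

lemma mapC3_at3 {A B : Rep.{0} k GQ} (u : A ⟶ B) (q : ↥S) (c : Gl q.1 × Gl q.1 → A) :
    mapC3 u.hom (at3 S A q c) = at3 S B q (fun t => u.hom (c t)) := by
  refine Prod.ext (funext fun t => ?_) (funext fun q' => funext fun t => ?_)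
  · simp [mapC3, at3]
  · by_cases h : q' = q
    · subst h
      simp [mapC3, at3]
    · simp [mapC3, at3, Pi.single_eq_of_ne h]

/-! ### Retracts -/

theorem locTwoMono_of_retract {M N : Rep.{0} k GQ} (i : M ⟶ N) (r : N ⟶ M)
    (hri : ∀ m : M, r.hom (i.hom m) = m) (tr : Trace S χ) (q : ↥S)
    (hN : LocTwoMono tr N q) : LocTwoMono tr M q := by
  intro c hc hl hpair
  have hc' : dTwoL N q.1 (fun t => i.hom (c t)) = 0 := by
    rw [dTwoL_comp, hc]
    funext t
    simp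
  obtain ⟨g, hg, hdg⟩ := hN (fun t => i.hom (c t)) hc' (levL₂_comp q.1 hl _) (by
    intro n' hn'
    rw [← mapC3_at3, cupA3_mapC3]
    refine hpair _ fun h => ?_
    rw [← dMap_rho, hn' h])
  refine ⟨fun h => r.hom (g h), levL₁_comp q.1 hg _, ?_⟩
  rw [dOneL_comp, hdg]
  funext t
  exact hri _

theorem locTwoEpi_of_retract {M N : Rep.{0} k GQ} (i : M ⟶ N) (r : N ⟶ M)
    (hri : ∀ m : M, r.hom (i.hom m) = m) (tr : Trace S χ) (q : ↥S)
    (hN : LocTwoEpi tr N q) : LocTwoEpi tr M q := by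
  intro φ
  obtain ⟨c, hc, hl, hpair⟩ := hN (φ.comp (dMap χ i))
  refine ⟨fun t => r.hom (c t), ?_, levL₂_comp q.1 hl _, fun m' hm' => ?_⟩
  · rw [dTwoL_comp, hc]
    funext t
    simp
  · rw [← mapC3_at3, cupA3_mapC3, hpair _ (fun h => by rw [← dMap_rho, hm' h])]
    show φ (dMap χ i (dMap χ r m')) = φ m'
    rw [H48.dMap_retract χ i r hri]

/-- **L2-ret**. -/
theorem stmt_L2_ret : Stmt_L2_ret := by
  intro k _ S χ tr X Y q hret
  obtain ⟨i, r, hri⟩ := hret
  exact ⟨locTwoMono_of_retract i r hri tr q, locTwoEpi_of_retract i r hri tr q⟩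

end Fermat.Agent.S56.GWC.H64

end
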