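/-
S56 / GW-CORE / INV (helper64), part 2: the formal properties of
`inv^S_q(c) = tr_S (0, δ_q c)` for the module `k(χ)`.
-/
import Fermat.Agent.S56.GWC.H64_INV1

set_option autoImplicit false

open CategoryTheory Module groupCohomology ExtCitation

noncomputable section

namespace Fermat.Agent.S56.GWC.H64

open Fermat.Agent.S55 Fermat.Agent.S56.GWC

variable {k : Type} [Field k] {S : Finset Nat.Primes} {χ : GQ →* kˣ}

/-! ### The invariant element of `k(χ)'` -/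

/-- The canonical invariant element of `k(χ)' = Hom(k(χ), k)(χ)`: the identity. -/
def m0 (χ : GQ →* kˣ) : Md χ (kχ χ) := (LinearMap.id : k →ₗ[k] k)

lemma ev_m0 (x : kχ χ) : ev χ (kχ χ) x (m0 χ) = (show k from x) := rfl

lemma m0_rho (g : GQ) : (Md χ (kχ χ)).ρ g (m0 χ) = m0 χ := by
  apply Md_ext
  intro x
  rw [Md_rho_apply, ev_m0, ev_m0]
  show (χ g : k) * ((χ g⁻¹ : k) * (show k from x)) = (show k from x)
  rw [← mul_assoc, ← Units.val_mul, ← map_mul, mul_inv_cancel, map_one, Units.val_one, one_mul]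

lemma Md_kχ_eq (m' : Md χ (kχ χ)) : m' = (ev χ (kχ χ) (1 : k) m') • m0 χ := by
  apply Md_ext
  intro x
  rw [ev_smul_right, ev_m0]
  have h : (show Module.Dual k k from m') (show k from x) =
      (show k from x) * (show Module.Dual k k from m') 1 := by
    have := (show Module.Dual k k from m').map_smul (show k from x) 1
    simpa using this
  show (show Module.Dual k k from m') (show k from x) = _
  rw [h, mul_comm]
  rfl

lemma cupA3_m0 (x : C3c S (kχ χ)) : cupA3 S χ (kχ χ) x (m0 χ) = x := by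
  refine Prod.ext (funext fun t => ?_) (funext fun q => funext fun t => ?_)
  · show ev χ (kχ χ) (x.1 t) ((Md χ (kχ χ)).ρ (t.1 * t.2.1 * t.2.2) (m0 χ)) = x.1 t
    rw [m0_rho, ev_m0]
  · show ev χ (kχ χ) (x.2 q t) ((Md χ (kχ χ)).ρ (rl q.1 (t.1 * t.2)) (m0 χ)) = x.2 q t
    rw [m0_rho, ev_m0]

lemma cupA3_smul_right (X : Rep.{0} k GQ) (x : C3c S X) (a : k) (m' : Md χ X) :
    cupA3 S χ X x (a • m') = a • cupA3 S χ X x m' := by
  refine Prod.ext (funext fun t => ?_) (funext fun q => funext fun t => ?_)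
  · show ev χ X (x.1 t) ((Md χ X).ρ (t.1 * t.2.1 * t.2.2) (a • m')) =
      a * ev χ X (x.1 t) ((Md χ X).ρ (t.1 * t.2.1 * t.2.2) m')
    rw [map_smul, ev_smul_right]
  · show ev χ X (x.2 q t) ((Md χ X).ρ (rl q.1 (t.1 * t.2)) (a • m')) =
      a * ev χ X (x.2 q t) ((Md χ X).ρ (rl q.1 (t.1 * t.2)) m')
    rw [map_smul, ev_smul_right]

/-! ### The local invariants of a trace -/

/-- `c ↦ (0, δ_q c)` as a linear map. -/
def at3ₗ (S : Finset Nat.Primes) (X : Rep.{0} k GQ) (q : ↥S) :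
    (Gl q.1 × Gl q.1 → X) →ₗ[k] C3c S X where
  toFun := at3 S X q
  map_add' c c' := by
    refine Prod.ext (by simp [at3]) ?_
    show (Pi.single q (c + c') : ∀ q' : ↥S, Gl q'.1 × Gl q'.1 → X) =
      (Pi.single q c : ∀ q' : ↥S, Gl q'.1 × Gl q'.1 → X) + Pi.single q c'
    exact Pi.single_add (f := fun q' : ↥S => Gl q'.1 × Gl q'.1 → X) q c c'
  map_smul' a c := by
    refine Prod.ext (by simp [at3]) ?_
    show (Pi.single q (a • c) : ∀ q' : ↥S, Gl q'.1 × Gl q'.1 → X) =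
      a • (Pi.single q c : ∀ q' : ↥S, Gl q'.1 × Gl q'.1 → X)
    exact Pi.single_smul (f := fun q' : ↥S => Gl q'.1 × Gl q'.1 → X) q a c

/-- The local invariant at `q ∈ S` defined by a trace: `inv^S_q(c) = tr (0, δ_q c)`. -/
def invS (tr : Trace S χ) (q : ↥S) : (Gl q.1 × Gl q.1 → kχ χ) →ₗ[k] k :=
  tr.toFun.comp (at3ₗ S (kχ χ) q)

lemma invS_apply (tr : Trace S χ) (q : ↥S) (c : Gl q.1 × Gl q.1 → kχ χ) :
    invS tr q c = tr.toFun (at3 S (kχ χ) q c) := rfl

/-- `(0, δ_q (d g))` is a cone coboundary. -/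
lemma at3_dOneL (X : Rep.{0} k GQ) (q : ↥S) (g : Gl q.1 → X) :
    at3 S X q (dOneL X q.1 g) = dCone2 S X ((0, (Pi.single q (-g) : ∀ q' : ↥S, Gl q'.1 → X)) : C2c S X) := by
  refine Prod.ext ?_ (funext fun q' => ?_)
  · show (0 : GQ × GQ × GQ → X) = dTwo X 0
    funext t
    simp [dTwo]
  · show (Pi.single q (dOneL X q.1 g) : ∀ q' : ↥S, Gl q'.1 × Gl q'.1 → X) q' =
      resTwo q'.1 (0 : GQ × GQ → X) - dOneL X q'.1 ((Pi.single q (-g) : ∀ q' : ↥S, Gl q'.1 → X) q')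
    by_cases h : q' = q
    · subst h
      rw [Pi.single_eq_same, Pi.single_eq_same]
      funext t
      simp [resTwo, dOneL]
      abel
    · rw [Pi.single_eq_of_ne h, Pi.single_eq_of_ne h]
      funext t
      simp [resTwo, dOneL]

/-- **(1)** `inv^S_q` kills the coboundaries of level-constant cochains. -/
theorem invS_dOneL (tr : Trace S χ) (q : ↥S) {g : Gl q.1 → kχ χ}
    (hg : IsLevelConstant₁ (rl q.1) g) : invS tr q (dOneL (kχ χ) q.1 g) = 0 := by
  rw [invS_apply, at3_dOneL]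
  refine tr.zero_of_isB3c _ (isB3c_dCone2 (isLevelConstantS₂_const S _) fun q' => ?_)
  show IsLevelConstant₁ (rl q'.1) ((Pi.single q (-g) : ∀ q' : ↥S, Gl q'.1 → kχ χ) q')
  by_cases h : q' = q
  · subst h
    rw [Pi.single_eq_same]
    exact levL₁_neg q'.1 hg
  · rw [Pi.single_eq_of_ne h]
    exact isLevelConstant₁_const (rl q'.1) _

/-- `∑_q (0, δ_q (res_q z)) = d_cone (z, 0)`. -/
lemma sum_at3_resTwo (X : Rep.{0} k GQ) {z : GQ × GQ → X} (hz : dTwo X z = 0) :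
    ∑ q : ↥S, at3 S X q (resTwo q.1 z) = dCone2 S X ((z, 0) : C2c S X) := by
  refine Prod.ext ?_ ?_
  · rw [Prod.fst_sum]
    show ∑ q : ↥S, (0 : GQ × GQ × GQ → X) = dTwo X z
    rw [hz, Finset.sum_const_zero]
  · rw [Prod.snd_sum]
    funext q'
    rw [Finset.sum_apply]
    have h1 : ∀ q : ↥S, q ∈ Finset.univ → q ≠ q' → (at3 S X q (resTwo q.1 z)).2 q' = 0 :=
      fun q _ hq => at3_snd_ne X (Ne.symm hq) _
    rw [Finset.sum_eq_single q' h1 (fun h => absurd (Finset.mem_univ q') h), at3_snd_self]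
    show resTwo q'.1 z = resTwo q'.1 z - dOneL X q'.1 (fun _ => 0)
    funext t
    simp [dOneL]

/-- **(3)** the reciprocity law for `inv^S`. -/
theorem invS_reciprocity (tr : Trace S χ) {z : GQ × GQ → kχ χ} (hz : IsZ2S S (kχ χ) z) :
    ∑ q : ↥S, invS tr q (resTwo q.1 z) = 0 := by
  simp only [invS_apply]
  rw [← map_sum, sum_at3_resTwo (kχ χ) hz.1]
  exact tr.zero_of_isB3c _ (isB3c_dCone2 hz.2 fun q' => isLevelConstant₁_const (rl q'.1) _)

/-- **(2)** injectivity of `inv^S_q` on `H²(ℚ_q, k(χ))`, from `LocTwoMono`. -/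
theorem invS_injective (tr : Trace S χ) (q : ↥S) (h2 : LocTwoMono tr (kχ χ) q)
    {c : Gl q.1 × Gl q.1 → kχ χ} (hc : dTwoL (kχ χ) q.1 c = 0)
    (hl : IsLevelConstant₂ (rl q.1) c) (h0 : invS tr q c = 0) :
    ∃ g : Gl q.1 → kχ χ, IsLevelConstant₁ (rl q.1) g ∧ dOneL (kχ χ) q.1 g = c := by
  refine h2 c hc hl fun m' _ => ?_
  rw [Md_kχ_eq m', cupA3_smul_right, cupA3_m0, map_smul, ← invS_apply, h0, smul_zero]

/-- Surjectivity of `inv^S_q`, from `LocTwoEpi`. -/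
theorem invS_surjective (tr : Trace S χ) (q : ↥S) (h2 : LocTwoEpi tr (kχ χ) q) :
    ∃ c : Gl q.1 × Gl q.1 → kχ χ, dTwoL (kχ χ) q.1 c = 0 ∧ IsLevelConstant₂ (rl q.1) c ∧
      invS tr q c = 1 := by
  let φ : Md χ (kχ χ) →ₗ[k] k :=
    { toFun := fun m' => ev χ (kχ χ) (1 : k) m'
      map_add' := fun _ _ => rfl
      map_smul' := fun _ _ => rfl }
  obtain ⟨c, hc, hl, h⟩ := h2 φ
  refine ⟨c, hc, hl, ?_⟩
  have h1 := h (m0 χ) (fun h => m0_rho _)
  rw [cupA3_m0] at h1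
  rw [invS_apply, h1]
  rfl

/-- A cone 3-cocycle of `k(χ)` of trace zero is a cone coboundary, from `α³mono`. -/
theorem isB3c_of_tr_eq_zero (tr : Trace S χ) (h3 : AlphaThreeMono tr (kχ χ))
    {x : C3c S (kχ χ)} (hx : IsZ3c S (kχ χ) x) (h0 : tr.toFun x = 0) : IsB3c S (kχ χ) x := by
  refine h3 x hx fun m' _ => ?_
  rw [Md_kχ_eq m', cupA3_smul_right, cupA3_m0, map_smul, h0, smul_zero]

end Fermat.Agent.S56.GWC.H64

end
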