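/-
S56 / GW-CORE / INV (helper64), part 3: the generic assembly.
For a character `χ` and a prime `p₀`: if every finite set `S ∋ p₀` carries a trace with
`α³mono(k(χ))` and local injectivity at every `q ∈ S`, if `H²(ℚ_{p₀}, k(χ)) ≠ 0` and if
unramified restrictions of global 2-cocycles are coboundaries, then there is ONE family of local
invariants with the reciprocity law for all `S ∋ p₀`.
-/
import Fermat.Agent.S56.GWC.H64_INV2

set_option autoImplicit false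

open CategoryTheory Module groupCohomology ExtCitation

noncomputable section

namespace Fermat.Agent.S56.GWC.H64

open Fermat.Agent.S55 Fermat.Agent.S56.GWC

variable {k : Type} [Field k] (χ : GQ →* kˣ)

/-- Level-constant local 2-cocycles of `k(χ)` at `q`. -/
def IsZ2L (q : Nat.Primes) (c : Gl q × Gl q → kχ χ) : Prop :=
  dTwoL (kχ χ) q c = 0 ∧ IsLevelConstant₂ (rl q) c

/-- Coboundaries of level-constant local 1-cochains of `k(χ)` at `q`. -/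
def IsB2L (q : Nat.Primes) (c : Gl q × Gl q → kχ χ) : Prop :=
  ∃ g : Gl q → kχ χ, IsLevelConstant₁ (rl q) g ∧ dOneL (kχ χ) q g = c

/-- A family of local invariants for `k(χ)` with the reciprocity law for all `S ∋ p₀`. -/
def InvFamily (p₀ : Nat.Primes) : Prop :=
  ∃ inv : ∀ q : Nat.Primes, (Gl q × Gl q → kχ χ) →ₗ[k] k,
    (∀ q c, IsB2L χ q c → inv q c = 0) ∧
    (∀ q c, IsZ2L χ q c → inv q c = 0 → IsB2L χ q c) ∧
    ∀ Sg : Finset Nat.Primes, p₀ ∈ Sg → ∀ z : GQ × GQ → kχ χ, IsZ2S Sg (kχ χ) z →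
      ∑ q ∈ Sg, inv q (resTwo q z) = 0

variable {χ}

lemma IsZ2L.sub {q : Nat.Primes} {c c' : Gl q × Gl q → kχ χ} (h : IsZ2L χ q c)
    (h' : IsZ2L χ q c') : IsZ2L χ q (c - c') :=
  ⟨by rw [dTwoL_sub, h.1, h'.1, sub_zero], levL₂_sub q h.2 h'.2⟩

lemma IsZ2L.smul {q : Nat.Primes} {c : Gl q × Gl q → kχ χ} (h : IsZ2L χ q c) (a : k) :
    IsZ2L χ q (a • c) := by
  refine ⟨?_, levL₂_comp q h.2 (a • ·)⟩
  have h1 := h.1
  funext x
  have hx := congrFun h1 x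
  simp only [dTwoL, Pi.smul_apply, map_smul, Pi.zero_apply] at hx ⊢
  rw [← smul_sub, ← smul_add, ← smul_sub, hx, smul_zero]

lemma isZ2L_zero (q : Nat.Primes) : IsZ2L χ q 0 :=
  ⟨by funext x; simp [dTwoL], isLevelConstant₂_const (rl q) _⟩

lemma isZ2L_resTwo {S : Finset Nat.Primes} {z : GQ × GQ → kχ χ} (hz : IsZ2S S (kχ χ) z)
    (q : Nat.Primes) : IsZ2L χ q (resTwo q z) := by
  refine ⟨?_, levL₂_resTwo q hz.2⟩
  rw [← resThree_dTwo, hz.1]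
  rfl

/-! ### Sums over a subset -/

section sums

variable {S₀ Sg : Finset Nat.Primes}

/-- Reciprocity for the big set, restricted to the small set, for cocycles of small level. -/
theorem sum_small_eq_zero (hsub : S₀ ⊆ Sg) (tr : Trace Sg χ)
    (hUR : ∀ z : GQ × GQ → kχ χ, IsZ2S S₀ (kχ χ) z → ∀ q : Nat.Primes, q ∉ S₀ →
      IsB2L χ q (resTwo q z))
    {f : GQ × GQ → kχ χ} (hf : IsZ2S S₀ (kχ χ) f) :
    ∑ q' : ↥S₀, invS tr ⟨q'.1, hsub q'.2⟩ (resTwo q'.1 f) = 0 := by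
  classical
  let F : Nat.Primes → k := fun q =>
    if h : q ∈ Sg then invS tr ⟨q, h⟩ (resTwo q f) else 0
  have hfg : IsZ2S Sg (kχ χ) f := ⟨hf.1, hf.2.mono hsub⟩
  have h1 : ∑ q : ↥Sg, invS tr q (resTwo q.1 f) = ∑ q ∈ Sg, F q := by
    rw [← Finset.sum_attach Sg F, Finset.univ_eq_attach]
    refine Finset.sum_congr rfl fun q _ => ?_
    simp only [F, dif_pos q.2]
  have h2 : ∑ q' : ↥S₀, invS tr ⟨q'.1, hsub q'.2⟩ (resTwo q'.1 f) = ∑ q ∈ S₀, F q := by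
    rw [← Finset.sum_attach S₀ F, Finset.univ_eq_attach]
    refine Finset.sum_congr rfl fun q _ => ?_
    simp only [F, dif_pos (hsub q.2)]
  have h3 : ∑ q ∈ S₀, F q = ∑ q ∈ Sg, F q := by
    refine Finset.sum_subset hsub fun q hq hq0 => ?_
    simp only [F, dif_pos hq]
    obtain ⟨g, hg, hdg⟩ := hUR f hf q hq0
    rw [← hdg]
    exact invS_dOneL tr ⟨q, hq⟩ hg
  rw [h2, h3, ← h1]
  exact invS_reciprocity tr hfg

/-- **Uniqueness up to a scalar** (helper47's (3)): a family of local cocycles over `S₀` of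
total `tr₀`-invariant zero has total `tr`-invariant zero. -/
theorem sum_invS_eq_zero_of (hsub : S₀ ⊆ Sg) (tr₀ : Trace S₀ χ) (tr : Trace Sg χ)
    (h3 : AlphaThreeMono tr₀ (kχ χ))
    (hUR : ∀ z : GQ × GQ → kχ χ, IsZ2S S₀ (kχ χ) z → ∀ q : Nat.Primes, q ∉ S₀ →
      IsB2L χ q (resTwo q z))
    (c : ∀ q' : ↥S₀, Gl q'.1 × Gl q'.1 → kχ χ) (hc : ∀ q' : ↥S₀, IsZ2L χ q'.1 (c q'))
    (h0 : tr₀.toFun ((0, c) : C3c S₀ (kχ χ)) = 0) :
    ∑ q' : ↥S₀, invS tr ⟨q'.1, hsub q'.2⟩ (c q') = 0 := by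
  have hZ : IsZ3c S₀ (kχ χ) ((0, c) : C3c S₀ (kχ χ)) := by
    refine ⟨⟨?_, ⟨⊥, IntermediateField.isUnramifiedOutside_bot S₀, fun _ _ _ _ _ _ _ _ _ => rfl⟩⟩,
      fun q' => ⟨(hc q').2, ?_⟩⟩
    · funext t
      simp [dThree]
    · show resThree q'.1 (0 : GQ × GQ × GQ → kχ χ) = dTwoL (kχ χ) q'.1 (c q')
      rw [(hc q').1]
      rfl
  obtain ⟨f, g, hfl, hgl, hf0, hfg⟩ := isB3c_of_tr_eq_zero tr₀ h3 hZ h0
  have hf : IsZ2S S₀ (kχ χ) f := ⟨hf0.symm, hfl⟩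
  have hsum := sum_small_eq_zero hsub tr hUR hf
  rw [← hsum]
  refine Finset.sum_congr rfl fun q' _ => ?_
  have e : c q' = resTwo q'.1 f - dOneL (kχ χ) q'.1 (g q') := hfg q'
  rw [e, map_sub, invS_dOneL tr ⟨q'.1, hsub q'.2⟩ (hgl q'), sub_zero]

end sums

/-! ### The assembly -/

section main

variable {S₀ Sg : Finset Nat.Primes}

lemma isZ2L_single (a : ↥S₀) {v : Gl a.1 × Gl a.1 → kχ χ} (hv : IsZ2L χ a.1 v) (q' : ↥S₀) :
    IsZ2L χ q'.1 ((Pi.single a v : ∀ q' : ↥S₀, Gl q'.1 × Gl q'.1 → kχ χ) q') := by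
  by_cases h : q' = a
  · subst h
    rw [Pi.single_eq_same]
    exact hv
  · rw [Pi.single_eq_of_ne h]
    exact isZ2L_zero q'.1

lemma sum_invS_single (hsub : S₀ ⊆ Sg) (tr : Trace Sg χ) (a : ↥S₀)
    (v : Gl a.1 × Gl a.1 → kχ χ) :
    ∑ q' : ↥S₀, invS tr ⟨q'.1, hsub q'.2⟩
        ((Pi.single a v : ∀ q' : ↥S₀, Gl q'.1 × Gl q'.1 → kχ χ) q') =
      invS tr ⟨a.1, hsub a.2⟩ v := by
  rw [Finset.sum_eq_single a]
  · rw [Pi.single_eq_same]
  · intro q' _ hq'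
    rw [Pi.single_eq_of_ne hq', map_zero]
  · intro h
    exact absurd (Finset.mem_univ a) h

set_option maxHeartbeats 1600000 in
/-- **The generic assembly.** -/
theorem invFamily_of (p₀ : Nat.Primes)
    (hT : ∀ S : Finset Nat.Primes, p₀ ∈ S → ∃ tr : Trace S χ,
      AlphaThreeMono tr (kχ χ) ∧ ∀ q : ↥S, LocTwoMono tr (kχ χ) q)
    (hc : ∃ c0 : Gl p₀ × Gl p₀ → kχ χ, IsZ2L χ p₀ c0 ∧ ¬ IsB2L χ p₀ c0)
    (hUR : ∀ S₀ : Finset Nat.Primes, p₀ ∈ S₀ → ∀ z : GQ × GQ → kχ χ, IsZ2S S₀ (kχ χ) z →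
      ∀ q : Nat.Primes, q ∉ S₀ → IsB2L χ q (resTwo q z)) :
    InvFamily χ p₀ := by
  classical
  obtain ⟨c0, hc0Z, hc0B⟩ := hc
  choose T hT3 hT2 using hT
  have hlam : ∀ (S : Finset Nat.Primes) (h : p₀ ∈ S), invS (T S h) ⟨p₀, h⟩ c0 ≠ 0 :=
    fun S h h0 =>
      hc0B (invS_injective (T S h) ⟨p₀, h⟩ (hT2 S h ⟨p₀, h⟩) hc0Z.1 hc0Z.2 h0)
  let n : ∀ (S : Finset Nat.Primes) (h : p₀ ∈ S) (q : ↥S),
      (Gl q.1 × Gl q.1 → kχ χ) →ₗ[k] k :=
    fun S h q => (invS (T S h) ⟨p₀, h⟩ c0)⁻¹ • invS (T S h) q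
  have hn : ∀ (S : Finset Nat.Primes) (h : p₀ ∈ S) (q : ↥S) (c : Gl q.1 × Gl q.1 → kχ χ),
      n S h q c = (invS (T S h) ⟨p₀, h⟩ c0)⁻¹ * invS (T S h) q c := fun _ _ _ _ => rfl
  let Sq : Nat.Primes → Finset Nat.Primes := fun q => insert p₀ {q}
  have hp : ∀ q, p₀ ∈ Sq q := fun q => Finset.mem_insert_self _ _
  have hq : ∀ q, q ∈ Sq q := fun q => Finset.mem_insert_of_mem (Finset.mem_singleton_self q)
  refine ⟨fun q => n (Sq q) (hp q) ⟨q, hq q⟩, ?_, ?_, ?_⟩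
  · -- (1)
    rintro q c ⟨g, hg, rfl⟩
    show n (Sq q) (hp q) ⟨q, hq q⟩ (dOneL (kχ χ) q g) = 0
    rw [hn, invS_dOneL (T (Sq q) (hp q)) ⟨q, hq q⟩ hg, mul_zero]
  · -- (2)
    intro q c hcZ h0
    have h1 : invS (T (Sq q) (hp q)) ⟨q, hq q⟩ c = 0 := by
      have h2 : n (Sq q) (hp q) ⟨q, hq q⟩ c = 0 := h0
      rw [hn] at h2
      rcases mul_eq_zero.1 h2 with h | h
      · exact absurd (inv_eq_zero.1 h) (hlam _ _)
      · exact h
    exact invS_injective (T (Sq q) (hp q)) ⟨q, hq q⟩ (hT2 _ _ _) hcZ.1 hcZ.2 h1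
  · -- (3)
    intro Sg hpg z hz
    have claim : ∀ (q : Nat.Primes) (hqg : q ∈ Sg) (c : Gl q × Gl q → kχ χ), IsZ2L χ q c →
        n (Sq q) (hp q) ⟨q, hq q⟩ c = n Sg hpg ⟨q, hqg⟩ c := by
      intro q hqg c hcZ
      have hsub : Sq q ⊆ Sg := by
        intro x hx
        rcases Finset.mem_insert.1 hx with h | h
        · rw [h]; exact hpg
        · rw [Finset.mem_singleton.1 h]; exact hqg
      set tr₀ := T (Sq q) (hp q) with htr₀
      set tr := T Sg hpg with htr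
      set u : k := n (Sq q) (hp q) ⟨q, hq q⟩ c with hu
      have hu' : u * invS tr₀ ⟨p₀, hp q⟩ c0 = invS tr₀ ⟨q, hq q⟩ c := by
        rw [hu, hn, mul_comm, ← mul_assoc, mul_inv_cancel₀ (hlam _ _), one_mul]
      let a : ↥(Sq q) := ⟨p₀, hp q⟩
      let b : ↥(Sq q) := ⟨q, hq q⟩
      let cf : ∀ q' : ↥(Sq q), Gl q'.1 × Gl q'.1 → kχ χ :=
        (Pi.single a (u • c0) : ∀ q' : ↥(Sq q), Gl q'.1 × Gl q'.1 → kχ χ) -
          (Pi.single b c : ∀ q' : ↥(Sq q), Gl q'.1 × Gl q'.1 → kχ χ)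
      have hcf : ∀ q' : ↥(Sq q), IsZ2L χ q'.1 (cf q') := fun q' =>
        (isZ2L_single a (hc0Z.smul u) q').sub (isZ2L_single b hcZ q')
      have hx : ((0, cf) : C3c (Sq q) (kχ χ)) =
          at3 (Sq q) (kχ χ) a (u • c0) - at3 (Sq q) (kχ χ) b c := by
        refine Prod.ext ?_ rfl
        show (0 : GQ × GQ × GQ → kχ χ) = 0 - 0
        rw [sub_zero]
      have h0 : tr₀.toFun ((0, cf) : C3c (Sq q) (kχ χ)) = 0 := by
        rw [hx, map_sub, ← invS_apply, ← invS_apply, map_smul, smul_eq_mul, hu', sub_self]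
      have hsum := sum_invS_eq_zero_of hsub tr₀ tr (hT3 _ _) (hUR (Sq q) (hp q)) cf hcf h0
      have e : ∀ q' : ↥(Sq q), invS tr ⟨q'.1, hsub q'.2⟩ (cf q') =
          invS tr ⟨q'.1, hsub q'.2⟩
              ((Pi.single a (u • c0) : ∀ q' : ↥(Sq q), Gl q'.1 × Gl q'.1 → kχ χ) q') -
            invS tr ⟨q'.1, hsub q'.2⟩
              ((Pi.single b c : ∀ q' : ↥(Sq q), Gl q'.1 × Gl q'.1 → kχ χ) q') := fun q' =>
        map_sub _ _ _
      simp only [e] at hsum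
      rw [Finset.sum_sub_distrib, sum_invS_single hsub tr a, sum_invS_single hsub tr b,
        map_smul, smul_eq_mul, sub_eq_zero] at hsum
      -- `u * λ = inv^{Sg}_q c`
      have h1 : invS tr ⟨q, hqg⟩ c = u * invS tr ⟨p₀, hpg⟩ c0 := hsum.symm
      rw [hn Sg hpg ⟨q, hqg⟩ c, h1, mul_comm u, ← mul_assoc, inv_mul_cancel₀ (hlam _ _), one_mul]
    let F : Nat.Primes → k := fun q =>
      if h : q ∈ Sg then n Sg hpg ⟨q, h⟩ (resTwo q z) else 0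
    have h1 : ∑ q ∈ Sg, n (Sq q) (hp q) ⟨q, hq q⟩ (resTwo q z) = ∑ q ∈ Sg, F q := by
      refine Finset.sum_congr rfl fun q hqg => ?_
      simp only [F, dif_pos hqg]
      exact claim q hqg _ (isZ2L_resTwo hz q)
    have h2 : ∑ q : ↥Sg, n Sg hpg q (resTwo q.1 z) = ∑ q ∈ Sg, F q := by
      rw [← Finset.sum_attach Sg F, Finset.univ_eq_attach]
      refine Finset.sum_congr rfl fun q _ => ?_
      simp only [F, dif_pos q.2]
    show ∑ q ∈ Sg, n (Sq q) (hp q) ⟨q, hq q⟩ (resTwo q z) = 0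
    rw [h1, ← h2]
    simp only [hn]
    rw [← Finset.mul_sum, invS_reciprocity (T Sg hpg) hz, mul_zero]

end main

end Fermat.Agent.S56.GWC.H64

end
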