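/-
S56 / GW-CORE / INV (helper64), part 4: coordinates `𝔽_p → k`.
A family of local invariants for `𝔽_p(1)` (`InvFamily (cycloChar p) (pPrime p)`) gives
`Stmt_INV` for every finite field `k` of characteristic `p`.
-/
import Fermat.Agent.S56.GWC.H64_INV3

set_option autoImplicit false

open CategoryTheory Module groupCohomology ExtCitation

noncomputable section

namespace Fermat.Agent.S56.GWC.H64

open Fermat.Agent.S55 Fermat.Agent.S56 Fermat.Agent.S56.GWC

section coord

variable (p : ℕ) [Fact p.Prime] (k : Type) [Field k] [Finite k] [CharP k p]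

/-- The value of `cycloK` is the image of the value of `cycloChar`. -/
lemma cycloK_val (g : GQ) :
    ((cycloK p k g : kˣ) : k) = (ZMod.castHom (dvd_refl p) k) ((cycloChar p g : (ZMod p)ˣ) : ZMod p) :=
  rfl

variable {X : Type} (T : (X → ZMod p) →ₗ[ZMod p] ZMod p)

/-- Extension of scalars of a functional on `𝔽_p`-valued functions to `k`-valued functions,
as a function. -/
def extFun : (X → k) → k :=
  letI := ZMod.algebra k p
  fun z => ∑ i, T (fun x => (Module.finBasis (ZMod p) k).repr (z x) i) •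
    (Module.finBasis (ZMod p) k) i

/-- The characteristic property of `extFun`. -/
lemma extFun_spec (z : X → k) :
    letI := ZMod.algebra k p
    ∀ ψ : k →ₗ[ZMod p] ZMod p, ψ (extFun p k T z) = T (fun x => ψ (z x)) := by
  letI := ZMod.algebra k p
  intro ψ
  have h1 : (fun x => ψ (z x)) =
      ∑ i, ψ ((Module.finBasis (ZMod p) k) i) •
        (fun x => (Module.finBasis (ZMod p) k).repr (z x) i) := by
    funext x
    rw [Finset.sum_apply]
    conv_lhs => rw [← (Module.finBasis (ZMod p) k).sum_repr (z x)]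
    rw [map_sum]
    refine Finset.sum_congr rfl fun i _ => ?_
    rw [map_smul, Pi.smul_apply, smul_eq_mul, smul_eq_mul, mul_comm]
  rw [h1, map_sum, extFun, map_sum]
  refine Finset.sum_congr rfl fun i _ => ?_
  rw [map_smul, map_smul, smul_eq_mul, smul_eq_mul, mul_comm]

/-- Functionals separate the points of `k`. -/
lemma eq_zero_of_forall_dual (y : k)
    (h : letI := ZMod.algebra k p; ∀ ψ : k →ₗ[ZMod p] ZMod p, ψ y = 0) : y = 0 := by
  letI := ZMod.algebra k p
  exact (Module.forall_dual_apply_eq_zero_iff (ZMod p) y).1 h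

/-- Extension of scalars of a functional, as a `k`-linear map. -/
def extLin : (X → k) →ₗ[k] k where
  toFun := extFun p k T
  map_add' z z' := by
    letI := ZMod.algebra k p
    rw [← sub_eq_zero]
    refine eq_zero_of_forall_dual p k _ fun ψ => ?_
    rw [map_sub, map_add, extFun_spec, extFun_spec, extFun_spec, ← map_add, sub_eq_zero]
    congr 1
    funext x
    simp
  map_smul' a z := by
    letI := ZMod.algebra k p
    rw [← sub_eq_zero]
    refine eq_zero_of_forall_dual p k _ fun ψ => ?_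
    let ψa : k →ₗ[ZMod p] ZMod p := ψ.comp (LinearMap.mulLeft (ZMod p) a)
    have h1 : ψ (a • extFun p k T z) = ψa (extFun p k T z) := rfl
    rw [map_sub, RingHom.id_apply, h1, extFun_spec, extFun_spec, sub_eq_zero]
    rfl

lemma extLin_spec (z : X → k) :
    letI := ZMod.algebra k p
    ∀ ψ : k →ₗ[ZMod p] ZMod p, ψ (extLin p k T z) = T (fun x => ψ (z x)) :=
  extFun_spec p k T z

end coord

/-! ### Level-constancy of finite sums -/

lemma levL₁_finset_sum {q : Nat.Primes} {ι : Type} (s : Finset ι) {Y : Type} [AddCommMonoid Y]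
    (G : ι → Gl q → Y) (hG : ∀ i ∈ s, IsLevelConstant₁ (rl q) (G i)) :
    IsLevelConstant₁ (rl q) (fun x => ∑ i ∈ s, G i x) := by
  classical
  induction s using Finset.induction_on with
  | empty =>
    simp only [Finset.sum_empty]
    exact isLevelConstant₁_const (rl q) (0 : Y)
  | insert a s ha ih =>
    have h1 : (fun x => ∑ i ∈ insert a s, G i x) = G a + fun x => ∑ i ∈ s, G i x := by
      funext x
      rw [Finset.sum_insert ha]
      rfl
    rw [h1]
    exact (hG a (Finset.mem_insert_self a s)).add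
      (ih fun i hi => hG i (Finset.mem_insert_of_mem hi))

/-! ### `Stmt_INV` from a family of invariants for `𝔽_p(1)` -/

section final

variable (p : ℕ) [Fact p.Prime] (k : Type) [Field k] [Finite k] [CharP k p]

/-- `ψ (χ_k(g) x) = χ(g) ψ(x)` for an `𝔽_p`-linear functional `ψ`. -/
lemma dual_cycloK_mul (ψ : letI := ZMod.algebra k p; k →ₗ[ZMod p] ZMod p) (g : GQ) (x : k) :
    letI := ZMod.algebra k p
    ψ (((cycloK p k g : kˣ) : k) * x) = ((cycloChar p g : (ZMod p)ˣ) : ZMod p) * ψ x := by
  letI := ZMod.algebra k p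
  have h : ((cycloK p k g : kˣ) : k) * x = ((cycloChar p g : (ZMod p)ˣ) : ZMod p) • x := by
    rw [Algebra.smul_def]
    rfl
  rw [h, map_smul, smul_eq_mul]

end final

set_option maxHeartbeats 1600000 in
/-- **INV from the `𝔽_p`-family.** -/
theorem stmt_INV_of
    (hA : ∀ (p : ℕ) [Fact p.Prime], p ≠ 2 → InvFamily (cycloChar p) (pPrime p)) :
    Stmt_INV := by
  intro p _ hp2 k _ _ _
  letI := ZMod.algebra k p
  obtain ⟨inv₀, h1, h2, h3⟩ := hA p hp2
  let inv₁ : ∀ q : Nat.Primes, (Gq q × Gq q → ZMod p) →ₗ[ZMod p] ZMod p := fun q => inv₀ q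
  refine ⟨fun q => extLin p k (inv₁ q), ?_, ?_, ?_⟩
  · -- (1)
    rintro q z ⟨f, hf, hz⟩
    refine eq_zero_of_forall_dual p k _ fun ψ => ?_
    rw [extLin_spec]
    refine h1 q _ ⟨fun x => ψ (f x), levL₁_comp q hf _, ?_⟩
    funext t
    show ((cycloChar p (rl q t.1) : (ZMod p)ˣ) : ZMod p) * ψ (f t.2) - ψ (f (t.1 * t.2))
      + ψ (f t.1) = ψ (z t)
    have e : z t = z (t.1, t.2) := rfl
    rw [e, hz t.1 t.2, map_add, map_sub, dual_cycloK_mul]
  · -- (2)
    intro q _ z hz h0
    obtain ⟨hzc, hzl⟩ := hz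
    have key : ∀ ψ : k →ₗ[ZMod p] ZMod p,
        IsB2L (cycloChar p) q (fun t => ψ (z t)) := by
      intro ψ
      refine h2 q _ ⟨?_, levL₂_comp q hzl _⟩ ?_
      · funext t
        show ((cycloChar p (rl q t.1) : (ZMod p)ˣ) : ZMod p) * ψ (z (t.2.1, t.2.2))
          - ψ (z (t.1 * t.2.1, t.2.2)) + ψ (z (t.1, t.2.1 * t.2.2)) - ψ (z (t.1, t.2.1)) = 0
        rw [← dual_cycloK_mul, ← map_sub, ← map_add, ← map_sub, hzc t.1 t.2.1 t.2.2, map_zero]
      · have := extLin_spec p k (inv₁ q) z ψ
        rw [h0, map_zero] at this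
        exact this.symm
    let b := Module.finBasis (ZMod p) k
    choose g hgl hgd using fun i => key (b.coord i)
    refine ⟨fun x => ∑ i, g i x • b i, ?_, fun s t => ?_⟩
    · exact levL₁_finset_sum Finset.univ (fun i x => g i x • b i)
        (fun i _ => levL₁_comp q (hgl i) (· • b i))
    · have e1 : z (s, t) = ∑ i, b.coord i (z (s, t)) • b i := (b.sum_repr (z (s, t))).symm
      have e2 : ∀ i, b.coord i (z (s, t)) =
          ((cycloChar p (rl q s) : (ZMod p)ˣ) : ZMod p) * g i t - g i (s * t) + g i s := by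
        intro i
        have := congrFun (hgd i) (s, t)
        exact this.symm
      rw [e1, Finset.mul_sum, ← Finset.sum_sub_distrib, ← Finset.sum_add_distrib]
      refine Finset.sum_congr rfl fun i _ => ?_
      rw [e2 i, add_smul, sub_smul, mul_smul]
      congr 2
  · -- (3)
    intro Sg hpg z hz
    obtain ⟨hzc, hzl⟩ := hz
    refine eq_zero_of_forall_dual p k _ fun ψ => ?_
    rw [map_sum]
    have e : ∀ q ∈ Sg, ψ (extLin p k (inv₁ q) (fun t : Gq q × Gq q => z (rq q t.1, rq q t.2))) =
        inv₀ q (resTwo q (fun t => (ψ (z t) : kχ (cycloChar p)))) := fun q _ =>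
      extLin_spec p k (inv₁ q) _ ψ
    rw [Finset.sum_congr rfl e]
    refine h3 Sg hpg _ ⟨?_, levS₂_comp hzl _⟩
    funext t
    show ((cycloChar p t.1 : (ZMod p)ˣ) : ZMod p) * ψ (z (t.2.1, t.2.2))
      - ψ (z (t.1 * t.2.1, t.2.2)) + ψ (z (t.1, t.2.1 * t.2.2)) - ψ (z (t.1, t.2.1)) = 0
    rw [← dual_cycloK_mul, ← map_sub, ← map_add, ← map_sub, hzc t.1 t.2.1 t.2.2, map_zero]

end Fermat.Agent.S56.GWC.H64

end
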