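/-
S56 / GW-CORE / INV (helper64), part 5: the wiring
`Stmt_INV_A → Stmt_INV_B → Stmt_UR2 → Stmt_INV`.
-/
import Fermat.Agent.S56.GWC.H64_INV4
import Fermat.Agent.S55.H48_Lev

set_option autoImplicit false

open CategoryTheory Module groupCohomology ExtCitation

noncomputable section

namespace Fermat.Agent.S56.GWC.H64

open Fermat.Agent.S55 Fermat.Agent.S56 Fermat.Agent.S56.GWC

/-- `k(χ)` has level `S` if `χ` has. -/
lemma lev_kχ {k : Type} [Field k] {S : Finset Nat.Primes} {χ : GQ →* kˣ} (hχ : LevChar S χ) :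
    Lev S (kχ χ) := by
  obtain ⟨F, hF, h⟩ := hχ
  refine ⟨F, hF, fun s hs m => ?_⟩
  rw [kχ_rho, h s hs]
  simp

/-- **INV** from the three packages. -/
theorem stmt_INV_of_packages (hA : Stmt_INV_A) (hB : Stmt_INV_B) (hU : Stmt_UR2) : Stmt_INV := by
  refine stmt_INV_of fun p _ hp2 => ?_
  refine invFamily_of (pPrime p) (hA p hp2) ?_ ?_
  · obtain ⟨c, hc, hl, hn⟩ := hB p hp2
    exact ⟨c, ⟨hc, hl⟩, hn⟩
  · intro S₀ hpS z hz q hq
    exact hU p (ZMod p) S₀ (kχ (cycloChar p)) (lev_kχ (H48.stmt_levChar p S₀ hpS)) z hz q hq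

end Fermat.Agent.S56.GWC.H64

end
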