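/-
S56 / GW-CORE (helper64): state of the PT2 and INV lanes after the landed packages
(CONE1 helper1, DD + DUALCOUNT + CHI + UR2 helper46).
* `stmt_PT2_of_base : Stmt_B1M_base → Stmt_H3S_base → Stmt_RS → Stmt_PT2`;
* `stmt_INV_of_AB   : Stmt_INV_A → Stmt_INV_B → Stmt_INV`.
-/
import Fermat.Agent.S56.GWC.H64_Glue
import Fermat.Agent.S56.GWC.H64_INV5
import Fermat.Agent.S56.GWC.H01_Cone1
import Fermat.Agent.S56.GWC.H46_DD
import Fermat.Agent.S56.GWC.H46_DualCount
import Fermat.Agent.S56.GWC.H46_UR2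

set_option autoImplicit false

namespace Fermat.Agent.S56.GWC.H64

open Fermat.Agent.S56 Fermat.Agent.S56.GWC

/-- **PT2** from the base case (E4 lane) and restriction of scalars. -/
theorem stmt_PT2_of_base (hb : Stmt_B1M_base) (h3 : Stmt_H3S_base) (hRS : Stmt_RS) :
    Stmt_PT2 :=
  stmt_PT2_of hb h3 H01.stmt_CONE1 H46.stmt_DUALCOUNT H46.stmt_DD hRS

/-- **PT2e** (counting form over `𝔽_p`) from the base case. -/
theorem stmt_PT2e_of_base (hb : Stmt_B1M_base) (h3 : Stmt_H3S_base) : Stmt_PT2e :=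
  stmt_PT2e_of (stmt_B1_of hb h3) H01.stmt_CONE1 H46.stmt_DUALCOUNT H46.stmt_DD

/-- **INV** from helper47's two packages. -/
theorem stmt_INV_of_AB (hA : Stmt_INV_A) (hB : Stmt_INV_B) : Stmt_INV :=
  stmt_INV_of_packages hA hB H46.stmt_UR2

end Fermat.Agent.S56.GWC.H64
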