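import Fermat.Agent.S56.GWC.H9_RSDual
import Fermat.Agent.S56.GW.H92_FinGlobFinal
import Fermat.Agent.S55.H48_Lev

/-!
# S56 / GW-CORE / PT2, package RS (helper9): `Stmt_RS : Stmt_PT2e → Stmt_PT2`

Restriction of scalars `k → 𝔽_p`.  `M` over `k` is also an `𝔽_p[G_ℚ]`-module `M₀`
(`H9.M0`), and `(M')₀ ≅ (M₀)'` by `φ ↦ Tr_{k/𝔽_p} ∘ φ` (`H9.trDual`).  All the groups in
`Stmt_PT2` have the same cardinality for `M` and for `M₀` (`H9_RSTransfer.lean`), and
`#V = (#k)^{dim_k V}`.
-/

set_option autoImplicit false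
set_option linter.unusedSectionVars false
set_option linter.style.haveILetI false

noncomputable section

namespace Fermat.Agent.S56.GWC.H9

open CategoryTheory groupCohomology ExtCitation Module
open Fermat.Agent

lemma two_ne_zero_of_charP (p : ℕ) [Fact p.Prime] (hp2 : p ≠ 2) (k : Type) [Field k]
    [CharP k p] : (2 : k) ≠ 0 := by
  intro h
  have h1 : ((2 : ℕ) : k) = 0 := by exact_mod_cast h
  have h2 := (CharP.cast_eq_zero_iff k p 2).1 h1
  exact hp2 ((Nat.prime_dvd_prime_iff_eq Fact.out Nat.prime_two).1 h2)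

lemma card_eq_pow (k : Type) [Field k] [Finite k] (V : Type*) [AddCommGroup V] [Module k V]
    [Finite V] : Nat.card V = Nat.card k ^ finrank k V :=
  haveI : Module.Finite k V := Module.Finite.of_finite
  Module.natCard_eq_pow_finrank

/-- **Package RS.** -/
theorem stmt_RS : Stmt_RS := by
  intro hPT2e p _ hp2 k _ _ _ M _ hsm Sg hpS hur
  haveI := finiteDimensional_M0 p M
  haveI hMfin : Finite M := finite_M M
  have hHyp : S55.Hyp p Sg (M0 p M) :=
    { hp2 := hp2
      hpS := hpS
      fin := inferInstance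
      hsm := fun m => hsm m
      hMur := fun q hq A hA g hg => by
        apply LinearMap.ext
        intro m
        exact congrArg (fun f : Module.End k M => f m) (hur q hq A hA g hg) }
  have hLev := S55.H48.stmt_lev p Sg (M0 p M) hHyp
  obtain ⟨hfin, hineq⟩ := hPT2e p hp2 Sg (M0 p M) hpS hLev
  have h2k : (2 : k) ≠ 0 := two_ne_zero_of_charP p hp2 k
  have h2p : (2 : ZMod p) ≠ 0 := two_ne_zero_of_charP p hp2 (ZMod p)
  have T1 : Nat.card (sha₁ Sg M) = Nat.card (sha₁ Sg (M0 p M)) :=
    card_sha1_eq Sg (idEquiv p M) (idEquiv_equivariant p M) h2k h2p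
  have T2 : ∀ q : Nat.Primes, Nat.card (S56.locRep M q).ρ.invariants =
      Nat.card (S56.locRep (M0 p M) q).ρ.invariants :=
    fun q => card_loc_invariants_eq (idEquiv p M) (idEquiv_equivariant p M) q
  have T3 : Nat.card M.ρ.invariants = Nat.card (M0 p M).ρ.invariants :=
    card_invariants_eq (idEquiv p M) (idEquiv_equivariant p M)
  have T4 : Nat.card (continuousH2S Sg (S56.tateDual p M)) =
      Nat.card (continuousH2S Sg (S55.Md (cycloChar p) (M0 p M))) :=
    card_H2S_eq Sg (trDual p M) (trDual_equivariant p M)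
  -- finiteness
  haveI hH2 : Finite (continuousH2S Sg (S56.tateDual p M)) := by
    apply Nat.finite_of_card_ne_zero
    rw [T4]
    haveI := hfin
    exact Nat.card_pos.ne'
  haveI : Module.Finite k (continuousH1S Sg M) := H92.stmt_fin_glob k M hsm Sg
  haveI : Finite (continuousH1S Sg M) := Module.finite_of_finite k
  haveI hsha : Finite (sha₁ Sg M) :=
    Finite.of_injective (fun x : sha₁ Sg M => (⟨x.1, x.2.1⟩ : continuousH1S Sg M))
      (fun x y h => Subtype.ext (congrArg (fun z : continuousH1S Sg M => (z : H1 M)) h))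
  refine ⟨Module.Finite.of_finite, ?_⟩
  rw [← T1, ← T4, ← T3] at hineq
  simp only [← T2] at hineq
  rw [card_eq_pow k (sha₁ Sg M), card_eq_pow k (continuousH2S Sg (S56.tateDual p M)),
    card_eq_pow k M.ρ.invariants] at hineq
  have hloc : ∏ q ∈ Sg, Nat.card (S56.locRep M q).ρ.invariants =
      Nat.card k ^ ∑ q ∈ Sg, finrank k (S56.locRep M q).ρ.invariants := by
    rw [← Finset.prod_pow_eq_pow_sum]
    refine Finset.prod_congr rfl fun q _ => ?_
    haveI : Finite (S56.locRep M q) := hMfin
    exact card_eq_pow k _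
  rw [hloc, ← pow_add, ← pow_add] at hineq
  exact (Nat.pow_le_pow_iff_right (Finite.one_lt_card (α := k))).1 hineq

end Fermat.Agent.S56.GWC.H9
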