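/-
S56 / GW-CORE (helper64): the packages `Stmt_PT2` and `Stmt_INV` from the inputs of the S55-E4
lane (`S55/Top/Defs.lean`, `DefsP.lean`, `Defs_PT.lean`), with nothing else open:

* `stmt_PT2_of_top    : TopQ0 → TopK → TopK_cone → I2 → Stmt_PT2`
* `stmt_PT2_of_inputs : TopQ0 → I1 → I2 → I3 → I4 → G1K → Stmt_PT2`
* `stmt_INV_of_E4P    : Stmt_E4P → Stmt_INV`
* `stmt_INV_of_top    : TopQ0 → TopK → Stmt_INV`
* `stmt_INV_of_inputs : TopQ0 → I1 → I2 → I3 → I4 → G1K → Stmt_INV`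

(The packages INV-A, INV-B of helper47 only use the base field `ℚ(μ_p)` of `Stmt_CHI`, whose
degree is prime to `p`; so the index form `Stmt_E4P` of E4 suffices.)
-/
import Fermat.Agent.S56.GWC.H64_Final
import Fermat.Agent.S56.GWC.H64_BaseH3
import Fermat.Agent.S56.GWC.H64_BaseB1
import Fermat.Agent.S56.GWC.H64_B0
import Fermat.Agent.S56.GWC.H9_RS
import Fermat.Agent.S56.GWC.H47_L2
import Fermat.Agent.S56.GWC.H46_Chi

set_option autoImplicit false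

open CategoryTheory groupCohomology ExtCitation Module

namespace Fermat.Agent.S56.GWC.H64

open Fermat.Agent.S55 Fermat.Agent.S56 Fermat.Agent.S56.GWC

/-! ### PT2 -/

/-- **PT2** from the top-level inputs of E4. -/
theorem stmt_PT2_of_top (hQ : Top.Stmt_TopQ0) (hT : Top.Stmt_TopK)
    (hC : Top.H48.Stmt_TopK_cone) (h2 : Top.Stmt_I2) : Stmt_PT2 :=
  stmt_PT2_of_base (stmt_B1M_base_of hQ hT hC) (stmt_H3S_base_of h2) H9.stmt_RS

/-- **PT2** from the leaves of E4. -/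
theorem stmt_PT2_of_inputs (hQ : Top.Stmt_TopQ0) (h1 : Top.Stmt_I1) (h2 : Top.Stmt_I2)
    (h3 : Top.Stmt_I3) (h4 : Top.Stmt_I4) (hG : Top.Stmt_G1K) : Stmt_PT2 :=
  stmt_PT2_of_top hQ (Top.H48.stmt_TopK_of h1 h2 h3 h4 hG)
    (Top.H48.stmt_TopK_cone_of h1 h2 h3 h4 hG) h2

/-! ### INV -/

/-- **INV-A** from the index form of E4. -/
theorem stmt_INV_A_of_E4P (hE4 : Top.Stmt_E4P) : Stmt_INV_A := by
  intro p _ hp2 S hpS
  obtain ⟨K, hK, hidx, hret⟩ := H46.stmt_CHI p hp2 S hpS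
  obtain ⟨tr, hA2, hA3, hB1, hB2⟩ := hE4 p hp2 S hpS K hK hidx
  obtain ⟨_, hA3', hB1', _⟩ := S55.H48.stmt_E2 (ZMod p) S (cycloChar p) tr _ _ hret
  exact ⟨tr, hA3' hA3, fun q => H47.locTwoMono_of tr (hA3' hA3) (hB1' hB1) q⟩

/-- **INV-B** from the index form of E4. -/
theorem stmt_INV_B_of_E4P (hE4 : Top.Stmt_E4P) : Stmt_INV_B := by
  intro p _ hp2
  obtain ⟨S, hS⟩ : ∃ S : Finset Nat.Primes, S = {pPrime p} := ⟨_, rfl⟩
  have hpS : pPrime p ∈ S := by rw [hS]; exact Finset.mem_singleton_self _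
  obtain ⟨K, hK, hidx, hret⟩ := H46.stmt_CHI p hp2 S hpS
  obtain ⟨tr, hA2, hA3, hB1, hB2⟩ := hE4 p hp2 S hpS K hK hidx
  obtain ⟨hA2', hA3', hB1', _⟩ := S55.H48.stmt_E2 (ZMod p) S (cycloChar p) tr _ _ hret
  obtain ⟨b, hadd, hlev, σ₀, hσ₀⟩ := stmt_B0 p hp2
  have hlev' : IsLevelConstantS₁ S b := by rw [hS]; exact hlev
  obtain ⟨q, c, hc, hlc, hne⟩ := H47.exists_c0 tr (hA2' hA2) (hB1' hB1) b hadd hlev' σ₀ hσ₀
  obtain ⟨q1, hq1⟩ := q
  have hq : q1 = pPrime p := by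
    rw [hS] at hq1
    exact Finset.mem_singleton.1 hq1
  subst hq
  refine ⟨c, hc, hlc, ?_⟩
  rintro ⟨g, hg, rfl⟩
  exact hne (H47.tr_at3_dOneL tr ⟨pPrime p, hq1⟩ g hg)

/-- **INV** from the index form of E4. -/
theorem stmt_INV_of_E4P (hE4 : Top.Stmt_E4P) : Stmt_INV :=
  stmt_INV_of_AB (stmt_INV_A_of_E4P hE4) (stmt_INV_B_of_E4P hE4)

/-- **INV** from the top-level inputs of E4. -/
theorem stmt_INV_of_top (hQ : Top.Stmt_TopQ0) (hT : Top.Stmt_TopK) : Stmt_INV :=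
  stmt_INV_of_E4P (Top.stmt_E4P_of_top hQ hT)

/-- **INV** from the leaves of E4. -/
theorem stmt_INV_of_inputs (hQ : Top.Stmt_TopQ0) (h1 : Top.Stmt_I1) (h2 : Top.Stmt_I2)
    (h3 : Top.Stmt_I3) (h4 : Top.Stmt_I4) (hG : Top.Stmt_G1K) : Stmt_INV :=
  stmt_INV_of_top hQ (Top.H48.stmt_TopK_of h1 h2 h3 h4 hG)

end Fermat.Agent.S56.GWC.H64
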