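import Fermat.Agent.S56.GWC.H9_RSTransfer

/-!
# S56 / GW-CORE / PT2, package RS (helper9), part 2: restriction of scalars `k → 𝔽_p`

For `M` over a finite field `k` of characteristic `p`:
* `M0 p M` : the same group with the same action of `G_ℚ`, as a representation over `𝔽_p`;
* `trDual p M : (M')₀ ≃+ (M₀)'`, `φ ↦ Tr_{k/𝔽_p} ∘ φ`, additive and `G_ℚ`-equivariant.
-/

set_option autoImplicit false
set_option linter.unusedSectionVars false
set_option linter.style.haveILetI false

noncomputable section

namespace Fermat.Agent.S56.GWC.H9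

open CategoryTheory groupCohomology ExtCitation Module
open Fermat.Agent

section trace

variable (p : ℕ) [Fact p.Prime] (k : Type) [Field k] [CharP k p]

/-- The trace `k → 𝔽_p`. -/
def trK : k →+ ZMod p :=
  letI : Algebra (ZMod p) k := ZMod.algebra k p
  (Algebra.trace (ZMod p) k).toAddMonoidHom

lemma trK_cast_mul (c : ZMod p) (x : k) :
    trK p k (ZMod.castHom (dvd_refl p) k c * x) = c * trK p k x := by
  letI : Algebra (ZMod p) k := ZMod.algebra k p
  have h1 : ZMod.castHom (dvd_refl p) k c * x = c • x := (Algebra.smul_def c x).symm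
  rw [h1]
  show Algebra.trace (ZMod p) k (c • x) = c * Algebra.trace (ZMod p) k x
  rw [map_smul, smul_eq_mul]

lemma trK_nondeg [Finite k] (x : k) (h : ∀ c : k, trK p k (c * x) = 0) : x = 0 := by
  letI : Algebra (ZMod p) k := ZMod.algebra k p
  haveI : FiniteDimensional (ZMod p) k := Module.Finite.of_finite
  have hnd := traceForm_nondegenerate (ZMod p) k
  refine hnd.1 x fun c => ?_
  rw [Algebra.traceForm_apply, mul_comm]
  exact h c

end trace

section scalars

variable (p : ℕ) [Fact p.Prime] {k : Type} [Field k] [CharP k p] (M : Rep.{0} k S55.GQ)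

/-- The `𝔽_p`-module structure on `M`. -/
@[reducible] def fpModule : Module (ZMod p) M :=
  Module.compHom M (ZMod.castHom (dvd_refl p) k)

/-- The action of `G_ℚ` on `M`, as a representation over `𝔽_p`. -/
def rho0 : @Representation (ZMod p) S55.GQ M _ _ _ (fpModule p M) :=
  letI := fpModule p M
  { toFun := fun g => (M.ρ g).toAddMonoidHom.toZModLinearMap p
    map_one' := by
      apply LinearMap.ext
      intro m
      show M.ρ 1 m = m
      rw [map_one]
      rfl
    map_mul' := fun g h => by
      apply LinearMap.ext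
      intro m
      show M.ρ (g * h) m = M.ρ g (M.ρ h m)
      rw [map_mul]
      rfl }

/-- `M` as a representation over `𝔽_p`. -/
def M0 : Rep.{0} (ZMod p) S55.GQ :=
  letI := fpModule p M
  Rep.of (rho0 p M)

/-- The identity `M ≃+ M₀`. -/
def idEquiv : M ≃+ M0 p M := AddEquiv.refl M

lemma idEquiv_apply (m : M) : (idEquiv p M m : M) = m := rfl

lemma idEquiv_equivariant (g : S55.GQ) (a : M) :
    idEquiv p M (M.ρ g a) = (M0 p M).ρ g (idEquiv p M a) := rfl

lemma M0_ρ_apply (g : S55.GQ) (a : M) : ((M0 p M).ρ g a : M) = M.ρ g a := rfl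

/-- `φ ↦ Tr_{k/𝔽_p} ∘ φ`. -/
def trDualFun (φ : Module.Dual k M) : Module.Dual (ZMod p) (M0 p M) :=
  AddMonoidHom.toZModLinearMap p
    (((trK p k).comp φ.toAddMonoidHom : M →+ ZMod p) : (M0 p M) →+ ZMod p)

lemma trDualFun_apply (φ : Module.Dual k M) (m : M) :
    trDualFun p M φ (idEquiv p M m) = trK p k (φ m) := rfl

/-- `φ ↦ Tr_{k/𝔽_p} ∘ φ`, as an additive map. -/
def trDualHom : Module.Dual k M →+ Module.Dual (ZMod p) (M0 p M) where
  toFun := trDualFun p M
  map_zero' := by
    apply LinearMap.ext
    intro m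
    obtain ⟨m, rfl⟩ := (idEquiv p M).surjective m
    rw [trDualFun_apply, LinearMap.zero_apply, map_zero]
    rfl
  map_add' := fun φ ψ => by
    apply LinearMap.ext
    intro m
    obtain ⟨m, rfl⟩ := (idEquiv p M).surjective m
    rw [LinearMap.add_apply, trDualFun_apply, trDualFun_apply, trDualFun_apply,
      LinearMap.add_apply, map_add]

lemma trDualHom_apply (φ : Module.Dual k M) (m : M) :
    trDualHom p M φ (idEquiv p M m) = trK p k (φ m) := rfl

lemma trDualHom_injective [Finite k] : Function.Injective (trDualHom p M) := by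
  rw [injective_iff_map_eq_zero]
  intro φ hφ
  apply LinearMap.ext
  intro m
  rw [LinearMap.zero_apply]
  refine trK_nondeg p k (φ m) fun c => ?_
  have h1 : c * φ m = φ (c • m) := by rw [map_smul, smul_eq_mul]
  rw [h1, ← trDualHom_apply, hφ]
  rfl

lemma card_dual_k [Finite k] [FiniteDimensional k M] :
    Nat.card (Module.Dual k M) = Nat.card M := by
  rw [Module.natCard_eq_pow_finrank (K := k) (V := Module.Dual k M), Subspace.dual_finrank_eq,
    ← Module.natCard_eq_pow_finrank]

lemma finite_M [Finite k] [FiniteDimensional k M] : Finite M := Module.finite_of_finite k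

lemma finite_M0 [Finite k] [FiniteDimensional k M] : Finite (M0 p M) := finite_M M

lemma finiteDimensional_M0 [Finite k] [FiniteDimensional k M] :
    FiniteDimensional (ZMod p) (M0 p M) :=
  haveI := finite_M0 p M
  Module.Finite.of_finite

lemma card_dual_fp [Finite k] [FiniteDimensional k M] :
    Nat.card (Module.Dual (ZMod p) (M0 p M)) = Nat.card M := by
  haveI := finiteDimensional_M0 p M
  rw [Module.natCard_eq_pow_finrank (K := ZMod p) (V := Module.Dual (ZMod p) (M0 p M)),
    Subspace.dual_finrank_eq, ← Module.natCard_eq_pow_finrank]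
  rfl

lemma trDualHom_bijective [Finite k] [FiniteDimensional k M] :
    Function.Bijective (trDualHom p M) := by
  haveI := finiteDimensional_M0 p M
  haveI : Finite (Module.Dual (ZMod p) (M0 p M)) := Module.finite_of_finite (ZMod p)
  refine (trDualHom_injective p M).bijective_of_nat_card_le ?_
  rw [card_dual_fp p M, card_dual_k M]

/-- `τ : (M')₀ ≃+ (M₀)'`, `φ ↦ Tr_{k/𝔽_p} ∘ φ`. -/
def trDual [Finite k] [FiniteDimensional k M] :
    S56.tateDual p M ≃+ S55.Md (cycloChar p) (M0 p M) :=
  AddEquiv.ofBijective (trDualHom p M) (trDualHom_bijective p M)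

lemma trDual_apply [Finite k] [FiniteDimensional k M] (φ : S56.tateDual p M) (m : M) :
    (trDual p M φ : Module.Dual (ZMod p) (M0 p M)) (idEquiv p M m) =
      trK p k ((φ : Module.Dual k M) m) := rfl

lemma trDual_equivariant [Finite k] [FiniteDimensional k M] (g : S55.GQ)
    (φ : S56.tateDual p M) :
    trDual p M ((S56.tateDual p M).ρ g φ) =
      (S55.Md (cycloChar p) (M0 p M)).ρ g (trDual p M φ) := by
  apply LinearMap.ext
  intro m
  obtain ⟨m, rfl⟩ := (idEquiv p M).surjective m
  rw [trDual_apply]
  have h1 : (((S56.tateDual p M).ρ g φ : S56.tateDual p M) : Module.Dual k M) m =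
      ZMod.castHom (dvd_refl p) k (cycloChar p g : ZMod p) *
        (φ : Module.Dual k M) (M.ρ g⁻¹ m) := rfl
  have h2 : ((S55.Md (cycloChar p) (M0 p M)).ρ g (trDual p M φ) :
      Module.Dual (ZMod p) (M0 p M)) (idEquiv p M m) =
      (cycloChar p g : ZMod p) *
        (trDual p M φ : Module.Dual (ZMod p) (M0 p M)) (idEquiv p M (M.ρ g⁻¹ m)) := rfl
  rw [h1, h2, trDual_apply, trK_cast_mul]

end scalars

end Fermat.Agent.S56.GWC.H9
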