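import Mathlib

/-!
# Cluster T / S56, package GW-CORE, INV plan: package UR2, algebraic part (helper46)

`G` a group, `U' ≤ U` subgroups (`U'` normal), `φ ∈ G` generating `G` modulo `U'`, of exact order
`N'` modulo `U'`; `X` a module on which `U` acts trivially and which is killed by `p`; `z` a
2-cocycle of `G` with values in `X` which is constant on `U`-cosets.  If `φ ^ n ∈ U` and
`p * n ∣ N'`, then `z` is the coboundary of a 1-cochain which is constant on `U'`-cosets: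
`g (φ ^ j u) = z (1, φ) - ∑_{i < j} z (φ ^ i, φ)`.
-/

set_option autoImplicit false

namespace Fermat.Agent.S56.GWC.H46

section CyclicCocycle

variable {k : Type*} [CommRing k] {G : Type*} [Group G] {X : Type*} [AddCommGroup X] [Module k X]

/-- The potential `j ↦ z (1, φ) - ∑_{i < j} z (φ ^ i, φ)`. -/
def cycPot (z : G × G → X) (φ : G) : ℕ → X
  | 0 => z (1, φ)
  | j + 1 => cycPot z φ j - z (φ ^ j, φ)

theorem cycPot_zero (z : G × G → X) (φ : G) : cycPot z φ 0 = z (1, φ) := rfl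

theorem cycPot_succ (z : G × G → X) (φ : G) (j : ℕ) :
    cycPot z φ (j + 1) = cycPot z φ j - z (φ ^ j, φ) := rfl

theorem cycPot_eq_sum (z : G × G → X) (φ : G) (j : ℕ) :
    cycPot z φ j = z (1, φ) - ∑ i ∈ Finset.range j, z (φ ^ i, φ) := by
  induction j with
  | zero => rw [cycPot_zero, Finset.sum_range_zero, sub_zero]
  | succ j ih => rw [cycPot_succ, ih, Finset.sum_range_succ]; abel

/-- The key identity: the potential has coboundary `z` on the powers of `φ`. -/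
theorem cycPot_key (ρ : Representation k G X) (z : G × G → X)
    (hcoc : ∀ a b c : G, ρ a (z (b, c)) - z (a * b, c) + z (a, b * c) - z (a, b) = 0)
    (φ : G) (a b : ℕ) :
    ρ (φ ^ a) (cycPot z φ b) - cycPot z φ (a + b) + cycPot z φ a = z (φ ^ a, φ ^ b) := by
  induction b with
  | zero =>
    have h := hcoc (φ ^ a) 1 φ
    rw [mul_one, one_mul] at h
    rw [cycPot_zero, add_zero, pow_zero, sub_add_cancel]
    have h2 : ρ (φ ^ a) (z (1, φ)) - z (φ ^ a, 1) = 0 := by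
      rw [← h]; abel
    exact sub_eq_zero.mp h2
  | succ b ih =>
    have h := hcoc (φ ^ a) (φ ^ b) φ
    rw [← pow_add, ← pow_succ] at h
    rw [cycPot_succ, ← add_assoc, cycPot_succ, map_sub]
    have h3 : z (φ ^ a, φ ^ (b + 1)) =
        z (φ ^ a, φ ^ b) + z (φ ^ (a + b), φ) - ρ (φ ^ a) (z (φ ^ b, φ)) := by
      have : z (φ ^ a, φ ^ (b + 1)) - (z (φ ^ a, φ ^ b) + z (φ ^ (a + b), φ)
          - ρ (φ ^ a) (z (φ ^ b, φ))) = 0 := by
        rw [← h]; abel
      exact sub_eq_zero.mp this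
    rw [h3, ← ih]
    abel

/-- Sums of a periodic function over a multiple of the period. -/
theorem sum_range_mul_periodic (w : ℕ → X) (n : ℕ) (hw : ∀ i, w (i + n) = w i) (j s : ℕ) :
    ∑ i ∈ Finset.range (n * s), w (j + i) = s • ∑ i ∈ Finset.range n, w (j + i) := by
  induction s with
  | zero => simp
  | succ s ih =>
    rw [Nat.mul_succ, Finset.sum_range_add, ih, succ_nsmul]
    congr 1
    apply Finset.sum_congr rfl
    intro i _
    have hper : ∀ (t : ℕ) (i : ℕ), w (i + n * t) = w i := by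
      intro t
      induction t with
      | zero => intro i; simp
      | succ t iht =>
        intro i
        rw [Nat.mul_succ, ← add_assoc, hw, iht]
    rw [show j + (n * s + i) = (j + i) + n * s by ring, hper]

/-- Periodicity of the potential. -/
theorem cycPot_periodic (z : G × G → X) (φ : G) (n p N' : ℕ)
    (hw : ∀ i, z (φ ^ (i + n), φ) = z (φ ^ i, φ)) (hp : ∀ x : X, p • x = 0)
    (hdiv : p * n ∣ N') (j : ℕ) : cycPot z φ (j + N') = cycPot z φ j := by
  obtain ⟨t, rfl⟩ := hdiv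
  rw [cycPot_eq_sum, cycPot_eq_sum, Finset.sum_range_add]
  have h1 : ∑ i ∈ Finset.range (p * n * t), z (φ ^ (j + i), φ) = 0 := by
    have h2 := sum_range_mul_periodic (fun i => z (φ ^ i, φ)) n hw j (p * t)
    have h3 : p * n * t = n * (p * t) := by ring
    rw [h3, h2, mul_smul, hp]
  rw [h1, add_zero]

theorem cycPot_periodic_mul (z : G × G → X) (φ : G) (n p N' : ℕ)
    (hw : ∀ i, z (φ ^ (i + n), φ) = z (φ ^ i, φ)) (hp : ∀ x : X, p • x = 0)
    (hdiv : p * n ∣ N') (j t : ℕ) : cycPot z φ (j + N' * t) = cycPot z φ j := by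
  induction t with
  | zero => simp
  | succ t ih => rw [Nat.mul_succ, ← add_assoc, cycPot_periodic z φ n p N' hw hp hdiv, ih]

/-- **UR2, algebraic core.** -/
theorem exists_cochain_of_cyclic
    (ρ : Representation k G X) (z : G × G → X)
    (hcoc : ∀ a b c : G, ρ a (z (b, c)) - z (a * b, c) + z (a, b * c) - z (a, b) = 0)
    (U U' : Subgroup G) [hnorm : U'.Normal] (hUU : U' ≤ U)
    (hρ : ∀ s ∈ U, ρ s = 1)
    (hz : ∀ g g' s s', s ∈ U → s' ∈ U → z (g * s, g' * s') = z (g, g'))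
    (φ : G) (hgen : ∀ h : G, ∃ j : ℕ, (φ ^ j)⁻¹ * h ∈ U')
    (N' : ℕ) (hN' : ∀ j : ℕ, φ ^ j ∈ U' → N' ∣ j)
    (p n : ℕ) (hp : ∀ x : X, p • x = 0) (hn : φ ^ n ∈ U) (hdiv : p * n ∣ N') :
    ∃ g : G → X, (∀ h s, s ∈ U' → g (h * s) = g h) ∧
      ∀ x y : G, ρ x (g y) - g (x * y) + g x = z (x, y) := by
  have hw : ∀ i, z (φ ^ (i + n), φ) = z (φ ^ i, φ) := by
    intro i
    have := hz (φ ^ i) φ (φ ^ n) 1 hn (one_mem U)
    rw [mul_one, ← pow_add] at this
    exact this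
  -- independence of the exponent
  have hwd : ∀ (h : G) (j j' : ℕ), (φ ^ j)⁻¹ * h ∈ U' → (φ ^ j')⁻¹ * h ∈ U' →
      cycPot z φ j = cycPot z φ j' := by
    have haux : ∀ (h : G) (j j' : ℕ), j ≤ j' → (φ ^ j)⁻¹ * h ∈ U' → (φ ^ j')⁻¹ * h ∈ U' →
        cycPot z φ j = cycPot z φ j' := by
      intro h j j' hjj h1 h2
      obtain ⟨d, rfl⟩ := Nat.exists_eq_add_of_le hjj
      have h3 : φ ^ d ∈ U' := by
        have h4 : φ ^ d = ((φ ^ j)⁻¹ * h) * ((φ ^ (j + d))⁻¹ * h)⁻¹ := by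
          rw [pow_add]; group
        rw [h4]
        exact U'.mul_mem h1 (U'.inv_mem h2)
      obtain ⟨t, rfl⟩ := hN' d h3
      exact (cycPot_periodic_mul z φ n p N' hw hp hdiv j t).symm
    intro h j j' h1 h2
    rcases le_total j j' with hjj | hjj
    · exact haux h j j' hjj h1 h2
    · exact (haux h j' j hjj h2 h1).symm
  choose e he using hgen
  have hg : ∀ (h : G) (j : ℕ), (φ ^ j)⁻¹ * h ∈ U' → cycPot z φ (e h) = cycPot z φ j :=
    fun h j hj => hwd h (e h) j (he h) hj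
  refine ⟨fun h => cycPot z φ (e h), ?_, ?_⟩
  · intro h s hs
    show cycPot z φ (e (h * s)) = cycPot z φ (e h)
    have h1 : (φ ^ e (h * s))⁻¹ * h ∈ U' := by
      have h2 : (φ ^ e (h * s))⁻¹ * h = ((φ ^ e (h * s))⁻¹ * (h * s)) * s⁻¹ := by group
      rw [h2]
      exact U'.mul_mem (he (h * s)) (U'.inv_mem hs)
    exact (hg h _ h1).symm
  · intro x y
    show ρ x (cycPot z φ (e y)) - cycPot z φ (e (x * y)) + cycPot z φ (e x) = z (x, y)
    obtain ⟨a, ha⟩ : ∃ a, a = e x := ⟨_, rfl⟩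
    obtain ⟨b, hb⟩ : ∃ b, b = e y := ⟨_, rfl⟩
    have hea : (φ ^ a)⁻¹ * x ∈ U' := ha ▸ he x
    have heb : (φ ^ b)⁻¹ * y ∈ U' := hb ▸ he y
    rw [← ha, ← hb]
    have h1 : ρ x = ρ (φ ^ a) := by
      have : ρ (φ ^ a * ((φ ^ a)⁻¹ * x)) = ρ (φ ^ a) := by
        rw [map_mul, hρ _ (hUU hea), mul_one]
      rwa [mul_inv_cancel_left] at this
    have h2 : cycPot z φ (e (x * y)) = cycPot z φ (a + b) := by
      apply hg
      have h3 : (φ ^ (a + b))⁻¹ * (x * y) =
          ((φ ^ b)⁻¹ * ((φ ^ a)⁻¹ * x) * (φ ^ b)) * ((φ ^ b)⁻¹ * y) := by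
        rw [pow_add]; group
      rw [h3]
      refine U'.mul_mem ?_ heb
      have := hnorm.conj_mem _ hea (φ ^ b)⁻¹
      rw [inv_inv] at this
      exact this
    have h4 : z (x, y) = z (φ ^ a, φ ^ b) := by
      have := hz (φ ^ a) (φ ^ b) _ _ (hUU hea) (hUU heb)
      rwa [mul_inv_cancel_left, mul_inv_cancel_left] at this
    rw [h1, h2, h4]
    exact cycPot_key ρ z hcoc φ a b

end CyclicCocycle

/-- `q ^ M - 1 ∣ q ^ N - 1` forces `M ∣ N`. -/
theorem dvd_of_pow_sub_one_dvd (q M N : ℕ) (hq : 2 ≤ q) (hM : 0 < M)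
    (h : q ^ M - 1 ∣ q ^ N - 1) : M ∣ N := by
  have hq0 : 0 < q := by omega
  have hpos : ∀ j, 1 ≤ q ^ j := fun j => Nat.one_le_pow _ _ hq0
  -- `q ^ (M * a) ≡ 1`
  have h1 : ∀ a : ℕ, q ^ M - 1 ∣ q ^ (M * a) - 1 := by
    intro a
    rw [pow_mul]
    simpa using Nat.sub_dvd_pow_sub_pow (q ^ M) 1 a
  have hdecomp : q ^ N - 1 = q ^ (N % M) * (q ^ (M * (N / M)) - 1) + (q ^ (N % M) - 1) := by
    have h2 : q ^ N = q ^ (N % M) * q ^ (M * (N / M)) := by
      rw [← pow_add, Nat.mod_add_div]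
    have h3 := hpos (N % M)
    have h4 := hpos (M * (N / M))
    rw [h2, Nat.mul_sub, mul_one]
    have h5 : q ^ (N % M) ≤ q ^ (N % M) * q ^ (M * (N / M)) := Nat.le_mul_of_pos_right _ h4
    omega
  have h6 : q ^ M - 1 ∣ q ^ (N % M) - 1 := by
    rw [hdecomp] at h
    exact (Nat.dvd_add_right (Dvd.dvd.mul_left (h1 (N / M)) _)).mp h
  have hlt : q ^ (N % M) < q ^ M := Nat.pow_lt_pow_right hq (Nat.mod_lt N hM)
  have h7 : q ^ (N % M) - 1 = 0 := by
    by_contra hne
    have := Nat.le_of_dvd (Nat.pos_of_ne_zero hne) h6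
    have := hpos (N % M)
    omega
  have h8 : q ^ (N % M) = 1 := by
    have := hpos (N % M)
    omega
  have h9 : N % M = 0 := by
    by_contra hne
    have : 1 < q ^ (N % M) := Nat.one_lt_pow hne hq
    omega
  exact Nat.dvd_of_mod_eq_zero h9

end Fermat.Agent.S56.GWC.H46
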