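import Fermat.Agent.S56.GWC.Defs_INV
import Fermat.Agent.S56.GWC.H46_UR2Alg
import Fermat.Agent.S55.H48_NC
import Fermat.Agent.S55.H13_E3
import Fermat.Agent.S56.H9_LocTW
import Fermat.Agent.Lib.LocalGlobalDense
import Fermat.Agent.R.H89_FrobCyc

/-!
# Cluster T / S56, package GW-CORE, INV plan: package UR2 (helper46)

`stmt_UR2 : Stmt_UR2` (`H²(Ẑ, X) = 0` for `X` of characteristic `p`).

`N` a finite normal extension of `ℚ`, unramified at `q`, through which `X` and `z` factor,
`n = [N : ℚ]`, `m = q ^ (p n) - 1`, `F' = N(μ_m)` (normal, unramified at `q`).  The image of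
`G_{ℚ_q}` in `Gal(F'/ℚ)` is cyclic, generated by some `φ` (helper9's `exists_frob_generator` and
`exists_mem_inertiaSubgroupIn_eqOn`), the order `N'` of `φ` is a multiple of `p n` (a Frobenius
element acts on `μ_m` as `ζ ↦ ζ ^ q`, of order `p n`), and `φ ^ n` acts trivially on `N`.  The
algebraic core (`exists_cochain_of_cyclic`) then gives the cochain.
-/

set_option autoImplicit false
set_option linter.style.haveILetI false
set_option linter.unusedSectionVars false
set_option linter.unusedVariables false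

noncomputable section

namespace Fermat.Agent.S56.GWC.H46

open CategoryTheory groupCohomology ExtCitation Module NumberField

local notation "Qbar" => AlgebraicClosure ℚ

/-- The field generated by the `m`-th roots of unity. -/
def rootsField (m : ℕ) : IntermediateField ℚ Qbar :=
  IntermediateField.adjoin ℚ {z | z ^ m = 1}

theorem rootsField_finiteDimensional (m : ℕ) (hm : 0 < m) :
    FiniteDimensional ℚ (rootsField m) := by
  have hfin : {z : Qbar | z ^ m = 1}.Finite := by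
    have := (Polynomial.nthRootsFinset m (1 : Qbar)).finite_toSet
    refine this.subset ?_
    intro z hz
    simp only [Finset.mem_coe, Polynomial.mem_nthRootsFinset hm]
    exact hz
  haveI : Finite {z : Qbar | z ^ m = 1} := hfin.to_subtype
  exact IntermediateField.finiteDimensional_adjoin
    (fun x _ => ((AlgebraicClosure.isAlgebraic ℚ).isAlgebraic x).isIntegral)

theorem mem_rootsField (m : ℕ) (z : Qbar) (hz : z ^ m = 1) : z ∈ rootsField m :=
  IntermediateField.subset_adjoin ℚ _ hz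

theorem rootsField_normal (m : ℕ) : Normal ℚ (rootsField m) := by
  haveI := S55.H48.qbar_isAlgebraic
  haveI := S55.H48.qbar_isGalois
  haveI : Normal ℚ Qbar := IsGalois.to_normal
  refine (IntermediateField.normal_iff_forall_map_le' (F := ℚ) (L := Qbar)
    (K := rootsField m)).mpr ?_
  intro σ
  rw [rootsField, IntermediateField.adjoin_map]
  apply IntermediateField.adjoin.mono
  rintro _ ⟨z, hz, rfl⟩
  show (σ z) ^ m = 1
  rw [← map_pow, show z ^ m = 1 from hz, map_one]

/-- An automorphism fixing the `m`-th roots of unity fixes `rootsField m`. -/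
theorem mem_fixingSubgroup_rootsField (m : ℕ) (g : Qbar ≃ₐ[ℚ] Qbar)
    (h : ∀ z : Qbar, z ^ m = 1 → g z = z) : g ∈ (rootsField m).fixingSubgroup := by
  rw [IntermediateField.mem_fixingSubgroup_iff]
  have hle : rootsField m ≤ IntermediateField.fixedField (Subgroup.zpowers g) := by
    rw [rootsField, IntermediateField.adjoin_le_iff]
    intro z hz
    rintro ⟨h', n, rfl⟩
    show (g ^ n) z = z
    have hmem : g ∈ MulAction.stabilizer (Qbar ≃ₐ[ℚ] Qbar) z := h z hz
    exact zpow_mem hmem n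
  intro x hx
  exact hle hx ⟨g, Subgroup.mem_zpowers g⟩

/-- A finite extension whose fixing subgroup is normal is normal. -/
theorem normal_of_fixingSubgroup_normal (N : IntermediateField ℚ Qbar)
    (h : N.fixingSubgroup.Normal) : Normal ℚ N := by
  haveI := S55.H48.qbar_isAlgebraic
  haveI := S55.H48.qbar_isGalois
  haveI : Normal ℚ Qbar := IsGalois.to_normal
  refine (IntermediateField.normal_iff_forall_map_le' (F := ℚ) (L := Qbar) (K := N)).mpr ?_
  intro σ
  rintro _ ⟨x, hx, rfl⟩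
  show σ x ∈ N
  rw [← InfiniteGalois.fixedField_fixingSubgroup N, IntermediateField.mem_fixedField_iff]
  intro g hg
  have h1 : σ⁻¹ * g * σ ∈ N.fixingSubgroup := by
    have := h.conj_mem g hg σ⁻¹
    rw [inv_inv] at this
    exact this
  have h2 : (σ⁻¹ * g * σ) x = x := (IntermediateField.mem_fixingSubgroup_iff N _).mp h1 x hx
  have h3 : σ ((σ⁻¹ * g * σ) x) = g (σ x) := by
    show σ (σ⁻¹ (g (σ x))) = g (σ x)
    exact AlgEquiv.apply_symm_apply σ _
  rw [← h3, h2]

/-- Iterating an automorphism which raises the `m`-th roots of unity to the `q`-th power. -/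
theorem pow_apply_root (m q : ℕ) (g : Qbar ≃ₐ[ℚ] Qbar)
    (h : ∀ z : Qbar, z ^ m = 1 → g z = z ^ q) (j : ℕ) (z : Qbar) (hz : z ^ m = 1) :
    (g ^ j) z = z ^ (q ^ j) := by
  induction j with
  | zero => simp
  | succ j ih =>
    rw [pow_succ', AlgEquiv.mul_apply, ih, map_pow, h z hz, ← pow_mul, pow_succ']

/-- **Package UR2.** -/
theorem stmt_UR2 : Stmt_UR2 := by
  intro p _ k _ _ S₀ X hLev z hz q hq
  have hp : p.Prime := Fact.out
  haveI := S55.H48.qbar_isAlgebraic
  haveI := S55.H48.qbar_isGalois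
  haveI : Normal ℚ Qbar := IsGalois.to_normal
  haveI : Fact (q : ℕ).Prime := ⟨q.2⟩
  obtain ⟨F₁, hF₁, hX⟩ := hLev
  obtain ⟨hz2, F₂, hF₂, hzc⟩ := hz
  obtain ⟨N, hle, hN, hNn⟩ := S55.H48.exists_normal_level S₀ (F₁ ⊔ F₂) (hF₁.sup hF₂)
  have hle₁ : F₁ ≤ N := le_sup_left.trans hle
  have hle₂ : F₂ ≤ N := le_sup_right.trans hle
  haveI hNfin : FiniteDimensional ℚ N := hN.1
  haveI hNnormal : Normal ℚ N := normal_of_fixingSubgroup_normal N hNn
  -- the index
  obtain ⟨n, hndef⟩ : ∃ n : ℕ, n = N.fixingSubgroup.index := ⟨_, rfl⟩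
  have hn0 : 0 < n := by
    obtain ⟨-, -, hfin⟩ := S55.H13.fixedField_of_le N N.fixingSubgroup le_rfl
    haveI := hfin
    rw [hndef]
    exact Nat.pos_of_ne_zero Subgroup.index_ne_zero_of_finite
  -- the cyclotomic level
  obtain ⟨M, hMdef⟩ : ∃ M : ℕ, M = p * n := ⟨_, rfl⟩
  have hM0 : 0 < M := by rw [hMdef]; exact Nat.mul_pos hp.pos hn0
  have hq2 : 2 ≤ (q : ℕ) := q.2.two_le
  obtain ⟨m, hmdef⟩ : ∃ m : ℕ, m = (q : ℕ) ^ M - 1 := ⟨_, rfl⟩
  have hqM : 2 ≤ (q : ℕ) ^ M :=
    le_trans hq2 (Nat.le_self_pow (Nat.pos_iff_ne_zero.mp hM0) _)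
  have hm0 : 0 < m := by rw [hmdef]; omega
  have hmq : m.Coprime (q : ℕ) := by
    have h1 : m + 1 = (q : ℕ) ^ M := by rw [hmdef]; omega
    have h2 : (q : ℕ) ∣ (q : ℕ) ^ M := dvd_pow_self _ (Nat.pos_iff_ne_zero.mp hM0)
    rw [Nat.coprime_comm, Nat.Prime.coprime_iff_not_dvd q.2]
    intro h3
    have h4 : (q : ℕ) ∣ m + 1 := h1 ▸ h2
    have h5 : (q : ℕ) ∣ 1 := (Nat.dvd_add_right h3).mp h4
    have := Nat.le_of_dvd Nat.one_pos h5
    omega
  haveI : NeZero m := ⟨Nat.pos_iff_ne_zero.mp hm0⟩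
  haveI : NeZero (m : Qbar) := ⟨Nat.cast_ne_zero.mpr (NeZero.ne m)⟩
  obtain ⟨ζ, hζ⟩ := HasEnoughRootsOfUnity.exists_primitiveRoot Qbar m
  -- the level `F'`
  haveI := rootsField_finiteDimensional m hm0
  haveI := rootsField_normal m
  obtain ⟨F', hF'def⟩ : ∃ F' : IntermediateField ℚ Qbar, F' = N ⊔ rootsField m := ⟨_, rfl⟩
  haveI hF'fin : FiniteDimensional ℚ F' := by
    rw [hF'def]; exact IntermediateField.finiteDimensional_sup N (rootsField m)
  haveI hF'normal : Normal ℚ F' := by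
    rw [hF'def]
    exact @IntermediateField.normal_sup ℚ Qbar _ _ _ N (rootsField m) hNnormal
      (rootsField_normal m)
  have hNF' : N ≤ F' := by rw [hF'def]; exact le_sup_left
  have hζF' : ∀ t : Qbar, t ^ m = 1 → t ∈ F' := by
    intro t ht
    rw [hF'def]
    exact (le_sup_right : rootsField m ≤ N ⊔ rootsField m) (mem_rootsField m t ht)
  have hA : (primeLocalPlace q).LiesOverPrime (q : ℕ) := H9.primeLocalPlace_liesOver q
  have hIF' : (primeLocalPlace q).inertiaSubgroupIn ℚ ≤ F'.fixingSubgroup := by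
    intro g hg
    rw [hF'def, IntermediateField.fixingSubgroup_sup]
    refine ⟨hN.2 q hq _ hA hg, mem_fixingSubgroup_rootsField m g ?_⟩
    intro t ht
    exact R.H89.inertia_fixes_rootsOfUnity (q : ℕ) _ hA g hg m hmq t ht
  -- helper9's finite-level setting
  haveI : NumberField F' :=
    { to_charZero := inferInstance, to_finiteDimensional := inferInstance }
  have hA' : ((q : ℕ) : Qbar) ∈ (primeLocalPlace q).nonunits := hA
  have hq0 : (q : ℕ) ≠ 0 := q.2.ne_zero
  haveI : (H9.primeAt (primeLocalPlace q) F').IsMaximal := H9.primeAt_isMaximal _ _ hq0 hA'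
  haveI : Finite (𝓞 F' ⧸ H9.primeAt (primeLocalPlace q) F') :=
    H9.finite_quotient_primeAt _ _ hq0 hA'
  haveI : CharP (𝓞 F' ⧸ H9.primeAt (primeLocalPlace q) F') (q : ℕ) :=
    H9.charP_quotient_primeAt _ _ q.2 hA'
  obtain ⟨rt, hrtdef⟩ : ∃ rt : primeLocalGaloisGroup q →* (F' ≃ₐ[ℚ] F'),
      rt = (AlgEquiv.restrictNormalHom F').comp (primeLocalToGlobal q) := ⟨_, rfl⟩
  have hker : ∀ g : primeLocalGaloisGroup q,
      rt g = 1 ↔ primeLocalToGlobal q g ∈ F'.fixingSubgroup := by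
    intro g
    rw [← H9.mem_levelSubgroup, H9.levelSubgroup_eq_ker, MonoidHom.mem_ker, hrtdef]
  have hD' : ∀ σ ∈ rt.range, ∀ x : 𝓞 F',
      σ • x ∈ H9.primeAt (primeLocalPlace q) F' ↔ x ∈ H9.primeAt (primeLocalPlace q) F' := by
    rintro _ ⟨g, rfl⟩ x
    rw [H9.mem_primeAt, H9.mem_primeAt, hrtdef, MonoidHom.comp_apply,
      H9.intIncl_restrictNormal_smul]
    exact Fermat.Agent.Lib.InertiaBridge.valuation_map_lt_one_iff _ _
      (H9.primeLocalToGlobal_mem_decomposition q g) _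
  obtain ⟨φ', hφ', a, -, hgen'⟩ :=
    H9.exists_frob_generator (H9.primeAt (primeLocalPlace q) F') (q : ℕ) rt.range hD'
  obtain ⟨φ, rfl⟩ := hφ'
  -- the finite-level inertia group is trivial on the image of the local group
  have hinert : ∀ g : primeLocalGaloisGroup q,
      rt g ∈ (H9.primeAt (primeLocalPlace q) F').inertia (F' ≃ₐ[ℚ] F') →
        primeLocalToGlobal q g ∈ F'.fixingSubgroup := by
    intro g hg
    have h : ∀ x : Qbar, x ∈ F' → IsIntegral ℤ x →
        (primeLocalToGlobal q g) x - x ∈ (primeLocalPlace q).nonunits := by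
      intro x hx hxi
      have hxi' : IsIntegral ℤ (⟨x, hx⟩ : F') := by
        refine (isIntegral_algebraMap_iff (B := Qbar) ?_).1 hxi
        exact (algebraMap F' Qbar).injective
      obtain ⟨y, hy⟩ : ∃ y : 𝓞 F', H9.intIncl F' y = x := ⟨⟨⟨x, hx⟩, hxi'⟩, rfl⟩
      have h1 : rt g • y - y ∈ H9.primeAt (primeLocalPlace q) F' := hg y
      rw [H9.mem_primeAt, map_sub, hrtdef, MonoidHom.comp_apply,
        H9.intIncl_restrictNormal_smul, hy] at h1
      exact (ValuationSubring.mem_nonunits_iff _).2 h1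
    obtain ⟨σ, hσ, hσF⟩ := Fermat.Agent.Lib.InertiaLift.exists_mem_inertiaSubgroupIn_eqOn
      (q : ℕ) q.2 (primeLocalPlace q) hA F' (primeLocalToGlobal q g) h
    have hσ' : σ ∈ F'.fixingSubgroup := hIF' hσ
    rw [IntermediateField.mem_fixingSubgroup_iff] at hσ' ⊢
    intro x hx
    rw [← hσF x hx]
    exact hσ' x hx
  -- the two open subgroups
  obtain ⟨U, hUdef⟩ : ∃ U : Subgroup (primeLocalGaloisGroup q),
      U = N.fixingSubgroup.comap (primeLocalToGlobal q) := ⟨_, rfl⟩
  obtain ⟨U', hU'def⟩ : ∃ U' : Subgroup (primeLocalGaloisGroup q),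
      U' = F'.fixingSubgroup.comap (primeLocalToGlobal q) := ⟨_, rfl⟩
  have hmemU : ∀ g, g ∈ U ↔ primeLocalToGlobal q g ∈ N.fixingSubgroup := by
    intro g; rw [hUdef]; rfl
  have hmemU' : ∀ g, g ∈ U' ↔ primeLocalToGlobal q g ∈ F'.fixingSubgroup := by
    intro g; rw [hU'def]; rfl
  haveI hU'n : U'.Normal := by
    have h1 : U' = rt.ker := by
      ext g
      rw [hmemU', MonoidHom.mem_ker, hker]
    rw [h1]
    infer_instance
  have hUU : U' ≤ U := by
    intro g hg
    rw [hmemU'] at hg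
    rw [hmemU]
    exact IntermediateField.fixingSubgroup_antitone hNF' hg
  -- generation
  have hgen : ∀ h : primeLocalGaloisGroup q, ∃ j : ℕ, (φ ^ j)⁻¹ * h ∈ U' := by
    intro h
    obtain ⟨j, hj⟩ := hgen' (rt h) ⟨h, rfl⟩
    refine ⟨j, ?_⟩
    rw [hmemU']
    apply hinert
    rw [map_mul, map_inv, map_pow]
    exact hj
  -- the order
  obtain ⟨N', hN'def⟩ : ∃ N' : ℕ, N' = orderOf (rt φ) := ⟨_, rfl⟩
  have hN' : ∀ j : ℕ, φ ^ j ∈ U' → N' ∣ j := by
    intro j hj
    rw [hmemU', ← hker, map_pow] at hj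
    rw [hN'def]
    exact orderOf_dvd_of_pow_eq_one hj
  have hφn : φ ^ n ∈ U := by
    rw [hmemU, map_pow, hndef]
    exact Subgroup.pow_index_mem N.fixingSubgroup _
  -- `p n` divides the order: use a Frobenius element
  have hdiv : p * n ∣ N' := by
    obtain ⟨σ, hσ⟩ := Fermat.Agent.Lib.FrobExists.exists_isFrobeniusAt (q : ℕ) q.2
      (primeLocalPlace q) hA
    obtain ⟨τ, hτ'⟩ : ∃ τ : primeLocalGaloisGroup q,
        ∀ x ∈ F', primeLocalToGlobal q τ x = σ x :=
      Fermat.Agent.Lib.LocalGlobalDense.exists_local_lift_field (q : ℕ) σ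
        hσ.mem_decompositionSubgroup F'
    have hfrob : ∀ t : Qbar, t ^ m = 1 → primeLocalToGlobal q τ t = t ^ (q : ℕ) := by
      intro t ht
      rw [hτ' t (hζF' t ht)]
      exact R.H89.stmt_FrobCyc (q : ℕ) q.2 _ hA σ hσ m hmq t ht
    obtain ⟨j, hj⟩ := hgen τ
    have h1 : rt τ = rt φ ^ j := by
      rw [hmemU', ← hker, map_mul, map_inv, map_pow] at hj
      exact (inv_mul_eq_one.mp hj).symm
    have h2 : rt (τ ^ N') = 1 := by
      rw [map_pow, h1, ← pow_mul, mul_comm, pow_mul, hN'def, pow_orderOf_eq_one, one_pow]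
    have h3 : primeLocalToGlobal q (τ ^ N') ∈ F'.fixingSubgroup := (hker _).mp h2
    have h4 : (primeLocalToGlobal q τ ^ N') ζ = ζ := by
      rw [← map_pow]
      exact (IntermediateField.mem_fixingSubgroup_iff F' _).mp h3 ζ (hζF' ζ hζ.pow_eq_one)
    rw [pow_apply_root m (q : ℕ) _ hfrob N' ζ hζ.pow_eq_one] at h4
    have hpos : 1 ≤ (q : ℕ) ^ N' := Nat.one_le_pow _ _ q.2.pos
    have h5 : ζ ^ ((q : ℕ) ^ N' - 1) = 1 := by
      have hζ0 : ζ ≠ 0 := hζ.ne_zero (NeZero.ne m)
      have h6 : ζ ^ ((q : ℕ) ^ N' - 1) * ζ = 1 * ζ := by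
        rw [← pow_succ, Nat.sub_add_cancel hpos, h4, one_mul]
      exact mul_right_cancel₀ hζ0 h6
    have h7 : m ∣ (q : ℕ) ^ N' - 1 := hζ.dvd_of_pow_eq_one _ h5
    rw [hmdef] at h7
    have h8 := dvd_of_pow_sub_one_dvd (q : ℕ) M N' hq2 hM0 h7
    rw [hMdef] at h8
    exact h8
  -- the algebraic core
  have hpX : ∀ x : X, p • x = 0 := by
    intro x
    rw [← Nat.cast_smul_eq_nsmul k p x, CharP.cast_eq_zero k p, zero_smul]
  obtain ⟨ρ', hρ'def⟩ : ∃ ρ' : Representation k (primeLocalGaloisGroup q) X,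
      ρ' = X.ρ.comp (primeLocalToGlobal q) := ⟨_, rfl⟩
  have hρ'apply : ∀ (g : primeLocalGaloisGroup q) (x : X),
      ρ' g x = X.ρ (primeLocalToGlobal q g) x := by
    intro g x; rw [hρ'def]; rfl
  have hcoc : ∀ a b c : primeLocalGaloisGroup q,
      ρ' a (S55.resTwo q z (b, c)) - S55.resTwo q z (a * b, c) + S55.resTwo q z (a, b * c)
        - S55.resTwo q z (a, b) = 0 := by
    intro a b c
    have h1 := congrFun hz2 (primeLocalToGlobal q a, primeLocalToGlobal q b,
      primeLocalToGlobal q c)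
    rw [hρ'apply]
    show X.ρ (primeLocalToGlobal q a) (z (primeLocalToGlobal q b, primeLocalToGlobal q c))
      - z (primeLocalToGlobal q (a * b), primeLocalToGlobal q c)
      + z (primeLocalToGlobal q a, primeLocalToGlobal q (b * c))
      - z (primeLocalToGlobal q a, primeLocalToGlobal q b) = 0
    rw [map_mul, map_mul]
    exact h1
  have hρ : ∀ s ∈ U, ρ' s = 1 := by
    intro s hs
    rw [hmemU] at hs
    apply LinearMap.ext
    intro x
    rw [hρ'apply]
    exact hX _ (IntermediateField.fixingSubgroup_antitone hle₁ hs) x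
  have hzU : ∀ g g' s s', s ∈ U → s' ∈ U →
      S55.resTwo q z (g * s, g' * s') = S55.resTwo q z (g, g') := by
    intro g g' s s' hs hs'
    rw [hmemU] at hs hs'
    show z (primeLocalToGlobal q (g * s), primeLocalToGlobal q (g' * s')) =
      z (primeLocalToGlobal q g, primeLocalToGlobal q g')
    rw [map_mul, map_mul]
    exact hzc _ _ _ _ (IntermediateField.fixingSubgroup_antitone hle₂ hs)
      (IntermediateField.fixingSubgroup_antitone hle₂ hs')
  obtain ⟨g, hg1, hg2⟩ := exists_cochain_of_cyclic ρ' (S55.resTwo q z) hcoc U U' hUU hρ hzU φ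
    hgen N' hN' p n hpX hφn hdiv
  refine ⟨g, ⟨F', hF'fin, fun h s hs => hg1 h s ((hmemU' s).mpr hs)⟩, ?_⟩
  funext x
  show X.ρ (primeLocalToGlobal q x.1) (g x.2) - g (x.1 * x.2) + g x.1 = S55.resTwo q z x
  rw [← hρ'apply]
  exact hg2 x.1 x.2

end Fermat.Agent.S56.GWC.H46

end
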