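import Fermat.Agent.S56.GWC.H01_Cone1

/-!
# S56 / GW-CORE / PT2, package RS (helper9), part 1: transfer along additive equivalences

Let `A` (over `k₁`) and `B` (over `k₂`) be representations of `G_ℚ` and `e : A ≃+ B` an
additive, `G_ℚ`-equivariant bijection (the fields of scalars may differ).  Then
`Ш¹_S`, `H²_S`, `H⁰(ℚ, ·)` and `H⁰(ℚ_q, ·)` of `A` and of `B` have the same cardinality.
-/

set_option autoImplicit false
set_option linter.unusedSectionVars false

noncomputable section

namespace Fermat.Agent.S56.GWC.H9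

open CategoryTheory groupCohomology ExtCitation Module
open Fermat.Agent

/-- Two pairs of subgroups which correspond under an additive equivalence have the same
relative index. -/
lemma relIndex_eq_of_addEquiv {G H : Type*} [AddGroup G] [AddGroup H] (E : G ≃+ H)
    (N K : AddSubgroup G) (N' K' : AddSubgroup H)
    (hN : ∀ x, E x ∈ N' ↔ x ∈ N) (hK : ∀ x, E x ∈ K' ↔ x ∈ K) :
    N'.relIndex K' = N.relIndex K := by
  have h1 : N' = N.map E.toAddMonoidHom := by
    ext y
    rw [AddSubgroup.mem_map_equiv, ← hN, AddEquiv.apply_symm_apply]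
  have h2 : K' = K.map E.toAddMonoidHom := by
    ext y
    rw [AddSubgroup.mem_map_equiv, ← hK, AddEquiv.apply_symm_apply]
  rw [h1, h2]
  exact AddSubgroup.relIndex_map_map_of_injective N K E.injective

section transfer

variable {k₁ k₂ : Type} [Field k₁] [Field k₂] (S : Finset Nat.Primes)
  {A : Rep.{0} k₁ S55.GQ} {B : Rep.{0} k₂ S55.GQ} (e : A ≃+ B)
  (he : ∀ (g : S55.GQ) (a : A), e (A.ρ g a) = B.ρ g (e a))

include he

lemma comp_dZero (m : A) : (fun g => e (S55.dZero A m g)) = S55.dZero B (e m) := by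
  funext g
  simp only [S55.dZero, map_sub, he]

lemma comp_dZeroL (q : Nat.Primes) (m : A) :
    (fun h => e (S55.dZeroL A q m h)) = S55.dZeroL B q (e m) := by
  funext h
  simp only [S55.dZeroL, map_sub, he]

lemma comp_dOne (f : S55.GQ → A) :
    (fun x => e (S55.dOne A f x)) = S55.dOne B (fun g => e (f g)) := by
  funext x
  simp only [S55.dOne, map_sub, map_add, he]

lemma comp_dTwo (f : S55.GQ × S55.GQ → A) :
    (fun x => e (S55.dTwo A f x)) = S55.dTwo B (fun g => e (f g)) := by
  funext x
  simp only [S55.dTwo, map_sub, map_add, he]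

omit he

lemma comp_eq_zero_iff {X : Type*} (f : X → A) : (fun x => e (f x)) = 0 ↔ f = 0 := by
  constructor
  · intro h
    funext x
    have := congrFun h x
    simpa using this
  · rintro rfl
    funext x
    simp

lemma levS₁_comp_iff (f : S55.GQ → A) :
    IsLevelConstantS₁ S (fun g => e (f g)) ↔ IsLevelConstantS₁ S f := by
  constructor
  · intro h
    have := h.comp e.symm
    have e1 : (e.symm ∘ fun g => e (f g)) = f := by
      funext g
      simp
    rwa [e1] at this
  · intro h
    exact h.comp e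

lemma levS₂_comp_iff (f : S55.GQ × S55.GQ → A) :
    IsLevelConstantS₂ S (fun g => e (f g)) ↔ IsLevelConstantS₂ S f := by
  constructor
  · intro h
    have := h.comp e.symm
    have e1 : (e.symm ∘ fun g => e (f g)) = f := by
      funext g
      simp
    rwa [e1] at this
  · intro h
    exact h.comp e

/-- The induced equivalence on cone 1-cochains. -/
def coneEquiv : S55.C1c S A ≃+ S55.C1c S B :=
  AddEquiv.prodCongr (AddEquiv.piCongrRight fun _ => e) (AddEquiv.piCongrRight fun _ => e)

lemma coneEquiv_fst (y : S55.C1c S A) : (coneEquiv S e y).1 = fun g => e (y.1 g) := rfl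

lemma coneEquiv_snd (y : S55.C1c S A) : (coneEquiv S e y).2 = fun q => e (y.2 q) := rfl

include he

lemma isZ1c_coneEquiv_iff (y : S55.C1c S A) :
    S55.IsZ1c S B (coneEquiv S e y) ↔ S55.IsZ1c S A y := by
  unfold S55.IsZ1c S55.IsZ1S
  rw [coneEquiv_fst, coneEquiv_snd, ← comp_dOne e he, comp_eq_zero_iff, levS₁_comp_iff]
  refine and_congr Iff.rfl (forall_congr' fun q => ?_)
  rw [← comp_dZeroL e he]
  constructor
  · intro h
    funext x
    exact e.injective (congrFun h x)
  · intro h
    funext x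
    exact congrArg e (congrFun h x)

lemma mem_grpKc_coneEquiv_iff (y : S55.C1c S A) :
    coneEquiv S e y ∈ H01.grpKc S B ↔ y ∈ H01.grpKc S A := by
  rw [H01.mem_grpKc, H01.mem_grpKc, H01.mem_grpZ1c, H01.mem_grpZ1c, isZ1c_coneEquiv_iff S e he]
  refine and_congr Iff.rfl ?_
  rw [coneEquiv_fst]
  constructor
  · rintro ⟨m, hm⟩
    refine ⟨e.symm m, ?_⟩
    funext g
    apply e.injective
    have := congrFun hm g
    have h2 := congrFun (comp_dZero e he (e.symm m)) g
    rw [AddEquiv.apply_symm_apply] at h2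
    rw [this, h2]
  · rintro ⟨m, hm⟩
    refine ⟨e m, ?_⟩
    rw [← comp_dZero e he, hm]

/-- `#Ш¹_S(A) = #Ш¹_S(B)`. -/
theorem card_sha1_eq (h2₁ : (2 : k₁) ≠ 0) (h2₂ : (2 : k₂) ≠ 0) :
    Nat.card (sha₁ S A) = Nat.card (sha₁ S B) := by
  rw [← H01.relIndex_grpKc S A h2₁, ← H01.relIndex_grpKc S B h2₂]
  refine (relIndex_eq_of_addEquiv (coneEquiv S e) _ _ _ _ (mem_grpKc_coneEquiv_iff S e he) ?_).symm
  intro y
  rw [H01.mem_grpZ1c, H01.mem_grpZ1c, isZ1c_coneEquiv_iff S e he]

omit he in
/-- `#H²_S(X)` as a relative index. -/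
theorem card_H2S_eq_relIndex {k : Type} [Field k] (X : Rep.{0} k S55.GQ) :
    Nat.card (continuousH2S S X) =
      (levelCoboundariesS₂ S X).toAddSubgroup.relIndex (levelCocyclesS₂ S X).toAddSubgroup :=
  rfl

/-- `#H²_S(A) = #H²_S(B)`. -/
theorem card_H2S_eq : Nat.card (continuousH2S S A) = Nat.card (continuousH2S S B) := by
  rw [card_H2S_eq_relIndex, card_H2S_eq_relIndex]
  refine (relIndex_eq_of_addEquiv
    (AddEquiv.piCongrRight fun _ : S55.GQ × S55.GQ => e) _ _ _ _ ?_ ?_).symm
  · intro x
    show (fun t => e (x t)) ∈ levelCoboundariesS₂ S B ↔ x ∈ levelCoboundariesS₂ S A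
    rw [mem_levelCoboundariesS₂_iff, mem_levelCoboundariesS₂_iff]
    constructor
    · rintro ⟨f, hf, hfx⟩
      refine ⟨fun g => e.symm (f g), hf.comp e.symm, ?_⟩
      rw [S55.H48.d12_eq] at hfx ⊢
      funext t
      apply e.injective
      have h1 := congrFun (comp_dOne e he (fun g => e.symm (f g))) t
      simp only [AddEquiv.apply_symm_apply] at h1
      rw [h1]
      exact congrFun hfx t
    · rintro ⟨f, hf, hfx⟩
      refine ⟨fun g => e (f g), hf.comp e, ?_⟩
      rw [S55.H48.d12_eq] at hfx ⊢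
      rw [← comp_dOne e he, hfx]
  · intro x
    show (fun t => e (x t)) ∈ levelCocyclesS₂ S B ↔ x ∈ levelCocyclesS₂ S A
    rw [mem_levelCocyclesS₂_iff, mem_levelCocyclesS₂_iff, S55.H48.mem_cocycles₂_iff_dTwo,
      S55.H48.mem_cocycles₂_iff_dTwo, ← comp_dTwo e he, comp_eq_zero_iff, levS₂_comp_iff]

/-- `#H⁰(ℚ, A) = #H⁰(ℚ, B)`. -/
theorem card_invariants_eq : Nat.card A.ρ.invariants = Nat.card B.ρ.invariants := by
  refine Nat.card_congr (e.toEquiv.subtypeEquiv fun a => ?_)
  rw [Representation.mem_invariants, Representation.mem_invariants]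
  constructor
  · intro h g
    show B.ρ g (e a) = e a
    rw [← he, h]
  · intro h g
    apply e.injective
    rw [he]
    exact h g

/-- `#H⁰(ℚ_q, A) = #H⁰(ℚ_q, B)`. -/
theorem card_loc_invariants_eq (q : Nat.Primes) :
    Nat.card (S56.locRep A q).ρ.invariants = Nat.card (S56.locRep B q).ρ.invariants := by
  refine Nat.card_congr (e.toEquiv.subtypeEquiv fun a => ?_)
  rw [Representation.mem_invariants, Representation.mem_invariants]
  constructor
  · intro h g
    show B.ρ (primeLocalToGlobal q g) (e a) = e a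
    rw [← he]
    exact congrArg e (h g)
  · intro h g
    apply e.injective
    show e (A.ρ (primeLocalToGlobal q g) a) = e a
    rw [he]
    exact h g

end transfer

end Fermat.Agent.S56.GWC.H9
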